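import Fermat.Agent.LevelLowering.JointRing
import Fermat.Agent.LevelLowering.Scalar.Assembly
import Fermat.Agent.LevelLowering.Scalar.PointsGlue
import Fermat.Agent.LevelLowering.TWDiamond
import Fermat.Agent.Raising.Inputs

/-!
# Lowering at scalar primes from operator levels

Levels in coordinates with their eigensystems (`OpLevel`), one without auxiliary primes and one for
each choice of Taylor–Wiles primes, give the Hecke algebras that the patching argument wants: a
scalar prime with exact monodromy at the level without auxiliary primes is impossible.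
-/

noncomputable section

namespace Fermat.Agent.LevelLowering.Semistable

open Module IsLocalRing Polynomial Fermat.Agent.LevelLowering Fermat.Agent.LevelLowering.Scalar
  Fermat.Agent.Raising
open Fermat.Agent.Gal Fermat.Agent.TW Fermat.Agent.PT

local notation "Qbar" => AlgebraicClosure ℚ
local notation "GQ" => (AlgebraicClosure ℚ ≃ₐ[ℚ] AlgebraicClosure ℚ)

variable {O : Type} [CommRing O] [IsDomain O] [IsDiscreteValuationRing O]
  [IsAdicComplete (maximalIdeal O) O] [Finite (ResidueField O)] {p : ℕ} [Fact p.Prime]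
  [CharP (ResidueField O) p]

/-- The residual data shared by all the levels. -/
structure LowerBase (p : ℕ) (ρbar : ResidualGaloisRep (ResidueField O)) (c₀ : ℕ → O)
    (S₀ : Finset ℕ) : Prop where
  two : IsUnit (2 : O)
  p_mem : (p : O) ∈ maximalIdeal O
  absIrr : ρbar.IsAbsolutelyIrreducible
  odd : ∃ g : GQ, g * g = 1 ∧ LinearMap.det (ρbar.ρ g) = -1
  p_bad : p ∈ S₀
  frob : ∀ ℓ : ℕ, ℓ.Prime → ℓ ∉ S₀ → ∀ P : ValuationSubring Qbar, P.LiesOverPrime ℓ →
    ∀ σ : GQ, P.IsFrobeniusAt σ ℓ → LinearMap.charpoly (ρbar.ρ σ) =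
      X ^ 2 - C (residue O (c₀ ℓ)) * X + C (ℓ : ResidueField O)

variable {ρbar : ResidualGaloisRep (ResidueField O)} {c₀ : ℕ → O} {S₀ : Finset ℕ}

omit [IsDomain O] [IsDiscreteValuationRing O] [IsAdicComplete (maximalIdeal O) O]
  [Finite (ResidueField O)] [CharP (ResidueField O) p] in
/-- A level with a nonzero rank has an eigensystem. -/
theorem nonempty_of_opLevel {B : Type} [CommRing B] [Algebra O B] [Nontrivial B] {d : ℕ}
    (hd : 0 < d) {S : Finset ℕ} (L : OpLevel O S c₀ B d) : Nonempty L.κ := by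
  by_contra h
  rw [not_nonempty_iff] at h
  have h1 : L.Φ 1 = 0 := (L.ker_iff 1).mpr fun a => isEmptyElim a
  rw [map_one] at h1
  have h2 := congrFun (congrFun h1 ⟨0, hd⟩) ⟨0, hd⟩
  rw [Matrix.one_apply_eq, Matrix.zero_apply] at h2
  exact one_ne_zero h2

/-- The joint ring of the eigensystems of a level. -/
abbrev LevelRing (p : ℕ) (ρbar : ResidualGaloisRep (ResidueField O)) {S : Finset ℕ} {c₀ : ℕ → O}
    {B : Type} [CommRing B] [Algebra O B] {d : ℕ} (L : OpLevel O S c₀ B d) : Type 1 :=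
  JointRing p ρbar S L.F (fun a ℓ => L.ev a (L.x ℓ)) L.ρ

omit [CharP (ResidueField O) p] in
/-- The joint ring of a level exists. -/
theorem nonempty_levelRing (hb : LowerBase p ρbar c₀ S₀) {S : Finset ℕ} (hS : S₀ ⊆ S)
    {B : Type} [CommRing B] [Algebra O B] [Nontrivial B] {d : ℕ} (hd : 0 < d)
    (L : OpLevel O S c₀ B d) : Nonempty (LevelRing p ρbar L) := by
  have := nonempty_of_opLevel hd L
  exact exists_jointRing hb.two hb.p_mem hb.absIrr hb.odd c₀
    (fun ℓ hℓ hℓS => hb.frob ℓ hℓ fun h => hℓS (hS h)) L.residual L.frob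

omit [CharP (ResidueField O) p] in
/-- **The level without auxiliary primes.** -/
theorem exists_levelCore_zero (hb : LowerBase p ρbar c₀ S₀) {d : ℕ} (hd : 0 < d)
    (L : OpLevel O S₀ c₀ O d) (Tm : ℕ → Matrix (Fin d) (Fin d) O)
    (hTm : ∀ ℓ : ℕ, ℓ.Prime → ℓ ∉ S₀ → L.Φ (L.x ℓ) = Tm ℓ) :
    Nonempty (LevelCore p ρbar 0 d Tm S₀) := by
  obtain ⟨R⟩ := nonempty_levelRing hb (Finset.Subset.refl S₀) hd L
  obtain ⟨act, hact, -, -⟩ := R.exists_act L.Φ L.x id L.ev (fun a ℓ _ _ => rfl)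
    fun z hz => (L.ker_iff z).mpr hz
  let ι : O →+* MvPowerSeries (Fin 0) O ⧸ (⊥ : Ideal (MvPowerSeries (Fin 0) O)) :=
    (Ideal.Quotient.mk ⊥).comp MvPowerSeries.C
  exact ⟨{
    T := R.T
    residue_surjective := R.residue_surjective
    ρ := R.ρ
    residual := R.residual
    det := R.det
    τ := R.τ
    trace_frob := fun ℓ hℓ hℓS A hA σ hσ => (R.trace_frob ℓ hℓ hℓS A hA σ hσ).1
    gen := R.gen
    J := ⊥
    J_aug := fun s hs => by rw [Ideal.mem_bot.mp hs, map_zero]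
    act := ι.mapMatrix.comp act.toRingHom
    act_algebraMap := fun c => by
      show (act (algebraMap O R.T c)).map ι = _
      rw [AlgHom.commutes]
      ext i j
      rcases eq_or_ne i j with rfl | h <;> simp [ι, Matrix.algebraMap_matrix_apply, *]
    act_aug := fun ℓ hℓ hℓS => by
      show ((act (R.τ ℓ)).map ι).map _ = _
      rw [hact ℓ hℓ hℓS, hTm ℓ hℓ hℓS]
      ext i j
      simp [ι] }⟩

variable (K : Type) [Field K] [IsAlgClosed K] [CharZero K] [Algebra O K]
  {bbar : Basis (Fin 2) (ResidueField O) ρbar.V} {m D d : ℕ}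

/-- What one choice of Taylor–Wiles primes provides. -/
structure LowerLevel (P : ScalarPrimes p ρbar bbar m) (g D d : ℕ) (c₀ : ℕ → O)
    (Tm : ℕ → Matrix (Fin d) (Fin d) O) (S₀ : Finset ℕ)
    (Cp : Submodule (ResidueField O) (GQ → sl2 (ResidueField O)))
    (qv : Fin D → ℕ) (lv : Fin D → ℕ) : Type 1 where
  /-- The finite set of primes left out at this level. -/
  S : Finset ℕ
  subset : S₀ ⊆ S
  /-- The level as operators over the diamond coordinates, with their eigensystems. -/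
  L : OpLevel O S c₀ (DiaCoords O p lv) d
  aug_x : ∀ ℓ : ℕ, ℓ.Prime → ℓ ∉ S →
    (L.Φ (L.x ℓ)).map
      (Ideal.Quotient.lift _ MvPowerSeries.constantCoeff (diamondIdeal_aug p lv)) = Tm ℓ
  qv_prime : ∀ i, (qv i).Prime
  qv_ne : ∀ i, qv i ≠ p
  lv_pos : ∀ i, 1 ≤ lv i
  lv_dvd : ∀ i, p ^ lv i ∣ qv i - 1
  lv_max : ∀ i, ¬ p ^ (lv i + 1) ∣ qv i - 1
  qv_unramified : ∀ i, ρbar.IsUnramifiedAt (qv i)
  qv_roots : ∀ i, ∀ A : ValuationSubring Qbar, A.LiesOverPrime (qv i) → ∀ φ : GQ,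
    A.IsFrobeniusAt φ (qv i) → ∃ α β : ResidueField O, α ≠ β ∧
      LinearMap.charpoly (ρbar.ρ φ) = (X - C α) * (X - C β)
  scalar_unipotent : ∀ a i, (L.ρ a).IsUnipotentOnInertiaAt (P.r i)
  outside : ∀ ℓ : ℕ, ℓ.Prime → ℓ ∉ insert p (natSet P.primes ∪ Finset.univ.image qv) →
    (∀ a, (L.ρ a).IsUnramifiedAt ℓ) ∨
      ((∀ a, (L.ρ a).IsUnipotentOnInertiaAt ℓ) ∧ ¬ ρbar.IsUnramifiedAt ℓ)
  at_p : ∀ (R : LevelRing p ρbar L) (b : Basis (Fin 2) R.T R.ρ.V)
    (hb : Adapted bbar R.residue_surjective R.ρ b) (δ : tangent R.residue_surjective),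
    tanCocycle hb R.det δ ∈ Cp
  classes_fin : FiniteDimensional (ResidueField O)
    (classes (adRep (rbar bbar)) (P.strictSpace Cp qv))
  classes_le : finrank (ResidueField O) (classes (adRep (rbar bbar)) (P.strictSpace Cp qv)) ≤ g
  /-- An eigencharacter at a character of the diamonds has the kernel of an eigensystem, unipotent
  at the auxiliary primes where the character is trivial, not at the one supporting it. -/
  tw_point : ∀ (φ : DiaCoords O p lv →ₐ[O] K) (e : L.A →+* K),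
    (∃ w : Fin d → K, w ≠ 0 ∧ ∀ z, ((L.Φ z).map φ).mulVec w = e z • w) →
    ∃ a : L.κ, (∀ z, e z = 0 ↔ L.ev a z = 0) ∧
      (∀ i, φ (diaX O p lv i) = 0 → (L.ρ a).IsUnipotentOnInertiaAt (qv i)) ∧
      ∀ i, (∀ i', i' ≠ i → φ (diaX O p lv i') = 0) →
        IsPrimitiveRoot (1 + φ (diaX O p lv i)) p → ¬ (L.ρ a).IsUnipotentOnInertiaAt (qv i)

variable {K} {P : ScalarPrimes p ρbar bbar m} {g : ℕ} {Tm : ℕ → Matrix (Fin d) (Fin d) O}
  {Cp : Submodule (ResidueField O) (GQ → sl2 (ResidueField O))} {qv lv : Fin D → ℕ}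

omit [IsAdicComplete (maximalIdeal O) O] [Finite (ResidueField O)] [Fact p.Prime]
  [CharP (ResidueField O) p] [CharZero K] in
/-- A character with an eigenvector for the action of the joint ring has, coefficientwise, the
kernel of one of the eigensystems of the level. -/
theorem exists_eigen_ker {B : Type} [CommRing B] [Algebra O B] {S : Finset ℕ}
    {L : OpLevel O S c₀ B d} (R : LevelRing p ρbar L) {act : R.T →ₐ[O] Matrix (Fin d) (Fin d) B}
    (hlift : ∀ t, ∃ z, L.Φ z = act t ∧ ∀ a, L.ev a z = R.pt a t) (φ : B →ₐ[O] K)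
    (lam : R.T →+* K)
    (hw : ∃ w : Fin d → K, w ≠ 0 ∧ ∀ t, ((act t).map φ).mulVec w = lam t • w) :
    ∃ e : L.A →+* K, (∃ w : Fin d → K, w ≠ 0 ∧ ∀ z, ((L.Φ z).map φ).mulVec w = e z • w) ∧
      ∀ a, (∀ z, e z = 0 ↔ L.ev a z = 0) → ∀ t, lam t = 0 ↔ R.pt a t = 0 := by
  classical
  obtain ⟨w, hw0, hwt⟩ := hw
  choose z hz hzev using hlift
  obtain ⟨e, hv, he⟩ := exists_eigenChar_extend ((φ : B →+* K).mapMatrix.comp L.Φ.toRingHom) z lam
    hw0 fun t => (congrArg (fun M => (M.map φ).mulVec w) (hz t)).trans (hwt t)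
  exact ⟨e, hv, fun a ha t => by rw [← he t, ha (z t), hzev t a]⟩

/-- The Taylor–Wiles level gives the data of the patching. -/
theorem exists_levelData (hb : LowerBase p ρbar c₀ S₀) (hd : 0 < d) (hp2 : p ≠ 2)
    (hinjK : Function.Injective (algebraMap O K))
    (Lw : LowerLevel K P g D d c₀ Tm S₀ Cp qv lv) :
    ∃ X : LevelData P g D d Tm Lw.S, X.core.J = diamondIdeal (𝒪 := O) p lv := by
  classical
  have hp : p.Prime := Fact.out
  have : Nontrivial (DiaCoords O p lv) :=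
    RingHom.domain_nontrivial
      (Ideal.Quotient.lift _ MvPowerSeries.constantCoeff (diamondIdeal_aug p lv))
  obtain ⟨R⟩ := nonempty_levelRing hb Lw.subset hd Lw.L
  obtain ⟨act, hact, -, hlift⟩ := R.exists_act Lw.L.Φ Lw.L.x id Lw.L.ev (fun a ℓ _ _ => rfl)
    fun z hz => (Lw.L.ker_iff z).mpr hz
  obtain ⟨b, hadb⟩ := exists_adapted (bbar := bbar) R.residue_surjective R.ρ R.residual
  have hfinT : Finite (ResidueField R.T) := Finite.of_surjective
    (ResidueField.map (algebraMap O R.T)) fun y => by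
      obtain ⟨a, rfl⟩ := R.residue_surjective y
      exact ⟨residue O a, rfl⟩
  let M : GQ →* Matrix (Fin 2) (Fin 2) R.T := matrixRep b R.ρ.ρ
  have hMres : ∀ σ, (M σ).map (residue R.T) =
      (rbar bbar σ).map (ResidueField.map (algebraMap O R.T)) := fun σ => by
    ext i j
    rw [Matrix.map_apply, Matrix.map_apply, ← toRes_entry hadb σ i j]
    exact (map_resEquiv_toRes R.residue_surjective _).symm
  have hlocpt : ∀ a, IsLocalHom (R.pt a).toRingHom := R.pt_local
  have hunipt : ∀ (a : Lw.L.κ) (q : ℕ), (Lw.L.ρ a).IsUnipotentOnInertiaAt q →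
      (R.ρ.baseChangeAlong (R.pt a).toRingHom (R.pt_local a)).IsUnipotentOnInertiaAt q :=
    fun a q h => isUnipotentOnInertiaAt_congr (R.pt_equiv a) h
  have hcharpt : ∀ a σ,
      LinearMap.charpoly ((R.ρ.baseChangeAlong (R.pt a).toRingHom (R.pt_local a)).ρ σ) =
        (M σ).charpoly.map (R.pt a).toRingHom := fun a σ => by
    let : Algebra R.T (Lw.L.F a) := (R.pt a).toRingHom.toAlgebra
    show LinearMap.charpoly ((R.ρ.ρ σ).baseChange (Lw.L.F a)) = _
    rw [LinearMap.charpoly_baseChange, ← LinearMap.charpoly_toMatrix _ b]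
    rfl
  choose A hA using fun i => Gal.exists_liesOverPrime (Lw.qv_prime i)
  choose Φq hΦq using fun i => Gal.exists_isFrobeniusAt (A := A i) (Lw.qv_prime i) (hA i)
  choose α β hαβ hroots using fun i => Lw.qv_roots i (A i) (hA i) (Φq i) (hΦq i)
  have htw : ∀ (φ : DiaCoords O p lv →ₐ[O] K) (lam : R.T →+* K),
      (∃ w : Fin d → K, w ≠ 0 ∧ ∀ t, ((act t).map φ).mulVec w = lam t • w) →
      ∃ a, (∀ t, lam t = 0 ↔ R.pt a t = 0) ∧
        (∀ i, φ (diaX O p lv i) = 0 → (Lw.L.ρ a).IsUnipotentOnInertiaAt (qv i)) ∧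
        ∀ i, (∀ i', i' ≠ i → φ (diaX O p lv i') = 0) →
          IsPrimitiveRoot (1 + φ (diaX O p lv i)) p →
            ¬ (Lw.L.ρ a).IsUnipotentOnInertiaAt (qv i) := by
    intro φ lam hw
    obtain ⟨e, he, hker⟩ := exists_eigen_ker R hlift φ lam hw
    obtain ⟨a, ha, h1, h2⟩ := Lw.tw_point φ e he
    exact ⟨a, hker a ha, h1, h2⟩
  obtain ⟨δ, act', hδ, hC', -, hzero, haug, hsq⟩ := exists_twDiamond_act (p := p) (lv := lv)
    hinjK hb.p_mem act.toRingHom (fun c => by
      show act (algebraMap O R.T c) = _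
      rw [AlgHom.commutes]
      ext i j
      rcases eq_or_ne i j with rfl | h <;> simp [Matrix.algebraMap_matrix_apply, *])
    qv Lw.qv_prime (fun i => (Lw.qv_ne i).symm) Lw.lv_pos Lw.lv_dvd Lw.lv_max
    (fun i => finite_roots_of_points (fun a => (R.pt a).toRingHom) R.pt_injective
      (pow_pos hp.pos _))
    M (fun n => exists_nearOne R.ρ b n) A hA Φq hΦq
    (fun i σ hσ => by
      rw [hMres, show rbar bbar σ = 1 from by
        show LinearMap.toMatrixAlgEquiv bbar (ρbar.ρ σ) = 1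
        rw [Lw.qv_unramified i (A i) (hA i) σ hσ, map_one]]
      exact Matrix.map_one _ (map_zero _) (map_one _))
    (fun i σ hσ => (LinearMap.det_toMatrix b _).trans
      (det_inertia_of_detIsCyclotomic R.det hp (Lw.qv_prime i) (Lw.qv_ne i) (hA i) hσ))
    (fun i => ResidueField.map (algebraMap O R.T) (α i))
    (fun i => ResidueField.map (algebraMap O R.T) (β i))
    (fun i h => hαβ i ((ResidueField.map (algebraMap O R.T)).injective h))
    (fun i => by
      rw [hMres, Matrix.charpoly_map,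
        show (rbar bbar (Φq i)).charpoly = LinearMap.charpoly (ρbar.ρ (Φq i)) from
          LinearMap.charpoly_toMatrix _ bbar, hroots i]
      simp)
    (fun i φ hφ lam hw σ hσ => by
      obtain ⟨a, hker, hu, -⟩ := htw φ lam hw
      rw [map_eq_sq_iff_of_ker _ lam (R.pt a).toRingHom hker, ← hcharpt]
      exact hunipt a _ (hu i hφ) (A i) (hA i) σ hσ)
    (fun i φ hφ hprim lam hw => by
      obtain ⟨a, hker, -, hn⟩ := htw φ lam hw
      by_contra hcon
      push Not at hcon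
      refine hn i hφ hprim (isUnipotentOnInertiaAt_congr ((R.pt_equiv a).map fun e => e.symm)
        (isUnipotentOnInertiaAt_of_place _ (Lw.qv_prime i) (hA i) fun σ hσ => ?_))
      rw [hcharpt, ← map_eq_sq_iff_of_ker _ lam (R.pt a).toRingHom hker]
      exact hcon σ hσ)
  have hsq2 : ∀ i j, (Pi.single j (Ideal.Quotient.mk (diamondIdeal (𝒪 := O) p lv)
        (MvPowerSeries.X i ^ 2)) : Fin d → DiaCoords O p lv) ∈
      Submodule.span (DiaCoords O p lv)
        {v | ∃ t ∈ maximalIdeal R.T, ∃ w, (act' t).mulVec w = v} := fun i j => by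
    have e : Ideal.Quotient.mk (diamondIdeal (𝒪 := O) p lv) (MvPowerSeries.X i ^ 2) =
        diaX O p lv i ^ 2 := map_pow _ _ _
    rw [e]
    exact hsq i j
  refine ⟨{
    core := {
      T := R.T
      residue_surjective := R.residue_surjective
      ρ := R.ρ
      residual := R.residual
      det := R.det
      τ := R.τ
      trace_frob := fun ℓ hℓ hℓS A hA σ hσ => (R.trace_frob ℓ hℓ hℓS A hA σ hσ).1
      gen := R.gen
      J := diamondIdeal (𝒪 := O) p lv
      J_aug := diamondIdeal_aug p lv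
      act := act'
      act_algebraMap := fun c => by rw [hC' c, algebraMap_S]
      act_aug := fun ℓ hℓ hℓS => by
        rw [haug]
        show (act (R.τ ℓ)).map _ = _
        rw [hact ℓ hℓ hℓS, Lw.aug_x ℓ hℓ hℓS] }
    ι := Lw.L.κ
    F := Lw.L.F
    pt := R.pt
    pt_mem := fun a x hx => map_nonunit (R.pt a).toRingHom x hx
    pts_injective := R.pt_injective
    pt_unipotent := fun a i => by
      have h := hunipt a _ (Lw.scalar_unipotent a i) (P.A i) (P.lies i) (P.σ i) (P.tame i).1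
      rw [hcharpt] at h
      show (LinearMap.charpoly (R.ρ.ρ (P.σ i))).map _ = _
      rw [← LinearMap.charpoly_toMatrix _ b]
      exact h
    Z := P.strictSpace Cp qv
    Z_fin := Lw.classes_fin
    Z_le := Lw.classes_le
    Z_mem := fun b' hb' δ' hδ' => P.tanCocycle_mem_strictSpace hp2 hb' R.det Cp qv
      (fun ℓ hℓ hℓn => (Lw.outside ℓ hℓ hℓn).imp
        (fun h => isUnramifiedAt_of_points (hψ := R.pt_local) R.pt_injective fun a =>
          isUnramifiedAt_congr (R.pt_equiv a) (h a))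
        (fun h => ⟨isUnipotentOnInertiaAt_of_points (hψ := R.pt_local) R.pt_injective fun a =>
          hunipt a ℓ (h.1 a), h.2⟩))
      δ' (Lw.at_p R b' hb' δ') hδ'
    sq_mem := hsq2 }, rfl⟩

/-- **A scalar prime with exact monodromy is impossible.** -/
theorem false_of_opLevels (hb : LowerBase p ρbar c₀ S₀) (hp2 : p ≠ 2)
    (hinjK : Function.Injective (algebraMap O K)) (P : ScalarPrimes p ρbar bbar m) {g : ℕ}
    (hD : m * 3 + g ≤ D) (hd : 0 < d) (L₀ : OpLevel O S₀ c₀ O d)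
    (Tm : ℕ → Matrix (Fin d) (Fin d) O)
    (hTm : ∀ ℓ : ℕ, ℓ.Prime → ℓ ∉ S₀ → L₀.Φ (L₀.x ℓ) = Tm ℓ)
    (qv lv : ℕ → Fin D → ℕ) (hlv : ∀ k, ∀ᶠ n in Filter.atTop,
      diamondIdeal (𝒪 := O) p (lv n) ≤ trunc O D k)
    (Lw : ∀ n, LowerLevel K P g D d c₀ Tm S₀ Cp (qv n) (lv n)) (i₀ : Fin m)
    (hexact : ∀ (T₀ : Type) [CommRing T₀] [IsLocalRing T₀] [IsNoetherianRing T₀] [Algebra O T₀]
      (A₀ : T₀ →ₐ[O] Matrix (Fin d) (Fin d) O) (M₀ : GQ →* Matrix (Fin 2) (Fin 2) T₀),
      AdicCont M₀ →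
      (∀ x, A₀ x ∈ Algebra.adjoin O (Tm '' {ℓ | ℓ.Prime ∧ ℓ ∉ S₀})) →
      (∃ g : Fin 4 → GQ, IsUnit (Matrix.of fun i j => Matrix.trace (M₀ (g i) * M₀ (g j))).det) →
      (∀ ℓ : ℕ, ℓ.Prime → ℓ ∉ S₀ → ∀ A : ValuationSubring Qbar, A.LiesOverPrime ℓ →
        ∀ σ : GQ, A.IsFrobeniusAt σ ℓ → A₀ (M₀ σ).trace = Tm ℓ ∧ (M₀ σ).det = (ℓ : T₀)) →
      ∀ w, resBlock (A₀ : T₀ →+* Matrix (Fin d) (Fin d) O) (M₀ (P.σ i₀) - 1) w = 0 →
        ∃ y, resBlock (A₀ : T₀ →+* Matrix (Fin d) (Fin d) O) (M₀ (P.σ i₀) - 1) y = w) :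
    False := by
  obtain ⟨C₀⟩ := exists_levelCore_zero hb hd L₀ Tm hTm
  choose X hX using fun n => exists_levelData hb hd hp2 hinjK (Lw n)
  exact false_of_levelData hb.two hb.absIrr P hD hd Tm hb.p_bad C₀ (fun n => (Lw n).S)
    (fun n => (Lw n).subset) X (fun k => (hlv k).mono fun n h => (hX n).le.trans h) i₀ hexact

end Fermat.Agent.LevelLowering.Semistable
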