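import Mathlib.Algebra.Ring.GeomSum
import Mathlib.Tactic.ComputeDegree
import Fermat.Agent.Frey.Local
import Fermat.Agent.LoweringAtP.PeuRamifie.Basic

/-!
# Inertia at `p` when all of `E[p]` reduces to `O`

The roots of the `p`-division polynomial then all have valuation `v(p) ^ (-1/d)`, `d = (p² - 1)/2`,
and distinct residues after scaling, so that inertia acts on them through a group of order at
least `d` in the residue field.  Hence the inertia elements do not all have `(p - 1)`st power `±1`.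
-/

noncomputable section

namespace Fermat.Agent.LevelLowering.Semistable

open Polynomial WeierstrassCurve Fermat.Agent.Frey Fermat.Agent.LoweringAtP.PeuRamifie
open scoped WeierstrassCurve.Affine

local notation "Qbar" => AlgebraicClosure ℚ
local notation "GQ" => AlgebraicClosure ℚ ≃ₐ[ℚ] AlgebraicClosure ℚ

variable {W : WeierstrassCurve ℤ} {p : ℕ} [hp : Fact p.Prime] {A : ValuationSubring Qbar}

/-- The shape of the division polynomial: `p X ^ d + ⋯ + a₀` with all roots outside `A`. -/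
theorem valuation_roots {d : ℕ} (hd : 0 < d) {g : Polynomial Qbar} (hA : A.LiesOverPrime p)
    (hint : ∀ i, ∃ n : ℤ, g.coeff i = n) (hdeg : g.natDegree = d) (hlead : g.coeff d = (p : Qbar))
    (hfar : ∀ r, g.IsRoot r → r ∉ A) :
    (∀ r, g.IsRoot r → A.valuation r ^ d * A.valuation (p : Qbar) = 1) ∧
      A.valuation (g.coeff 0) = 1 ∧
      ∀ i, 0 < i → i < d → A.valuation (g.coeff i) ≤ A.valuation (p : Qbar) := by
  classical
  have hp' : p.Prime := hp.out
  have hp0 : (p : Qbar) ≠ 0 := Nat.cast_ne_zero.2 hp'.ne_zero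
  have hg0 : g ≠ 0 := fun h => by simp [h] at hlead; exact hp0 hlead.symm
  have hl : g.leadingCoeff = (p : Qbar) := by rw [leadingCoeff, hdeg, hlead]
  have hmem : ∀ i, g.coeff i ∈ A := fun i => by
    obtain ⟨n, hn⟩ := hint i
    rw [hn]; exact Frey.intCast_mem A n
  have hdiv : ∀ i, g.coeff i ∈ A.nonunits → A.valuation (g.coeff i) ≤ A.valuation (p : Qbar) := by
    intro i hi
    obtain ⟨n, hn⟩ := hint i
    rw [hn] at hi ⊢
    obtain ⟨k, rfl⟩ := (Gal.intCast_mem_nonunits_iff hp' hA n).1 hi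
    push_cast
    rw [map_mul]
    exact mul_le_of_le_one_right' ((A.valuation_le_one_iff _).2 (Frey.intCast_mem A k))
  -- the inverses of the roots are nonunits
  have key : ∀ s : Multiset Qbar, (∀ r ∈ s, r ∉ A) →
      ((s.map fun r => 1 - C r⁻¹ * X).prod.coeff 0 = 1 ∧
        ∀ i, (s.map fun r => 1 - C r⁻¹ * X).prod.coeff (i + 1) ∈ A.nonunits) := by
    intro s
    induction s using Multiset.induction_on with
    | empty => intro _; simp [coeff_one]
    | cons r s ih =>
      intro hs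
      obtain ⟨h0, h1⟩ := ih fun x hx => hs x (Multiset.mem_cons_of_mem hx)
      have hr : r⁻¹ ∈ A.nonunits := inv_m_of_not_mem (hs r (Multiset.mem_cons_self r s))
      rw [Multiset.map_cons, Multiset.prod_cons, sub_mul, one_mul]
      refine ⟨by simp [mul_assoc, h0], fun i => ?_⟩
      rw [coeff_sub, mul_assoc, coeff_C_mul, coeff_X_mul]
      refine m_sub (h1 i) (m_mul_right hr ?_)
      cases i with
      | zero => rw [h0]; exact one_mem A
      | succ i => exact m_mem (h1 i)
  obtain ⟨hk0, hk1⟩ := key g.roots fun r hr => hfar r (isRoot_of_mem_roots hr)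
  have hsplit : g = C (g.leadingCoeff * (g.roots.map fun r => -r).prod) *
      (g.roots.map fun r => 1 - C r⁻¹ * X).prod := by
    conv_lhs => rw [(IsAlgClosed.splits g).eq_prod_roots]
    rw [map_mul, mul_assoc, map_multiset_prod, Multiset.map_map, ← Multiset.prod_map_mul]
    refine congrArg _ (congrArg Multiset.prod (Multiset.map_congr rfl fun r hr => ?_))
    have hr0 : r ≠ 0 := fun h => hfar r (isRoot_of_mem_roots hr) (h ▸ zero_mem A)
    show X - C r = C (-r) * (1 - C r⁻¹ * X)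
    rw [mul_sub, mul_one, ← mul_assoc, ← map_mul, neg_mul, mul_inv_cancel₀ hr0, map_neg, map_neg,
      map_one]
    ring
  have ha0 : g.coeff 0 = g.leadingCoeff * (g.roots.map fun r => -r).prod := by
    conv_lhs => rw [hsplit, coeff_C_mul, hk0, mul_one]
  have hmid : ∀ i, 0 < i → A.valuation (g.coeff i) ≤ A.valuation (p : Qbar) := by
    intro i hi
    obtain ⟨j, rfl⟩ := Nat.exists_eq_succ_of_ne_zero hi.ne'
    refine hdiv _ ?_
    have e := congrArg (fun q => q.coeff (j + 1)) hsplit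
    simp only [coeff_C_mul] at e
    rw [e, ← ha0]
    exact m_mul_left (hmem 0) (hk1 j)
  have hc0 : A.valuation (g.coeff 0) = 1 := by
    refine isU_of_mem (hmem 0) fun h0 => ?_
    obtain ⟨r, hr⟩ := IsAlgClosed.exists_root g (by
      rw [degree_eq_natDegree hg0, hdeg]; exact_mod_cast hd.ne')
    refine hfar r hr (mem_of_isRoot (f := C (p : Qbar)⁻¹ * g) (fun i => ?_) ?_ ?_)
    · rw [coeff_C_mul, ← A.valuation_le_one_iff, map_mul, map_inv₀, inv_mul_le_iff₀
        (val_p_pos hp' hA), mul_one]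
      rcases Nat.eq_zero_or_pos i with rfl | hi
      · exact hdiv 0 h0
      · exact hmid i hi
    · rw [leadingCoeff_mul, leadingCoeff_C, hl, inv_mul_cancel₀ hp0]
      exact isU_one
    · simp [IsRoot, hr.eq_zero]
  refine ⟨fun r hr => ?_, hc0, fun i hi _ => hmid i hi⟩
  have hr1 : 1 < A.valuation r := not_mem_iff_val.1 (hfar r hr)
  obtain ⟨e, rfl⟩ := Nat.exists_eq_succ_of_ne_zero hd.ne'
  set t := A.valuation r ^ (e + 1) * A.valuation (p : Qbar) with ht
  have ht0 : t ≠ 0 := mul_ne_zero (pow_ne_zero _ (zero_lt_one.trans hr1).ne')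
    (val_p_pos hp' hA).ne'
  have hS : A.valuation (∑ i ∈ Finset.range e, g.coeff (i + 1) * r ^ (i + 1)) < t := by
    refine Valuation.map_sum_lt _ ht0 fun i hi => ?_
    rw [map_mul, map_pow, ht, mul_comm (A.valuation r ^ (e + 1))]
    exact lt_of_le_of_lt (mul_le_mul_left (hmid (i + 1) i.succ_pos) _)
      (mul_lt_mul_of_pos_left
        (pow_lt_pow_right₀ hr1 (by have := Finset.mem_range.1 hi; omega)) (val_p_pos hp' hA))
  have hev : g.coeff 0 + ((∑ i ∈ Finset.range e, g.coeff (i + 1) * r ^ (i + 1)) +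
      (p : Qbar) * r ^ (e + 1)) = 0 := by
    have := hr.eq_zero
    rw [eval_eq_sum_range, hdeg, Finset.sum_range_succ, Finset.sum_range_succ', pow_zero, mul_one,
      hlead] at this
    linear_combination this
  have hL : A.valuation ((∑ i ∈ Finset.range e, g.coeff (i + 1) * r ^ (i + 1)) +
      (p : Qbar) * r ^ (e + 1)) = t := by
    rw [Valuation.map_add_eq_of_lt_right _ (by rwa [map_mul, map_pow, mul_comm]), map_mul, map_pow,
      mul_comm]
  rw [← hL, ← Valuation.map_neg, ← eq_neg_of_add_eq_zero_left hev, hc0]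

/-- Two elements with `v(r) ^ d v(p) = 1` differ by a unit. -/
theorem valuation_div_root {d : ℕ} (hd : 0 < d) (hA : A.LiesOverPrime p) {r r₀ : Qbar}
    (hr : A.valuation r ^ d * A.valuation (p : Qbar) = 1)
    (hr₀ : A.valuation r₀ ^ d * A.valuation (p : Qbar) = 1) (hr0 : r₀ ≠ 0) :
    A.valuation (r / r₀) = 1 := by
  have e := mul_right_cancel₀ (val_p_pos hp.out hA).ne' (hr.trans hr₀.symm)
  rw [map_div₀, div_eq_one_iff_eq (A.valuation.ne_zero_iff.2 hr0)]
  exact (pow_left_inj₀ zero_le zero_le hd.ne').1 e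

/-- Distinct roots of a polynomial of that shape have distinct residues after scaling. -/
theorem eq_of_residue_eq {d : ℕ} (hd : 0 < d) (hpd : ¬ p ∣ d) {g : Polynomial Qbar}
    (hA : A.LiesOverPrime p) (hint : ∀ i, ∃ n : ℤ, g.coeff i = n) (hdeg : g.natDegree = d)
    (hlead : g.coeff d = (p : Qbar)) (hroots : ∀ r, g.IsRoot r → r ∉ A) {r₀ r s : Qbar}
    (hr₀ : g.IsRoot r₀) (hr : g.IsRoot r) (hs : g.IsRoot s) (hr' : r / r₀ ∈ A) (hs' : s / r₀ ∈ A)
    (hrs : IsLocalRing.residue A ⟨_, hr'⟩ = IsLocalRing.residue A ⟨_, hs'⟩) : r = s := by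
  classical
  have hp' : p.Prime := hp.out
  have hk := Gal.residueField_charP hp' hA
  obtain ⟨hval, -, hmid⟩ := valuation_roots hd hA hint hdeg hlead hroots
  have hr0 : r₀ ≠ 0 := fun h => hroots r₀ hr₀ (h ▸ zero_mem A)
  set π := IsLocalRing.residue A
  by_contra hne
  set a : A := ⟨_, hr'⟩
  set b : A := ⟨_, hs'⟩
  have hv0 : A.valuation r₀ ^ d * A.valuation (p : Qbar) = 1 := hval r₀ hr₀
  have hcm : ∀ i, 0 < i → i < d →
      A.valuation (g.coeff i * r₀ ^ i / ((p : Qbar) * r₀ ^ d)) < 1 := by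
    intro i hi hid
    rw [map_div₀, map_mul, map_mul, map_pow, map_pow, mul_comm (A.valuation (p : Qbar)), hv0,
      div_one]
    calc A.valuation (g.coeff i) * A.valuation r₀ ^ i
        ≤ A.valuation (p : Qbar) * A.valuation r₀ ^ i := mul_le_mul_left (hmid i hi hid) _
      _ < A.valuation (p : Qbar) * A.valuation r₀ ^ d := mul_lt_mul_of_pos_left
          (pow_lt_pow_right₀ (not_mem_iff_val.1 (hroots r₀ hr₀)) hid) (val_p_pos hp' hA)
      _ = 1 := by rw [mul_comm, hv0]
  obtain ⟨e, he⟩ : ∃ e, d = e + 1 := Nat.exists_eq_succ_of_ne_zero hd.ne'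
  let c : ℕ → A := fun i => if h : g.coeff (i + 1) * r₀ ^ (i + 1) / ((p : Qbar) * r₀ ^ d) ∈ A
    then ⟨_, h⟩ else 0
  let G : ℕ → A := fun i => ∑ j ∈ Finset.range (i + 1), a ^ j * b ^ (i - j)
  have hc : ∀ i < e + 1,
      (c i : Qbar) = g.coeff (i + 1) * r₀ ^ (i + 1) / ((p : Qbar) * r₀ ^ d) := by
    intro i hi
    have hmem : g.coeff (i + 1) * r₀ ^ (i + 1) / ((p : Qbar) * r₀ ^ d) ∈ A := by
      rw [← A.valuation_le_one_iff]
      rcases Nat.lt_or_ge i e with h | h
      · exact (hcm (i + 1) i.succ_pos (by omega)).le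
      · rw [show i + 1 = d by omega, hlead, div_self
          (mul_ne_zero (Nat.cast_ne_zero.2 hp'.ne_zero) (pow_ne_zero _ hr0)), map_one]
    simp only [c, dif_pos hmem]
  have hsum : ∑ i ∈ Finset.range (e + 1), c i * G i = 0 := by
    have hab : (a : Qbar) - b ≠ 0 := sub_ne_zero.2 fun h => hne (by
      simpa [a, b, div_left_inj' hr0] using h)
    refine Subtype.ext (mul_right_cancel₀ hab ?_)
    rw [ZeroMemClass.coe_zero, zero_mul, AddSubmonoidClass.coe_finsetSum, Finset.sum_mul]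
    have hterm : ∀ i ∈ Finset.range (e + 1), ((c i * G i : A) : Qbar) * ((a : Qbar) - b) =
        (g.coeff (i + 1) * r ^ (i + 1) - g.coeff (i + 1) * s ^ (i + 1)) /
          ((p : Qbar) * r₀ ^ d) := by
      intro i hi
      have hgs := geom_sum₂_mul (a : Qbar) (b : Qbar) (i + 1)
      simp only [Nat.add_sub_cancel] at hgs
      rw [MulMemClass.coe_mul, hc i (Finset.mem_range.1 hi), mul_assoc]
      simp only [G, AddSubmonoidClass.coe_finsetSum, MulMemClass.coe_mul,
        SubmonoidClass.coe_pow]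
      rw [hgs]
      simp only [a, b, div_pow]
      field_simp
    rw [Finset.sum_congr rfl hterm, ← Finset.sum_div, Finset.sum_sub_distrib]
    have h1 : ∀ x, g.IsRoot x →
        ∑ i ∈ Finset.range (e + 1), g.coeff (i + 1) * x ^ (i + 1) = -g.coeff 0 := by
      intro x hx
      have := hx.eq_zero
      rw [eval_eq_sum_range, hdeg, he, Finset.sum_range_succ', pow_zero, mul_one] at this
      linear_combination this
    rw [h1 r hr, h1 s hs, sub_self, zero_div]
  have h2 := congrArg π hsum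
  rw [map_sum, map_zero, Finset.sum_range_succ, Finset.sum_eq_zero (fun i hi => by
    have hi' := Finset.mem_range.1 hi
    rw [map_mul]
    refine mul_eq_zero_of_left (map_eq_zero_of_mem IsLocalRing.residue_surjective ?_) _
    rw [← ValuationSubring.coe_mem_nonunits_iff, m_iff_val, hc i (by omega)]
    exact hcm (i + 1) i.succ_pos (by omega)), zero_add, map_mul] at h2
  have hce : c e = 1 := Subtype.ext (by
    rw [hc e (Nat.lt_succ_self e), ← he, hlead, div_self
      (mul_ne_zero (Nat.cast_ne_zero.2 hp'.ne_zero) (pow_ne_zero _ hr0)), OneMemClass.coe_one])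
  rw [hce, map_one, one_mul] at h2
  have hG : π (G e) = (d : IsLocalRing.ResidueField A) * π a ^ e := by
    simp only [G, map_sum, map_mul, map_pow, ← hrs]
    rw [he]
    rw [Finset.sum_congr rfl (fun j hj => by
      rw [← pow_add, Nat.add_sub_cancel' (Nat.lt_succ_iff.1 (Finset.mem_range.1 hj))]),
      Finset.sum_const, Finset.card_range, nsmul_eq_mul]
  rw [hG, mul_eq_zero] at h2
  rcases h2 with h2 | h2
  · exact hpd ((CharP.cast_eq_zero_iff _ p d).1 h2)
  · have ha0 := eq_zero_of_pow_eq_zero h2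
    rw [IsLocalRing.residue_eq_zero_iff, ← ValuationSubring.coe_mem_nonunits_iff, m_iff_val]
      at ha0
    exact (valuation_div_root hd hA (hval r hr) (hval r₀ hr₀) hr0).not_lt ha0

variable (hΔ : W.Δ ≠ 0)

omit hp in
include hΔ in
/-- A root of the `p`-division polynomial is the `x`-coordinate of a point of order `p`. -/
theorem exists_tors_of_root {m : ℕ} (hm' : p = 2 * m + 1) {r : Qbar}
    (hr : (psi (barCurve W) m).IsRoot r) :
    ∃ (y : Qbar) (h : (barCurve W).Nonsingular r y) (P : Tors W p), P.1 = .some r y h := by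
  have := isElliptic_mapRat hΔ
  obtain ⟨y, hy⟩ := IsAlgClosed.exists_root
    (X ^ 2 + C ((barCurve W).a₁ * r + (barCurve W).a₃) * X +
      C (-(r ^ 3 + (barCurve W).a₂ * r ^ 2 + (barCurve W).a₄ * r + (barCurve W).a₆)))
    (ne_of_eq_of_ne (b := (2 : WithBot ℕ)) (by compute_degree!) (by decide))
  have : (barCurve W).IsElliptic := by
    refine ⟨isUnit_iff_ne_zero.2 ?_⟩
    rw [barCurve_eq, WeierstrassCurve.map_Δ, eq_intCast]
    exact Int.cast_ne_zero.2 hΔ
  have h : (barCurve W).Nonsingular r y := by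
    refine WeierstrassCurve.Affine.equation_iff_nonsingular.1 ?_
    rw [WeierstrassCurve.Affine.equation_iff]
    simp [IsRoot] at hy ⊢
    linear_combination hy
  refine ⟨y, h, ⟨.some r y h, ?_⟩, rfl⟩
  rw [Submodule.mem_torsionBy_iff, natCast_zsmul]
  refine (EC.nsmul_eq_zero_iff h p).2 ?_
  rw [hm', ← psi_sq, eval_pow, show eval r (psi (barCurve W) m) = 0 from hr.eq_zero,
    zero_pow two_ne_zero]

include hΔ in
/-- **Inertia at a place where all of `E[p]` reduces to `O`.** -/
theorem false_of_far (hp2 : p ≠ 2) (hA : A.LiesOverPrime p)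
    (hfar : ∀ P : Tors W p, P ≠ 0 → Far (barCurve W) A P.1) {τ : GQ}
    (hτ : τ ∈ A.inertiaSubgroupIn ℚ)
    (hτp : ∀ P : Tors W p, τ ^ (p - 1) • P = P ∨ τ ^ (p - 1) • P = -P)
    (hall : ∀ h ∈ A.inertiaSubgroupIn ℚ,
      (∀ P : Tors W p, h ^ (p - 1) • P = P ∨ h ^ (p - 1) • P = -P) ∨
      (∀ P : Tors W p, (h * τ) ^ (p - 1) • P = P ∨ (h * τ) ^ (p - 1) • P = -P)) :
    False := by
  classical
  have hp' : p.Prime := hp.out
  obtain ⟨m, hm'⟩ := hp'.odd_of_ne_two hp2
  have hm : 1 ≤ m := by have := hp'.two_le; omega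
  have hn : ((2 * m + 1 : ℕ) : Qbar) ≠ 0 := Nat.cast_ne_zero.2 (by omega)
  set g := psi (barCurve W) m with hgdef
  set d := 2 * m * (m + 1) with hddef
  have hd : 0 < d := Nat.mul_pos (by omega) (by omega)
  obtain ⟨hdle, hcd⟩ := degCoeff_psi (barCurve W : WeierstrassCurve Qbar) hm
  have hdeg : g.natDegree = d := le_antisymm hdle (le_natDegree_of_ne_zero (hcd ▸ hn))
  have hlead : g.coeff d = (p : Qbar) := by rw [hm']; exact hcd
  have hint : ∀ i, ∃ n : ℤ, g.coeff i = n := fun i => ⟨(psi W m).coeff i, by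
    rw [hgdef, barCurve_eq, psi_map, coeff_map, eq_intCast]⟩
  have := isElliptic_mapRat hΔ
  have hpt : ∀ r, g.IsRoot r → ∃ (y : Qbar) (h : (barCurve W).Nonsingular r y) (P : Tors W p),
      P.1 = .some r y h := fun r hr => exists_tors_of_root hΔ hm' hr
  have hroots : ∀ r, g.IsRoot r → r ∉ A := by
    intro r hr
    obtain ⟨y, h, P, hP⟩ := hpt r hr
    have := hfar P fun e => by rw [e] at hP; exact absurd hP.symm (Affine.Point.some_ne_zero h)
    rw [hP] at this
    exact this
  obtain ⟨hval, -, -⟩ := valuation_roots hd hA hint hdeg hlead hroots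
  have hg0 : g ≠ 0 := fun h => by rw [h, natDegree_zero] at hdeg; omega
  have hfix : ∀ (σ : GQ) r, g.IsRoot r → g.IsRoot (σ r) := by
    intro σ r hr
    obtain ⟨y, h, P, hP⟩ := hpt r hr
    refine psi_isRoot (h := (map_spec σ r y h).1) ?_
    rw [← hm']
    have := tors_nsmul (σ • P)
    rw [coe_smul_tors, hP] at this
    obtain ⟨h', e⟩ := map_spec σ r y h
    rw [e] at this
    exact this
  obtain ⟨r₀, hr₀⟩ := IsAlgClosed.exists_root g (by
    rw [degree_eq_natDegree hg0, hdeg]; exact_mod_cast hd.ne')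
  have hr0 : r₀ ≠ 0 := fun h => hroots r₀ hr₀ (h ▸ zero_mem A)
  have hvu : ∀ r, g.IsRoot r → A.valuation (r / r₀) = 1 := fun r hr =>
    valuation_div_root hd hA (hval r hr) (hval r₀ hr₀) hr0
  have hu : ∀ r, g.IsRoot r → r / r₀ ∈ A := fun r hr =>
    (A.valuation_le_one_iff _).1 (hvu r hr).le
  set π := IsLocalRing.residue A with hπ
  have hk := Gal.residueField_charP hp' hA
  have hpd : ¬ p ∣ d := fun h => by
    rcases (Nat.Prime.dvd_mul hp').1 h with h | h <;>
      have := Nat.le_of_dvd (by omega) h <;> omega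
  -- the action of inertia in residues
  let θ : GQ → IsLocalRing.ResidueField A := fun σ => π ⟨_, hu _ (hfix σ r₀ hr₀)⟩
  have hθmul : ∀ σ ∈ A.inertiaSubgroupIn ℚ, ∀ ρ : GQ, θ (σ * ρ) = θ σ * θ ρ := by
    intro σ hσ ρ
    have hmem : σ (ρ r₀ / r₀) ∈ A := ((inertiaLike hσ).mem_iff _).2 (hu _ (hfix ρ r₀ hr₀))
    have h1 : θ (σ * ρ) = π (⟨_, hmem⟩ * ⟨_, hu _ (hfix σ r₀ hr₀)⟩) := by
      refine congrArg π (Subtype.ext ?_)
      show (σ * ρ) r₀ / r₀ = σ (ρ r₀ / r₀) * (σ r₀ / r₀)
      rw [AlgEquiv.mul_apply, map_div₀, div_mul_div_cancel₀]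
      exact (map_ne_zero σ).2 hr0
    have h2 : π ⟨_, hmem⟩ = θ ρ := by
      rw [← sub_eq_zero, ← map_sub]
      refine map_eq_zero_of_mem IsLocalRing.residue_surjective ?_
      rw [← ValuationSubring.coe_mem_nonunits_iff]
      exact (inertiaLike hσ).res _ (hu _ (hfix ρ r₀ hr₀))
    rw [h1, map_mul, h2, mul_comm]
  have hθone : θ 1 = 1 := by
    refine (congrArg π (Subtype.ext ?_)).trans (map_one π)
    show r₀ / r₀ = 1
    exact div_self hr0
  have hθpow : ∀ σ ∈ A.inertiaSubgroupIn ℚ, ∀ n : ℕ, θ (σ ^ n) = θ σ ^ n := by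
    intro σ hσ n
    induction n with
    | zero => rw [pow_zero, pow_zero, hθone]
    | succ n ih => rw [pow_succ', hθmul σ hσ, ih, pow_succ']
  have hsc : ∀ σ ∈ A.inertiaSubgroupIn ℚ,
      (∀ P : Tors W p, σ ^ (p - 1) • P = P ∨ σ ^ (p - 1) • P = -P) → θ σ ^ (p - 1) = 1 := by
    intro σ hσ h
    rw [← hθpow σ hσ, ← hθone]
    refine congrArg π (Subtype.ext (congrArg (· / r₀) ?_))
    obtain ⟨y, hy, P, hP⟩ := hpt r₀ hr₀
    show (σ ^ (p - 1)) r₀ = r₀
    obtain ⟨h', e⟩ := map_spec (σ ^ (p - 1)) r₀ y hy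
    rcases h P with h1 | h1
    · have h2 := congrArg Subtype.val h1
      rw [coe_smul_tors, hP, e, Affine.Point.some.injEq] at h2
      exact h2.1
    · have h2 := congrArg Subtype.val h1
      rw [coe_smul_tors, NegMemClass.coe_neg, hP, e, Affine.Point.neg_some,
        Affine.Point.some.injEq] at h2
      exact h2.1
  have hθall : ∀ σ ∈ A.inertiaSubgroupIn ℚ, θ σ ^ (p - 1) = 1 := by
    intro σ hσ
    rcases hall σ hσ with h | h
    · exact hsc σ hσ h
    · have h1 := hsc _ (mul_mem hσ hτ) h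
      rwa [hθmul σ hσ, mul_pow, hsc τ hτ hτp, mul_one] at h1
  -- the orbit of `r₀`
  set O := g.roots.toFinset.filter (fun r => ∃ σ ∈ A.inertiaSubgroupIn ℚ, σ r₀ = r) with hO
  have hOroot : ∀ r ∈ O, g.IsRoot r := fun r hr =>
    isRoot_of_mem_roots (Multiset.mem_toFinset.1 (Finset.mem_filter.1 hr).1)
  have hOmem : ∀ σ ∈ A.inertiaSubgroupIn ℚ, σ r₀ ∈ O := fun σ hσ =>
    Finset.mem_filter.2 ⟨Multiset.mem_toFinset.2 ((mem_roots hg0).2 (hfix σ r₀ hr₀)), σ, hσ, rfl⟩
  have hOne : O.Nonempty := ⟨_, hOmem 1 (one_mem _)⟩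
  have hprod : ∏ r ∈ O, r ∈ inertiaField A := by
    intro τ' hτ'
    rw [map_prod]
    refine Finset.prod_nbij τ' (fun x hx => ?_) τ'.injective.injOn ?_ (fun x _ => rfl)
    · obtain ⟨-, σ, hσ, rfl⟩ := Finset.mem_filter.1 hx
      exact hOmem _ (mul_mem hτ' hσ)
    · intro x hx
      obtain ⟨-, σ, hσ, rfl⟩ := Finset.mem_filter.1 (Finset.mem_coe.1 hx)
      exact ⟨(τ'⁻¹ * σ) r₀, hOmem _ (mul_mem (inv_mem hτ') hσ), τ'.apply_symm_apply _⟩
  have hP0 : ∏ r ∈ O, r ≠ 0 := Finset.prod_ne_zero_iff.2 fun r hr h =>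
    hroots r (hOroot r hr) (h ▸ zero_mem A)
  obtain ⟨j, hj⟩ := exists_val_eq_zpow hp' hA hprod hP0
  have hcard : d ∣ O.card := by
    have hvp := val_p_pos hp' hA
    have h1 : A.valuation (∏ r ∈ O, r) ^ d = (A.valuation (p : Qbar))⁻¹ ^ O.card := by
      rw [map_prod, ← Finset.prod_pow, ← Finset.prod_const]
      exact Finset.prod_congr rfl fun r hr => eq_inv_of_mul_eq_one_left (hval r (hOroot r hr))
    rw [hj, ← zpow_natCast (A.valuation (p : Qbar) ^ j), ← zpow_mul, inv_pow, ← zpow_natCast,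
      ← zpow_neg, zpow_val_inj hp' hA] at h1
    exact Int.natCast_dvd_natCast.1 ⟨-j, by linarith⟩
  have hle : O.card ≤ 2 * m := by
    have hk1 : 0 < 2 * m := by omega
    refine le_trans (Finset.card_le_card_of_injOn
      (t := (nthRoots (2 * m) (1 : IsLocalRing.ResidueField A)).toFinset)
      (fun r => if h : r / r₀ ∈ A then π ⟨_, h⟩ else 0) (fun r hr => ?_) ?_)
      ((Multiset.toFinset_card_le _).trans (card_nthRoots _ _))
    · obtain ⟨-, σ, hσ, rfl⟩ := Finset.mem_filter.1 (Finset.mem_coe.1 hr)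
      have := hθall σ hσ
      rw [show p - 1 = 2 * m by omega] at this
      simp only [dif_pos (hu _ (hfix σ r₀ hr₀)), Finset.mem_coe, Multiset.mem_toFinset,
        mem_nthRoots hk1]
      exact this
    · intro r hr s hs h
      simp only [dif_pos (hu r (hOroot r hr)), dif_pos (hu s (hOroot s hs))] at h
      exact eq_of_residue_eq hd hpd hA hint hdeg hlead hroots hr₀ (hOroot r hr) (hOroot s hs)
        _ _ h
  have h3 := (Nat.le_of_dvd hOne.card_pos hcard).trans hle
  rw [hddef] at h3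
  nlinarith

end Fermat.Agent.LevelLowering.Semistable
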