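import Mathlib.LinearAlgebra.Charpoly.BaseChange
import Fermat.Agent.Ihara.IrrCurve
import Fermat.Agent.LevelLowering.Semistable.Supersingular
import Fermat.Agent.LevelLowering.Transvections
import Fermat.Agent.ResidualThree.Galois.Image
import Fermat.Agent.TW.InertiaOmega

/-!
# The image of an irreducible semistable mod `p` representation (`p` odd)

It is absolutely irreducible and stays irreducible on subgroups of index two, over every field.
If the image of `H` of index two had a stable line, the elements outside `H` would have trace zero;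
inertia away from `p` has trace two, and at `p` either trace `1 + det` or supersingular shape, so
every inertia group would lie in `H`.
-/

noncomputable section

namespace Fermat.Agent.LevelLowering.Semistable

open Module WeierstrassCurve WeierstrassCurve.Affine.Point Fermat.Agent.Frey
open scoped WeierstrassCurve.Affine TensorProduct

local notation "Qbar" => AlgebraicClosure ℚ
local notation "GQ" => (AlgebraicClosure ℚ ≃ₐ[ℚ] AlgebraicClosure ℚ)

section Pure

variable {k : Type} [Field k] (ρ : ResidualGaloisRep k)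

/-- An odd irreducible representation stays irreducible over every extension. -/
theorem isIrreducible_baseChange_of_involution (hρ : ρ.IsIrreducible) (h2 : (2 : k) ≠ 0) {c : GQ}
    (hc : ρ.ρ c * ρ.ρ c = 1) (hdet : LinearMap.det (ρ.ρ c) = -1) (K : Type) [Field K]
    [Algebra k K] : (ρ.baseChange K).IsIrreducible := by
  classical
  have hcc : ∀ x, ρ.ρ c (ρ.ρ c x) = x := fun x => LinearMap.congr_fun hc x
  obtain ⟨v, hv0, hv⟩ : ∃ v, v ≠ 0 ∧ ρ.ρ c v = v := by
    by_contra h
    push Not at h
    have : ρ.ρ c = (-1 : k) • 1 := LinearMap.ext fun x => by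
      by_contra hx
      refine h (ρ.ρ c x + x) (fun e => hx ?_) (by rw [map_add, hcc, add_comm])
      rw [eq_neg_of_add_eq_zero_left e]
      simp
    rw [this, LinearMap.det_smul, map_one, mul_one, ρ.finrank_eq, neg_one_sq] at hdet
    exact h2 (by linear_combination hdet)
  obtain ⟨w, hw0, hw⟩ : ∃ w, w ≠ 0 ∧ ρ.ρ c w = -w := by
    by_contra h
    push Not at h
    have : ρ.ρ c = 1 := LinearMap.ext fun x => by
      by_contra hx
      refine h (ρ.ρ c x - x) (sub_ne_zero.2 fun e => hx ?_) (by rw [map_sub, hcc, neg_sub])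
      rw [e]; rfl
    rw [this, map_one] at hdet
    exact h2 (by linear_combination hdet)
  have hli : LinearIndependent k ![v, w] :=
    (LinearIndependent.pair_iff' hv0).mpr fun a e => hw0 (by
      have e' := congrArg (ρ.ρ c) e
      rw [map_smul, hv, hw, e, eq_neg_iff_add_eq_zero, ← two_smul k] at e'
      exact (smul_eq_zero.1 e').resolve_left h2)
  let b : Basis (Fin 2) k ρ.V :=
    basisOfLinearIndependentOfCardEqFinrank hli (by simp [ρ.finrank_eq])
  have hb : ∀ i, ρ.ρ c (b i) = (if i = 0 then (1 : k) else -1) • b i := by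
    intro i
    rw [show ⇑b = ![v, w] from coe_basisOfLinearIndependentOfCardEqFinrank hli _]
    fin_cases i
    · simpa using hv
    · simpa using hw
  let bK : Basis (Fin 2) K (ρ.baseChange K).V := b.baseChange K
  have hbK : ∀ i, bK i = (1 : K) ⊗ₜ[k] b i := fun i => b.baseChange_apply K i
  have hcK : ∀ i, (ρ.baseChange K).ρ c (bK i) = (if i = 0 then (1 : K) else -1) • bK i := by
    intro i
    rw [hbK]
    show (ρ.ρ c).baseChange K ((1 : K) ⊗ₜ[k] b i) = _
    rw [LinearMap.baseChange_tmul, hb]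
    split_ifs <;> simp [TensorProduct.tmul_neg, TensorProduct.neg_tmul, TensorProduct.smul_tmul']
  have hK2 : (2 : K) ≠ 0 := by
    rw [← map_ofNat (algebraMap k K) 2, Ne, map_eq_zero]
    exact h2
  intro L hL
  by_contra hne
  push Not at hne
  obtain ⟨x, hx, hx0⟩ := Submodule.exists_mem_ne_zero_of_ne_bot hne.1
  have hsum : x = bK.repr x 0 • bK 0 + bK.repr x 1 • bK 1 := by
    conv_lhs => rw [← bK.sum_repr x]
    rw [Fin.sum_univ_two]
  have hc' : (ρ.baseChange K).ρ c x = bK.repr x 0 • bK 0 - bK.repr x 1 • bK 1 := by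
    conv_lhs => rw [hsum, map_add, map_smul, map_smul, hcK, hcK]
    simp [sub_eq_add_neg, smul_smul]
  have h0 : bK.repr x 0 • bK 0 ∈ L := by
    have h := L.smul_mem ((2 : K)⁻¹) (L.add_mem hx (hL c x hx))
    rw [hc'] at h
    nth_rw 1 [hsum] at h
    convert h using 1
    rw [add_add_sub_cancel, ← two_smul K, smul_smul (2 : K)⁻¹, inv_mul_cancel₀ hK2, one_smul]
  obtain ⟨i, hi⟩ : ∃ i, bK i ∈ L := by
    by_cases hx1 : bK.repr x 0 = 0
    · rw [hsum, hx1, zero_smul, zero_add] at hx
      refine ⟨1, (Submodule.smul_mem_iff _ fun e => hx0 ?_).1 hx⟩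
      rw [hsum, hx1, e]; simp
    · exact ⟨0, (Submodule.smul_mem_iff _ hx1).1 h0⟩
  have h1 : finrank K L < 2 := (ρ.baseChange K).finrank_eq ▸ Submodule.finrank_lt hne.2
  have hspan : K ∙ bK i = L := Submodule.eq_of_le_of_finrank_le
    ((Submodule.span_singleton_le_iff_mem _ _).2 hi) (by
      rw [finrank_span_singleton (bK.ne_zero i)]; omega)
  rcases hρ (k ∙ b i) (fun σ y hy => by
    obtain ⟨a, rfl⟩ := Submodule.mem_span_singleton.1 hy
    rw [map_smul]
    refine Submodule.smul_mem _ a ?_
    obtain ⟨μ, hμ⟩ := Submodule.mem_span_singleton.1 (hspan.symm ▸ hL σ _ hi :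
      (ρ.baseChange K).ρ σ (bK i) ∈ K ∙ bK i)
    refine Submodule.mem_span_singleton.2 ⟨b.repr (ρ.ρ σ (b i)) i, b.repr.injective ?_⟩
    ext j
    rw [map_smul, b.repr_self, Finsupp.smul_apply, smul_eq_mul]
    rcases eq_or_ne i j with rfl | hij
    · simp
    · rw [Finsupp.single_eq_of_ne hij.symm, mul_zero]
      apply (algebraMap k K).injective
      have hj := congrArg (fun z => bK.repr z j) hμ
      rw [hbK] at hj
      change _ = bK.repr ((ρ.ρ σ).baseChange K ((1 : K) ⊗ₜ[k] b i)) j at hj
      rw [LinearMap.baseChange_tmul, map_smul, Finsupp.smul_apply, ← hbK, bK.repr_self,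
        Finsupp.single_eq_of_ne hij.symm, smul_zero] at hj
      simp only [bK, Basis.baseChange_repr_tmul, Algebra.smul_def, mul_one] at hj
      rw [_root_.map_zero]
      exact hj) with h | h
  · exact b.ne_zero i (by simpa using h)
  · have := finrank_span_singleton (K := k) (b.ne_zero i)
    rw [h, finrank_top, ρ.finrank_eq] at this
    omega

/-- Outside a subgroup of index two with a stable line the trace vanishes. -/
theorem trace_eq_zero_of_index_two {ρ : ResidualGaloisRep k} {K : Type} [Field K] [Algebra k K]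
    (hirr : (ρ.baseChange K).IsIrreducible) {H : Subgroup GQ} (hH : H.index = 2)
    {L : Submodule K (ρ.baseChange K).V} (hL : ∀ σ ∈ H, ∀ x ∈ L, (ρ.baseChange K).ρ σ x ∈ L)
    (hbot : L ≠ ⊥) (htop : L ≠ ⊤) {τ : GQ} (hτ : τ ∉ H) :
    LinearMap.trace k ρ.V (ρ.ρ τ) = 0 := by
  classical
  set φ := (ρ.baseChange K).ρ
  obtain ⟨w, hw, hw0⟩ := Submodule.exists_mem_ne_zero_of_ne_bot hbot
  have h1 : finrank K L < 2 := (ρ.baseChange K).finrank_eq ▸ Submodule.finrank_lt htop
  have hspan : K ∙ w = L := Submodule.eq_of_le_of_finrank_le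
    ((Submodule.span_singleton_le_iff_mem _ _).2 hw) (by
      rw [finrank_span_singleton hw0]; omega)
  have houtH : ∀ σ, σ ∉ H → τ⁻¹ * σ ∈ H := fun σ hσ => by
    rw [Subgroup.mul_mem_iff_of_index_two hH, inv_mem_iff]
    exact iff_of_false hτ hσ
  have hτw : φ τ w ∉ L := by
    intro h
    rcases hirr L (fun σ x hx => by
      by_cases hσ : σ ∈ H
      · exact hL σ hσ x hx
      · rw [← mul_inv_cancel_left τ σ, map_mul, Module.End.mul_apply]
        obtain ⟨a, ha⟩ := Submodule.mem_span_singleton.1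
          (hspan.symm ▸ hL _ (houtH σ hσ) x hx : φ (τ⁻¹ * σ) x ∈ K ∙ w)
        rw [← ha, map_smul]
        exact L.smul_mem a h) with h' | h'
    exacts [hbot h', htop h']
  have hτ2 : τ * τ ∈ H := Subgroup.mul_self_mem_of_index_two hH τ
  obtain ⟨a, ha⟩ := Submodule.mem_span_singleton.1
    (hspan.symm ▸ hL _ hτ2 w hw : φ (τ * τ) w ∈ K ∙ w)
  have hli : LinearIndependent K ![w, φ τ w] :=
    (LinearIndependent.pair_iff' hw0).mpr fun a e => hτw (e ▸ L.smul_mem a hw)
  let b : Basis (Fin 2) K (ρ.baseChange K).V :=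
    basisOfLinearIndependentOfCardEqFinrank hli (by simp [(ρ.baseChange K).finrank_eq])
  have hb : ⇑b = ![w, φ τ w] := coe_basisOfLinearIndependentOfCardEqFinrank hli _
  have hb0 : b 0 = w := by rw [hb]; rfl
  have hb1 : b 1 = φ τ w := by rw [hb]; rfl
  have htr : LinearMap.trace K _ (φ τ) = 0 := by
    rw [LinearMap.trace_eq_matrix_trace K b, Matrix.trace_fin_two, LinearMap.toMatrix_apply,
      LinearMap.toMatrix_apply]
    have e0 : φ τ (b 0) = b 1 := by rw [hb0, hb1]
    have e1 : φ τ (b 1) = a • b 0 := by rw [hb0, hb1, ha, map_mul, Module.End.mul_apply]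
    rw [e0, e1, map_smul, Basis.repr_self, Basis.repr_self]
    simp
  change LinearMap.trace K (K ⊗[k] ρ.V) ((ρ.ρ τ).baseChange K) = 0 at htr
  rw [LinearMap.trace_baseChange] at htr
  exact (map_eq_zero _).1 htr

end Pure

section Curve

variable {W : WeierstrassCurve ℤ} {p : ℕ} [hp : Fact p.Prime]

/-- `2` is nonzero modulo an odd prime. -/
theorem two_ne_zero_zmod (hp2 : p ≠ 2) : (2 : ZMod p) ≠ 0 := by
  rw [← Nat.cast_two, Ne, ZMod.natCast_eq_zero_iff]
  exact fun h => hp2 ((Nat.prime_dvd_prime_iff_eq hp.out Nat.prime_two).mp h)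

variable (W p) in
/-- The action on `E[p]`. -/
abbrev torsAct : GQ →* Module.End (ZMod p) (Tors W p) :=
  galoisRepModuleEnd (S := ℚ) (K := Qbar) (W.map (Int.castRingHom ℚ)) p

theorem torsAct_apply (σ : GQ) (x : Tors W p) : torsAct W p σ x = σ • x :=
  galoisRepModuleEnd_apply _ _ _ _

/-- `det (f - 1) = 1 - tr f + det f` in rank two. -/
theorem det_sub_one_of_finrank_two {k V : Type*} [Field k] [AddCommGroup V] [Module k V]
    (hV : finrank k V = 2) (f : Module.End k V) :
    LinearMap.det (f - 1) = 1 - LinearMap.trace k V f + LinearMap.det f := by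
  have := Module.finite_of_finrank_eq_succ hV
  set b := Gal.basisTwo (R := k) (V := V) hV
  rw [← LinearMap.det_toMatrix b, ← LinearMap.det_toMatrix b, LinearMap.trace_eq_matrix_trace k b,
    map_sub, show LinearMap.toMatrix b b (1 : Module.End k V) = 1 from LinearMap.toMatrix_one b,
    Matrix.det_fin_two, Matrix.det_fin_two, Matrix.trace_fin_two]
  simp [Matrix.sub_apply]
  ring

variable (hΔ : W.Δ ≠ 0) (hp2 : p ≠ 2) (hss : W.IsSemistableModel)
include hΔ hp2 hss

/-- For `p ≥ 5`, outside any subgroup of index two some element acts with nonzero trace. -/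
theorem exists_trace_ne_zero_not_mem (hp3 : p ≠ 3) {H : Subgroup GQ} (hH : H.index = 2) :
    ∃ σ, σ ∉ H ∧ LinearMap.trace (ZMod p) (Tors W p) (torsAct W p σ) ≠ 0 := by
  classical
  by_contra hcon
  push Not at hcon
  have hp' : p.Prime := hp.out
  have := isElliptic_mapRat hΔ
  have hV : finrank (ZMod p) (Tors W p) = 2 := finrank_tors hΔ
  have := Module.finite_of_finrank_eq_succ hV
  have h2 := two_ne_zero_zmod (p := p) hp2
  have hker : ∀ σ : GQ, (∀ x : Tors W p, σ • x = x) → σ ∈ H := fun σ hσ => by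
    by_contra h
    have e : torsAct W p σ = 1 := LinearMap.ext fun x => by rw [torsAct_apply, hσ]; rfl
    have := hcon σ h
    rw [e, LinearMap.trace_one, hV, Nat.cast_two] at this
    exact h2 this
  have hne : H ≠ ⊤ := fun h => by rw [h, Subgroup.index_top] at hH; omega
  refine hne (eq_top_of_inertia_le H (isOpen_of_kernel_le hΔ H hker) fun ℓ hℓ A hA σ₀ hσ₀ => ?_)
  by_contra hσH
  rcases ne_or_eq ℓ p with hℓp | rfl
  · -- away from `p`
    have huni := inertia_unipotent hΔ hss hℓ hA hp' hp2 hℓp hσ₀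
    set f := torsAct W p σ₀ with hf
    have hnil : IsNilpotent (f - 1) := ⟨2, LinearMap.ext fun x => by
      rw [pow_two, Module.End.mul_apply, LinearMap.sub_apply, LinearMap.sub_apply,
        Module.End.one_apply, Module.End.one_apply, LinearMap.zero_apply, hf, torsAct_apply,
        torsAct_apply, huni, sub_self]⟩
    have h := (LinearMap.isNilpotent_trace_of_isNilpotent hnil).eq_zero
    rw [map_sub, hcon σ₀ hσH, LinearMap.trace_one, hV, Nat.cast_two, zero_sub, neg_eq_zero] at h
    exact h2 h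
  -- at `p`
  by_cases hdet : ∀ σ ∈ A.inertiaSubgroupIn ℚ,
      1 - LinearMap.trace (ZMod ℓ) (Tors W ℓ) (torsAct W ℓ σ) +
        LinearMap.det (torsAct W ℓ σ) = 0
  · have hout : ∀ σ ∈ A.inertiaSubgroupIn ℚ, σ ∉ H → LinearMap.det (torsAct W ℓ σ) = -1 := by
      intro σ hσ hσH'
      have h := hdet σ hσ
      rw [hcon σ hσH'] at h
      linear_combination h
    obtain ⟨σ, hσ, hω⟩ := TW.exists_inertia_omega hA hp2 (Units.mk0 (2 : ZMod ℓ) h2)
    have hd : LinearMap.det (torsAct W ℓ σ) = 2 := by
      have hn := Ihara.card_rootsOfUnity_Qbar ℓ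
      refine (Ihara.det_galoisRepModuleEnd (W.map (Int.castRingHom ℚ)) hn σ).trans ?_
      refine (modularCyclotomicCharacter.unique Qbar hn _ fun t ht => ?_).symm
      have htn : (t : Qbar) ^ ℓ = 1 := by
        rw [← Units.val_pow_eq_pow_val, (mem_rootsOfUnity ℓ t).mp ht, Units.val_one]
      obtain ⟨i, -, hi⟩ := (TW.zetaP_spec (p := ℓ)).eq_pow_of_pow_eq_one htn
      have hs := (TW.zetaP_spec (p := ℓ)).autToPow_spec ℚ σ
      rw [show ((TW.zetaP_spec (p := ℓ)).autToPow ℚ σ : ZMod ℓ) = 2 from congrArg Units.val hω]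
        at hs
      show σ (t : Qbar) = _
      rw [← hi, map_pow, ← hs, ← pow_mul, ← pow_mul, mul_comm]
    by_cases hσH' : σ ∈ H
    · have h := hout (σ * σ₀) (mul_mem hσ hσ₀)
        fun h => hσH ((Subgroup.mul_mem_cancel_left H hσH').1 h)
      rw [map_mul, map_mul, hd, hout σ₀ hσ₀ hσH] at h
      have : (1 : ZMod ℓ) = 0 := by linear_combination -h
      exact one_ne_zero this
    · have h := hout σ hσ hσH'
      rw [hd] at h
      have h3 : ((3 : ℕ) : ZMod ℓ) = 0 := by push_cast; linear_combination h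
      rw [ZMod.natCast_eq_zero_iff, Nat.prime_dvd_prime_iff_eq hp' Nat.prime_three] at h3
      exact hp3 h3
  push Not at hdet
  obtain ⟨σ₁, hσ₁, hd1⟩ := hdet
  rw [← det_sub_one_of_finrank_two hV] at hd1
  have hsurj : Function.Surjective ⇑(torsAct W ℓ σ₁ - 1 : Module.End (ZMod ℓ) (Tors W ℓ)) := by
    have := (LinearMap.isUnit_iff_isUnit_det _).2 (Ne.isUnit hd1)
    exact ((Module.End.isUnit_iff _).1 this).2
  have hfar : ∀ P : Tors W ℓ, P ≠ 0 → Far (barCurve W) A P.1 := by
    intro P _
    obtain ⟨Q, rfl⟩ := hsurj P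
    obtain ⟨R, rfl⟩ := hsurj Q
    simp only [LinearMap.sub_apply, Module.End.one_apply, torsAct_apply]
    exact far_sub_sub W hp' (Gal.intCast_mem_nonunits_iff hp' hA) hΔ (hss ℓ hp') (barCurve_eq W)
      (inertiaLike hσ₁) (Affine.Point.map σ₁.toAlgHom) (map_spec σ₁) (hp'.odd_of_ne_two hp2)
      (tors_nsmul R)
  have hpow : ∀ σ : GQ, σ ∉ H →
      ∀ P : Tors W ℓ, σ ^ (ℓ - 1) • P = P ∨ σ ^ (ℓ - 1) • P = -P := by
    intro σ hσ P
    set f := torsAct W ℓ σ with hf
    obtain ⟨m, hm⟩ := hp'.odd_of_ne_two hp2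
    have hff : f * f = (-LinearMap.det f) • 1 := by
      rw [Gal.cayleyHamilton_two hV f, hcon σ hσ, zero_smul, zero_sub, neg_smul]
    have hdet0 : -LinearMap.det f ≠ 0 := by
      refine neg_ne_zero.2 ?_
      have hu : IsUnit f := (Group.isUnit σ).map (torsAct W ℓ)
      exact (hu.map LinearMap.det).ne_zero
    have hsq : ((-LinearMap.det f) ^ m) * ((-LinearMap.det f) ^ m) = 1 := by
      rw [← pow_add, ← two_mul, show 2 * m = ℓ - 1 by omega, ZMod.pow_card_sub_one_eq_one hdet0]
    have he : torsAct W ℓ (σ ^ (ℓ - 1)) = ((-LinearMap.det f) ^ m) • 1 := by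
      rw [map_pow, show ℓ - 1 = 2 * m by omega, pow_mul, ← hf, pow_two, hff, smul_pow, one_pow]
    rw [← torsAct_apply, he]
    rcases mul_self_eq_one_iff.1 hsq with h | h <;> rw [h]
    · exact Or.inl (by simp)
    · exact Or.inr (by simp)
  refine false_of_far hΔ hp2 hA hfar hσ₀ (hpow σ₀ hσH) fun h _ => ?_
  by_cases hh : h ∈ H
  · exact Or.inr (hpow _ fun h' => hσH ((Subgroup.mul_mem_cancel_left H hh).1 h'))
  · exact Or.inl (hpow h hh)

omit hp2 in
/-- The mod 3 image contains opposite transvections. -/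
theorem hasOppositeTransvections_three (hp3 : p = 3) (hirr : W.ModRepIsIrreducible p) :
    HasOppositeTransvections (torsAct W p) := by
  subst hp3
  obtain ⟨g, hg⟩ := ResidualThree.rho_surjective hΔ hss hirr
    ⟨upperU 1, upperU (-1), by rw [← upperU_add, add_neg_cancel, upperU_zero],
      by rw [← upperU_add, neg_add_cancel, upperU_zero]⟩
  obtain ⟨g', hg'⟩ := ResidualThree.rho_surjective hΔ hss hirr
    ⟨lowerU 1, lowerU (-1), by rw [← lowerU_add, add_neg_cancel, lowerU_zero],
      by rw [← lowerU_add, neg_add_cancel, lowerU_zero]⟩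
  exact ⟨ResidualThree.torsBasis hΔ, g, g', 1, 1, one_ne_zero, one_ne_zero,
    congrArg Units.val hg, congrArg Units.val hg'⟩

/-- **The facts about the residual representation, over any extension of `𝔽_p`.** -/
theorem residualRep_facts [(W.map (Int.castRingHom ℚ)).IsElliptic]
    (hirr : W.ModRepIsIrreducible p) (k : Type) [Field k] [Algebra (ZMod p) k] :
    ((EC.residualRep (W.map (Int.castRingHom ℚ)) p).baseChange k).IsAbsolutelyIrreducible ∧
      ∀ (K : Type) [Field K] [Algebra k K] (H : Subgroup GQ), H.index = 2 →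
        ∀ V : Submodule K
          (((EC.residualRep (W.map (Int.castRingHom ℚ)) p).baseChange k).baseChange K).V,
          (∀ σ ∈ H, ∀ x ∈ V,
            (((EC.residualRep (W.map (Int.castRingHom ℚ)) p).baseChange k).baseChange K).ρ σ x
              ∈ V) →
          V = ⊥ ∨ V = ⊤ := by
  set E := W.map (Int.castRingHom ℚ) with hE
  have h2 := two_ne_zero_zmod (p := p) hp2
  have hk2 : (2 : k) ≠ 0 := by
    rw [← map_ofNat (algebraMap (ZMod p) k) 2, Ne, map_eq_zero]
    exact h2
  set ρ₀ := EC.residualRep E p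
  have hirr₀ : ρ₀.IsIrreducible := fun V hV => hirr.2 V fun τ x hx => by
    have := hV τ x hx
    rwa [show ρ₀.ρ τ x = τ • x from torsAct_apply τ x] at this
  have hcc : ρ₀.ρ complexConjugation * ρ₀.ρ complexConjugation = 1 := by
    rw [← map_mul, complexConjugation_mul_self, map_one]
  have hdc : LinearMap.det (ρ₀.ρ complexConjugation) = -1 :=
    (Ihara.det_galoisRepModuleEnd E (Ihara.card_rootsOfUnity_Qbar p) complexConjugation).trans
      (Ihara.cyclotomicCharacter_complexConjugation (Ihara.card_rootsOfUnity_Qbar p))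
  have hccc : (ρ₀.baseChange k).ρ complexConjugation * (ρ₀.baseChange k).ρ complexConjugation = 1 :=
    by rw [← map_mul, complexConjugation_mul_self, map_one]
  have hdck : LinearMap.det ((ρ₀.baseChange k).ρ complexConjugation) = -1 := by
    show LinearMap.det ((ρ₀.ρ complexConjugation).baseChange k) = -1
    rw [LinearMap.det_baseChange, hdc, map_neg, map_one]
  have hirrk : ∀ (K : Type) [Field K] [Algebra k K],
      ((ρ₀.baseChange k).baseChange K).IsIrreducible := fun K _ _ =>
    isIrreducible_baseChange_of_involution _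
      (isIrreducible_baseChange_of_involution ρ₀ hirr₀ h2 hcc hdc k) hk2 hccc hdck K
  refine ⟨hirrk _, fun K _ _ H hH V hV => ?_⟩
  rcases eq_or_ne p 3 with hp3 | hp3
  · exact irreducible_indexTwo_of_transvections _
      ((hasOppositeTransvections_three hΔ hss hp3 hirr).baseChange _ fun _ => rfl) hk2 K H hH V hV
  · by_contra hne
    push Not at hne
    obtain ⟨σ, hσH, hσ⟩ := exists_trace_ne_zero_not_mem hΔ hp2 hss hp3 hH
    refine hσ ?_
    have h := trace_eq_zero_of_index_two (hirrk K) hH hV hne.1 hne.2 hσH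
    change LinearMap.trace k (k ⊗[ZMod p] ρ₀.V) ((ρ₀.ρ σ).baseChange k) = 0 at h
    rw [LinearMap.trace_baseChange] at h
    exact (map_eq_zero _).1 h

end Curve

end Fermat.Agent.LevelLowering.Semistable
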