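import Fermat.Agent.LevelLowering.Semistable.AuxPrime
import Fermat.Agent.LevelLowering.Semistable.Image
import Fermat.Agent.TW.AdLevel

/-!
# Auxiliary primes for an irreducible semistable mod `p` representation

If every element of a commutator-containing normal subgroup `N` of determinant one had trace zero
against the complex conjugation `c`, then `c` would invert `N`; either some `f` (`c` or a nonscalar
element of `N`) has a stable eigenline, or it is moved to one other element by conjugation, and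
then the trace vanishes outside the centraliser of `f`, of index two.
-/

noncomputable section

namespace Fermat.Agent.LevelLowering.Semistable

open WeierstrassCurve WeierstrassCurve.Affine.Point Fermat.Agent.Frey
open scoped WeierstrassCurve.Affine

local notation "Qbar" => AlgebraicClosure ℚ
local notation "GQ" => (AlgebraicClosure ℚ ≃ₐ[ℚ] AlgebraicClosure ℚ)

section Pure

variable {k V G : Type*} [Field k] [AddCommGroup V] [Module k V] [Group G]

/-- The elements acting by maps which commute with `f`. -/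
def commutantSubgroup (ρ : G →* Module.End k V) (f : Module.End k V) : Subgroup G where
  carrier := {g | ρ g * f = f * ρ g}
  one_mem' := by simp
  mul_mem' {a b} ha hb := by
    show ρ (a * b) * f = f * ρ (a * b)
    rw [map_mul, mul_assoc, hb, ← mul_assoc, ha, mul_assoc]
  inv_mem' {a} ha := by
    show ρ a⁻¹ * f = f * ρ a⁻¹
    have h : ρ a⁻¹ * (ρ a * f) * ρ a⁻¹ = ρ a⁻¹ * (f * ρ a) * ρ a⁻¹ := by rw [ha]
    rw [← mul_assoc (ρ a⁻¹) (ρ a) f, ← map_mul, inv_mul_cancel, map_one, one_mul,
      mul_assoc (ρ a⁻¹) (f * ρ a) _, mul_assoc f (ρ a), ← map_mul, mul_inv_cancel, map_one,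
      mul_one] at h
    exact h.symm

theorem mem_commutantSubgroup {ρ : G →* Module.End k V} {f : Module.End k V} {g : G} :
    g ∈ commutantSubgroup ρ f ↔ ρ g * f = f * ρ g := Iff.rfl

/-- A map moved to one other map by conjugation commutes with everything, if on every subgroup of
index two some outside trace is nonzero. -/
theorem commutes_of_two_conjugates (hV : Module.finrank k V = 2) (ρ : G →* Module.End k V)
    (htr : ∀ H : Subgroup G, H.index = 2 → ∃ σ, σ ∉ H ∧ LinearMap.trace k V (ρ σ) ≠ 0)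
    {f f' : Module.End k V} (h : ∀ s, ρ s * f = f * ρ s ∨ ρ s * f = f' * ρ s) (s : G) :
    ρ s * f = f * ρ s := by
  have := Module.finite_of_finrank_eq_succ hV
  by_contra hs
  have hmul : ∀ a b : G, a ∉ commutantSubgroup ρ f → b ∉ commutantSubgroup ρ f →
      a * b ∈ commutantSubgroup ρ f := by
    intro a b ha hb
    have ha' : a⁻¹ ∉ commutantSubgroup ρ f := fun h' => ha (inv_inv a ▸ inv_mem h')
    have e1 : ρ a⁻¹ * f = f' * ρ a⁻¹ := (h a⁻¹).resolve_left ha'
    have e2 : ρ b * f = f' * ρ b := (h b).resolve_left hb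
    rw [mem_commutantSubgroup]
    have e3 : f * ρ a = ρ a * f' := by
      have e := congrArg (fun X => ρ a * X * ρ a) e1
      simp only [← mul_assoc, ← map_mul, mul_inv_cancel, map_one, one_mul] at e
      rw [mul_assoc (ρ a * f'), ← map_mul, inv_mul_cancel, map_one, mul_one] at e
      exact e
    rw [map_mul, mul_assoc, e2, ← mul_assoc, ← e3, mul_assoc]
  have hidx : (commutantSubgroup ρ f).index = 2 :=
    Subgroup.index_eq_two_iff_exists_notMem_and.2 ⟨s, hs, fun b =>
      (em (b ∈ commutantSubgroup ρ f)).symm.imp (fun hb => hmul b s hb hs) id⟩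
  obtain ⟨σ, hσ, htσ⟩ := htr _ hidx
  have h2 := mem_commutantSubgroup.1 (hmul σ σ hσ hσ)
  rw [map_mul, Gal.cayleyHamilton_two hV (ρ σ), sub_mul, mul_sub, smul_mul_assoc, smul_mul_assoc,
    mul_smul_comm, mul_smul_comm, one_mul, mul_one, sub_left_inj] at h2
  exact hσ (mem_commutantSubgroup.2 (smul_right_injective _ htσ h2))

/-- The commutant of a nonscalar plane map. -/
theorem exists_eq_add_smul (hV : Module.finrank k V = 2) {h g : Module.End k V}
    (hns : ∀ a : k, h ≠ a • 1) (hg : g * h = h * g) : ∃ x y : k, g = x • 1 + y • h := by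
  have := Module.finite_of_finrank_eq_succ hV
  obtain ⟨v, hv⟩ : ∃ v, ∀ a : k, h v ≠ a • v := by
    by_contra! hall
    let b : Module.Basis (Fin 2) k V := Gal.basisTwo hV
    obtain ⟨a0, e0⟩ := hall (b 0)
    obtain ⟨a1, e1⟩ := hall (b 1)
    obtain ⟨a, e⟩ := hall (b 0 + b 1)
    rw [map_add, e0, e1] at e
    have r0 := congrArg (fun z => b.repr z 0) e
    have r1 := congrArg (fun z => b.repr z 1) e
    simp at r0 r1
    refine hns a (b.ext fun i => ?_)
    fin_cases i
    · simp [e0, r0]
    · simp [e1, r1]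
  have hv0 : v ≠ 0 := fun h0 => hv 0 (by simp [h0])
  have hli : LinearIndependent k ![v, h v] :=
    (LinearIndependent.pair_iff' hv0).mpr fun a e => hv a e.symm
  let b : Module.Basis (Fin 2) k V :=
    basisOfLinearIndependentOfCardEqFinrank hli (by simp [hV])
  have hb : ⇑b = ![v, h v] := coe_basisOfLinearIndependentOfCardEqFinrank hli _
  have hb0 : b 0 = v := by rw [hb]; rfl
  have hb1 : b 1 = h v := by rw [hb]; rfl
  refine ⟨b.repr (g v) 0, b.repr (g v) 1, ?_⟩
  have e : g v = b.repr (g v) 0 • v + b.repr (g v) 1 • h v := by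
    conv_lhs => rw [← b.sum_repr (g v), Fin.sum_univ_two, hb0, hb1]
  refine b.ext fun i => ?_
  fin_cases i
  · simpa [hb0] using e
  · have e2 : g (h v) = h (g v) := LinearMap.congr_fun hg v
    simp only [Fin.mk_one, hb1, LinearMap.add_apply, LinearMap.smul_apply, Module.End.one_apply]
    rw [e2]
    conv_lhs => rw [e]
    rw [map_add, map_smul, map_smul]

/-- An involution which is not scalar cannot have all its commutators scalar of determinant one,
if on every subgroup of index two some outside trace is nonzero. -/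
theorem false_of_scalar_commutators (hV : Module.finrank k V = 2) (ρ : G →* Module.End k V)
    (hirr : ∀ W : Submodule k V, (∀ g, ∀ x ∈ W, ρ g x ∈ W) → W = ⊥ ∨ W = ⊤)
    (htr : ∀ H : Subgroup G, H.index = 2 → ∃ σ, σ ∉ H ∧ LinearMap.trace k V (ρ σ) ≠ 0)
    {c : G} (hc : ρ c * ρ c = 1) (hCns : ∀ a : k, ρ c ≠ a • 1)
    (hsc : ∀ s, ∃ a : k, ρ (s * c * s⁻¹ * c⁻¹) = a • 1)
    (hdet : ∀ s, LinearMap.det (ρ (s * c * s⁻¹ * c⁻¹)) = 1) : False := by
  set C := ρ c with hC
  have hCs : ∀ s, ρ s * C = C * ρ s ∨ ρ s * C = (-C) * ρ s := by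
    intro s
    obtain ⟨a, ha⟩ := hsc s
    have e : ρ (s * c * s⁻¹ * c⁻¹) * (C * ρ s) = ρ s * C := by
      rw [← map_mul, ← map_mul, ← map_mul]; congr 1; group
    rw [ha, smul_one_mul] at e
    have hd := hdet s
    rw [ha, LinearMap.det_smul, hV, map_one, mul_one, sq] at hd
    rcases mul_self_eq_one_iff.1 hd with ha1 | ha1 <;> rw [ha1] at e
    · exact Or.inl (by rw [← e, one_smul])
    · exact Or.inr (by rw [← e, neg_one_smul, neg_mul])
  have hcent := commutes_of_two_conjugates hV ρ htr hCs
  rcases hirr (LinearMap.ker (C - 1)) (fun s x hx => by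
    rw [LinearMap.mem_ker, LinearMap.sub_apply, Module.End.one_apply, sub_eq_zero] at hx ⊢
    rw [← Module.End.mul_apply, ← hcent s, Module.End.mul_apply, hx]) with h | h
  · refine hCns (-1) (LinearMap.ext fun x => ?_)
    have hx : C x + x ∈ LinearMap.ker (C - 1) := by
      rw [LinearMap.mem_ker, LinearMap.sub_apply, Module.End.one_apply, sub_eq_zero, map_add,
        ← Module.End.mul_apply, hc, Module.End.one_apply, add_comm]
    rw [h, Submodule.mem_bot] at hx
    simpa using eq_neg_of_add_eq_zero_left hx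
  · exact hCns 1 (by rw [one_smul, ← sub_eq_zero, ← LinearMap.ker_eq_top, h])

/-- Conjugates of a nonscalar `h` of determinant one which commute with it. -/
theorem exists_conj_coeffs (hV : Module.finrank k V = 2) (ρ : G →* Module.End k V) {h s : G}
    {t : k} (ht : t = LinearMap.trace k V (ρ h)) (hns : ∀ a : k, ρ h ≠ a • 1)
    (hdh : LinearMap.det (ρ h) = 1) (hdk : LinearMap.det (ρ (s * h * s⁻¹)) = 1)
    (hcm : ρ (s * h * s⁻¹) * ρ h = ρ h * ρ (s * h * s⁻¹)) :
    ∃ x y : k, ρ (s * h * s⁻¹) = x • 1 + y • ρ h ∧ 2 * x + y * t = t ∧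
      y * y * (t * t - 4) = t * t - 4 := by
  have := Module.finite_of_finrank_eq_succ hV
  subst ht
  set t := LinearMap.trace k V (ρ h) with ht
  have hch : ρ h * ρ h = t • ρ h - (1 : Module.End k V) := by
    rw [Gal.cayleyHamilton_two hV, hdh, one_smul]
  obtain ⟨x, y, e⟩ := exists_eq_add_smul hV hns hcm
  refine ⟨x, y, e, ?_⟩
  have e1 : LinearMap.trace k V (ρ (s * h * s⁻¹)) = t := by
    rw [map_mul ρ, map_mul ρ, LinearMap.trace_mul_comm, ← mul_assoc, ← map_mul ρ, inv_mul_cancel,
      map_one, one_mul]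
  have e2 : 2 * x + y * t = t := by
    rw [e, map_add, map_smul, map_smul, LinearMap.trace_one, hV] at e1
    simpa [mul_comm] using e1
  refine ⟨e2, ?_⟩
  have e3 := Gal.cayleyHamilton_two hV (ρ (s * h * s⁻¹))
  rw [hdk, e1, e, one_smul] at e3
  simp only [mul_add, add_mul, smul_mul_smul_comm, one_mul, mul_one, hch, smul_sub, smul_add,
    smul_smul] at e3
  have e4 : ((x * y) + y * x + y * y * t - t * y) • ρ h =
      (t * x - 1 - x * x + y * y) • (1 : Module.End k V) := by
    simp only [add_smul, sub_smul, one_smul] at e3 ⊢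
    linear_combination (norm := abel) e3
  have e5 : x * y + y * x + y * y * t - t * y = 0 := by
    by_contra hne
    exact hns ((x * y + y * x + y * y * t - t * y)⁻¹ * (t * x - 1 - x * x + y * y)) (by
      rw [mul_smul, ← e4, inv_smul_smul₀ hne])
  have e6 : t * x - 1 - x * x + y * y = 0 := by
    rw [e5, zero_smul] at e4
    have : Nontrivial (Module.End k V) := by
      have : Nontrivial V := Module.nontrivial_of_finrank_eq_succ hV
      infer_instance
    exact (smul_eq_zero.1 e4.symm).resolve_right one_ne_zero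
  linear_combination (-4) * e6 + (y * t - 2 * x + t) * e2

/-- In a subgroup of determinant one containing the commutators some element has nonzero trace
against an involution `c` of determinant `-1`. -/
theorem exists_trace_mul_ne (hV : Module.finrank k V = 2) (ρ : G →* Module.End k V)
    (h2 : (2 : k) ≠ 0) (hirr : ∀ W : Submodule k V, (∀ g, ∀ x ∈ W, ρ g x ∈ W) → W = ⊥ ∨ W = ⊤)
    (htr : ∀ H : Subgroup G, H.index = 2 → ∃ σ, σ ∉ H ∧ LinearMap.trace k V (ρ σ) ≠ 0)
    {c : G} (hc : ρ c * ρ c = 1) (hdc : LinearMap.det (ρ c) = -1) (N : Subgroup G)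
    (hN : ∀ h ∈ N, LinearMap.det (ρ h) = 1) (hcomm : ∀ a b : G, a * b * a⁻¹ * b⁻¹ ∈ N) :
    ∃ h ∈ N, LinearMap.trace k V (ρ c * ρ h) ≠ 0 := by
  have := Module.finite_of_finrank_eq_succ hV
  by_contra! hall
  set C := ρ c with hC
  -- `c` inverts `N`
  have hinv : ∀ h ∈ N, C * ρ h * C * ρ h = 1 := fun h hh => by
    have hd : LinearMap.det (C * ρ h) = -1 := by rw [map_mul, hdc, hN h hh, mul_one]
    rw [mul_assoc (C * ρ h), Gal.cayleyHamilton_two hV, hall h hh, hd]
    simp
  have hCns : ∀ a : k, C ≠ a • 1 := fun a e => by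
    have h1 := hc
    rw [e, smul_mul_smul_comm, one_mul] at h1
    rw [e, LinearMap.det_smul, hV, map_one, mul_one, sq] at hdc
    have : Nontrivial V := Module.nontrivial_of_finrank_eq_succ hV
    obtain ⟨v, hv⟩ := exists_ne (0 : V)
    have h3 := LinearMap.congr_fun h1 v
    rw [LinearMap.smul_apply, Module.End.one_apply, hdc, neg_one_smul] at h3
    have h4 : (2 : k) • v = 0 := by rw [two_smul]; nth_rw 1 [← h3]; exact neg_add_cancel v
    exact hv ((smul_eq_zero.1 h4).resolve_left h2)
  have hcancel : ∀ (s : G) (X : Module.End k V), ρ s⁻¹ * (ρ s * X) = X := fun s X => by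
    rw [← mul_assoc, ← map_mul, inv_mul_cancel, map_one, one_mul]
  by_cases hsc : ∀ h ∈ N, ∃ a : k, ρ h = a • 1
  · exact false_of_scalar_commutators hV ρ hirr htr hc hCns (fun s => hsc _ (hcomm s c))
      fun s => hN _ (hcomm s c)
  push Not at hsc
  obtain ⟨h, hhN, hns⟩ := hsc
  set t := LinearMap.trace k V (ρ h) with ht
  have hch : ρ h * ρ h = t • ρ h - (1 : Module.End k V) := by
    rw [Gal.cayleyHamilton_two hV, hN h hhN, one_smul]
  have hCC : ∀ X, C * (C * X) = X := fun X => by rw [← mul_assoc, hc, one_mul]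
  have hrinv : ∀ x ∈ N, ρ x⁻¹ = C * ρ x * C := fun x hx => by
    have e := congrArg (fun X => X * ρ x⁻¹) (hinv x hx)
    simp only [one_mul, mul_assoc, ← map_mul, mul_inv_cancel, map_one, mul_one] at e
    rw [← e, mul_assoc]
  have hNcomm : ∀ x ∈ N, ρ x * ρ h = ρ h * ρ x := by
    intro x hx
    have e : ρ (h⁻¹ * x⁻¹) = C * (ρ x * ρ h) * C := by
      rw [← mul_inv_rev, hrinv _ (mul_mem hx hhN), map_mul]
    rw [map_mul, hrinv _ hx, hrinv _ hhN] at e
    simp only [mul_assoc, hCC] at e
    have e' := congrArg (fun X => C * X) e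
    simp only [hCC] at e'
    have e'' := congrArg (fun X => X * C) e'
    simpa only [mul_assoc, hc, mul_one] using e''.symm
  -- conjugates of `h`
  have hconj : ∀ s, ∃ x y : k, ρ (s * h * s⁻¹) = x • 1 + y • ρ h ∧ 2 * x + y * t = t ∧
      y * y * (t * t - 4) = t * t - 4 := by
    intro s
    have hk : s * h * s⁻¹ ∈ N := by
      rw [show s * h * s⁻¹ = s * h * s⁻¹ * h⁻¹ * h by group]
      exact mul_mem (hcomm s h) hhN
    exact exists_conj_coeffs hV ρ ht hns (hN h hhN) (hN _ hk) (hNcomm _ hk)
  by_cases ht4 : t * t = 4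
  · -- a stable eigenline
    have ht2 : t / 2 * 2 = t := div_mul_cancel₀ _ h2
    set a := t / 2 with ha
    have haa : a * a = 1 := by
      have h4 : (2 : k) * 2 ≠ 0 := mul_ne_zero h2 h2
      refine mul_left_cancel₀ h4 ?_
      linear_combination ht4 + (2 * a + t) * ht2
    have hnil : (ρ h - a • 1) * (ρ h - a • 1) = 0 := by
      simp only [mul_sub, sub_mul, mul_smul_comm, smul_mul_assoc, one_mul, mul_one, hch]
      rw [← ht2, mul_two, add_smul, smul_sub, smul_smul, haa, one_smul]
      abel
    rcases hirr (LinearMap.ker (ρ h - a • 1)) (fun s x hx => by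
      rw [LinearMap.mem_ker, LinearMap.sub_apply, LinearMap.smul_apply, Module.End.one_apply,
        sub_eq_zero] at hx ⊢
      obtain ⟨u, y, e, e2, -⟩ := hconj s
      have e3 : ρ (s * h * s⁻¹) (ρ s x) = a • ρ s x := by
        rw [← Module.End.mul_apply, ← map_mul, inv_mul_cancel_right, map_mul, Module.End.mul_apply,
          hx, map_smul]
      have hy : y ≠ 0 := by
        rintro rfl
        rw [zero_smul, add_zero] at e
        refine hns u ?_
        have e' := congrArg (fun X => ρ s⁻¹ * X * ρ s) e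
        simp only [← map_mul, mul_smul_comm, mul_one, smul_mul_assoc] at e'
        rwa [show s⁻¹ * (s * h * s⁻¹) * s = h by group, inv_mul_cancel, map_one] at e'
      rw [e, LinearMap.add_apply, LinearMap.smul_apply, LinearMap.smul_apply,
        Module.End.one_apply] at e3
      refine smul_right_injective V hy ?_
      show y • ρ h (ρ s x) = y • (a • ρ s x)
      rw [smul_smul, eq_sub_of_add_eq' e3, ← sub_smul]
      congr 1
      refine mul_left_cancel₀ h2 ?_
      linear_combination (1 - y) * ht2 - e2) with h0 | h0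
    · refine hns a (LinearMap.ext fun x => ?_)
      have hx : (ρ h - a • 1) x ∈ LinearMap.ker (ρ h - a • 1) := by
        rw [LinearMap.mem_ker, ← Module.End.mul_apply, hnil, LinearMap.zero_apply]
      rw [h0, Submodule.mem_bot, LinearMap.sub_apply, sub_eq_zero] at hx
      exact hx
    · exact hns a (sub_eq_zero.1 (LinearMap.ker_eq_top.1 h0))
  · have hhs : ∀ s, ρ s * ρ h = ρ h * ρ s ∨ ρ s * ρ h = (t • 1 - ρ h) * ρ s := by
      intro s
      obtain ⟨x, y, e, e2, e3⟩ := hconj s
      have e4 : ρ (s * h * s⁻¹) * ρ s = ρ s * ρ h := by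
        rw [← map_mul, inv_mul_cancel_right, map_mul]
      have hy : y * y = 1 := mul_right_cancel₀ (sub_ne_zero.2 ht4) (e3.trans (one_mul _).symm)
      rcases mul_self_eq_one_iff.1 hy with rfl | rfl
      · left
        have hx : x = 0 := (mul_eq_zero.1 (show 2 * x = 0 by linear_combination e2)).resolve_left h2
        rw [e, hx, zero_smul, zero_add, one_smul] at e4
        exact e4.symm
      · right
        have hx : x = t := mul_left_cancel₀ h2 (by linear_combination e2)
        rw [e, hx, neg_one_smul, ← sub_eq_add_neg] at e4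
        exact e4.symm
    have hcent := commutes_of_two_conjugates hV ρ htr hhs c
    have h1 := hinv h hhN
    rw [show C * ρ h = ρ h * C from hcent, mul_assoc (ρ h), hc, mul_one, hch,
      sub_eq_iff_eq_add] at h1
    by_cases ht0 : t = 0
    · rw [ht0, zero_smul, ← two_smul k] at h1
      have : Nontrivial V := Module.nontrivial_of_finrank_eq_succ hV
      exact one_ne_zero (α := Module.End k V) ((smul_eq_zero.1 h1.symm).resolve_left h2)
    · exact hns (t⁻¹ * 2) (by rw [mul_smul, two_smul, ← h1, inv_smul_smul₀ ht0])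

end Pure

/-- **Auxiliary primes for a semistable model.**  Outside any finite set there is a good prime
`t ≡ 11 (mod 12)`, `t ≠ p`, with `a_t ^ 2 ≢ (t + 1) ^ 2 (mod p)`. -/
theorem exists_aux_prime_semistable {p : ℕ} [Fact p.Prime] (hp2 : p ≠ 2) {W : WeierstrassCurve ℤ}
    (hΔ : W.Δ ≠ 0) (hss : W.IsSemistableModel) (hirr : W.ModRepIsIrreducible p) (S : Finset ℕ) :
    ∃ t : ℕ, t.Prime ∧ t ∉ S ∧ t ≠ p ∧ W.IsGoodPrimeFor t ∧ t % 12 = 11 ∧
      (W.apOfModel t : ZMod p) ^ 2 ≠ ((t : ZMod p) + 1) ^ 2 := by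
  rcases eq_or_ne p 3 with hp3 | hp3
  · exact exists_aux_prime hp2 hΔ (hasOppositeTransvections_three hΔ hss hp3 hirr) S
  have := isElliptic_mapRat hΔ
  have hV : Module.finrank (ZMod p) (Tors W p) = 2 := finrank_tors hΔ
  have : NeZero (12 : ℕ) := ⟨by norm_num⟩
  have : NeZero ((12 : ℕ) : Qbar) := ⟨by norm_num⟩
  obtain ⟨ζ, hζ⟩ := HasEnoughRootsOfUnity.exists_primitiveRoot Qbar 12
  have hn := Ihara.card_rootsOfUnity_Qbar p
  have hdet : ∀ σ, LinearMap.det (torsAct W p σ) =
      ((modularCyclotomicCharacter Qbar hn (σ : Qbar ≃+* Qbar) : (ZMod p)ˣ) : ZMod p) :=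
    Ihara.det_galoisRepModuleEnd (W.map (Int.castRingHom ℚ)) hn
  let N : Subgroup GQ :=
    ((LinearMap.det : Module.End (ZMod p) (Tors W p) →* ZMod p).comp (torsAct W p)).toHomUnits.ker ⊓
      TW.cycFix ζ
  have hN : ∀ h ∈ N, LinearMap.det (torsAct W p h) = 1 := fun h hh =>
    congrArg Units.val (MonoidHom.mem_ker.1 (Subgroup.mem_inf.1 hh).1)
  have hcomm : ∀ a b : GQ, a * b * a⁻¹ * b⁻¹ ∈ N := fun a b => by
    refine Subgroup.mem_inf.2 ⟨MonoidHom.mem_ker.2 ?_, TW.commutator_mem_cycFix hζ a b⟩
    rw [map_mul, map_mul, map_mul, map_inv, map_inv, mul_right_comm _ _⁻¹]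
    simp
  have hcc : torsAct W p complexConjugation * torsAct W p complexConjugation = 1 := by
    rw [← map_mul, complexConjugation_mul_self, map_one]
  have hdc : LinearMap.det (torsAct W p complexConjugation) = -1 := by
    rw [hdet, Ihara.cyclotomicCharacter_complexConjugation hn]
  obtain ⟨h, hhN, hh⟩ := exists_trace_mul_ne hV (torsAct W p) (two_ne_zero_zmod hp2)
    (fun U hU => hirr.2 U fun τ x hx => by simpa only [torsAct_apply] using hU τ x hx)
    (fun H hH => exists_trace_ne_zero_not_mem hΔ hp2 hss hp3 hH) hcc hdc N hN hcomm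
  have := finite_tors (p := p) hΔ
  refine exists_aux_prime_of_element hΔ (Gal.basisTwo hV) (g := complexConjugation * h) hζ ?_ ?_
    ?_ S
  · show complexConjugation (h ζ) = ζ⁻¹
    rw [show h ζ = ζ from TW.mem_cycFix.1 (Subgroup.mem_inf.1 hhN).2]
    exact complexConjugation_rootOfUnity (by norm_num) hζ.pow_eq_one
  · show LinearMap.det (torsAct W p (complexConjugation * h)) = -1
    rw [map_mul, map_mul, hdc, hN h hhN, mul_one]
  · show LinearMap.trace (ZMod p) (Tors W p) (torsAct W p (complexConjugation * h)) ≠ 0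
    rwa [map_mul]

end Fermat.Agent.LevelLowering.Semistable
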