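import Fermat.Agent.LevelLowering.MonodromyExact.FixedLe

/-!
# Classes fixed by inertia at a level without elliptic points

Where `X₀(M)` has no elliptic point every node of `X₀(M q)` at `q` has order twelve for the reduced
unit, so the slope relations hold modulo `12 p` and no bound on `p` is needed.
-/

noncomputable section

open ModularCurve AlgebraicCurve Fermat.Agent.Red Fermat.Agent.TwoComponent Fermat.Agent.LoweringAtP
  Fermat.Agent.LoweringAtP.HeckeCompat

namespace Fermat.Agent.LevelLowering.Semistable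

open Attach

local notation "Qb" => AlgebraicClosure ℚ

section fixed

variable {A : ValuationSubring (AlgebraicClosure ℚ)} {k : Type*} [Field k] {π : A →+* k}
  [IsAlgClosed k]
variable {M q : ℕ} [hq : Fact q.Prime] [NeZero M] [NeZero (M * q)] [CharP k q]
  (hres : ResidueAt A q π) (hqM : ¬ q ∣ M)
  (hgen : genusFF Qb (modularFunctionFieldBar M) ≤ genusFF k (CK M k)) (hell : Model.NoEll M)

omit [NeZero (M * q)] in
include hell in
/-- Without elliptic points, the reduced orders of a function whose divisor is `m` times another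
one are divisible by `m` off the nodes, and sum to a multiple of `m` on the two branches of a
node. -/
theorem node_off_dvd {m : ℕ} (hm : 0 < m) {D : Divisor.degZero (K := Qb) (F := FN M q)}
    {f : FN M q} (hf : f ≠ 0)
    (hdiv : ∀ P : Place Qb (FN M q), P.ord f = (m : ℤ) * (D : Divisor Qb (FN M q)) P) :
    (∀ s, (m : ℤ) ∣
        redOrd (redC M q hqM hres false) f ((modelTwoRed M q hqM hres hgen).br s false) +
          redOrd (redC M q hqM hres true) f ((modelTwoRed M q hqM hres hgen).br s true)) ∧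
      ∀ i Q, (∀ s, (modelTwoRed M q hqM hres hgen).br s i ≠ Q) →
        (m : ℤ) ∣ redOrd (redC M q hqM hres i) f Q :=
  MonodromyExact.redOrd_node_off_dvd (Model.modelUnitData M q hqM hres hgen hell) hm hf hdiv

omit [NeZero (M * q)] in
include hell in
/-- Without elliptic points, the `m`-torsion of `J₀(M q)` is bounded by its slopes and the classes
of slope zero. -/
theorem natCard_torsion_le_level {m : ℕ} (hm : 0 < m) [Finite (Pic0.torsion Qb (FN M q) m)] :
    Nat.card (Pic0.torsion Qb (FN M q) m) ≤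
      m ^ (Fintype.card (Node M q hqM hres hgen) - 1) *
        Nat.card ((modelTwoRed M q hqM hres hgen).T0 m) :=
  haveI := Model.nonempty_node M q hqM hres hgen hell
  MonodromyExact.natCard_torsion_le (Model.modelUnitData M q hqM hres hgen hell) hm

variable {p : ℕ} [hp : Fact p.Prime] (hp2 : p ≠ 2)
  {W : WeierstrassCurve ℤ} (hΔ : W.Δ ≠ 0) (hirr : W.ModRepIsIrreducible p)
  (Tm : TorsionModel (M * q) p) {S : Finset ℕ}
  (hNS : ∀ ℓ, ℓ.Prime → ℓ ∣ M * q → ℓ ∈ (↑S : Set ℕ))
  {kk : Type} [Field kk] [CharP kk p]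
  (θ : CuspForm.heckeAlgebra (M * q) 2 (↑S : Set ℕ) →+* kk)
  (hθ : ∀ (ℓ : ℕ) (hℓ : ℓ.Prime) (hℓN : ¬ ℓ ∣ M * q) (hℓS : ℓ ∉ (↑S : Set ℕ)),
    θ (CuspForm.heckeAlgebra.T hℓ hℓN hℓS) = (W.apOfModel ℓ : kk))

include hell hp2 hΔ hirr hθ in
omit [CharP kk p] in
/-- **Fixed by inertia means slope zero.** -/
theorem inT0_of_fixed {x : JZero (M * q)}
    (hx : x ∈ MonodromyExact.thetaPts Tm hNS θ 1) (hxp : p • x = 0)
    (hfix : ∀ τ ∈ A.inertiaSubgroupIn ℚ, τ • x = x) :
    (modelTwoRed M q hqM hres hgen).InT0 p x := by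
  classical
  have hp' : p.Prime := hp.out
  obtain ⟨s₀⟩ := Model.nonempty_node M q hqM hres hgen hell
  obtain ⟨D, f, hD, -, hf, hdiv, hfc⟩ := PeuRamifie.exists_fixed_rep (A.inertiaSubgroupIn ℚ)
    hxp hfix
  set Ud := Model.modelUnitData M q hqM hres hgen hell
  have hη := Model.modelUnitData_η M q hqM hres hgen hell
  set R := redC M q hqM hres false
  set ub := Model.unitBarC M q hqM hres
  obtain ⟨hnode, hoff⟩ := node_off_dvd hres hqM hgen hell hp'.pos (D := D) hf hdiv
  have hfix' : Setup.CoeffFixed (N := M * q) (A.inertiaSubgroupIn ℚ) f := fun σ hσ n => hfc n σ hσ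
  have hspans : (Model.modelRatData Ud hη).Spans D.1 :=
    Setup.spans_of_fixed (fun _ h => (Model.mem_F₀_iff Ud hη).mpr h) (Model.coeffFixed_x _)
      (Int.natCast_ne_zero.mpr hp'.ne_zero) hfix' hdiv
  set C : ℤ := redOrd R f ((modelTwoRed M q hqM hres hgen).br s₀ false)
  have hC : ∀ Q : Place k (CK M k), 0 ≤ Q.ord (HeckeCompat.jC k M) →
      ((12 * p : ℕ) : ℤ) ∣ 12 * redOrd R f Q - C * Q.ord ub := by
    intro Q hQ
    have hx' := MonodromyExact.xbC_mem_of_ord (q := q) hQ
    rw [Nat.cast_mul, Nat.cast_ofNat]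
    by_cases hn : Q ∈ (graphAlg M q hqM hres hgen).nodeSet
    · obtain ⟨s, hs⟩ := MonodromyExact.exists_br_false hqM hres hgen hn
      rw [Model.ord_unitBarC_node M q hqM hres hgen hell hn, mul_comm C, ← mul_sub, ← hs]
      exact mul_dvd_mul_left _ ((Model.modelRatData Ud hη).slopes_congr rfl hp'.pos hspans
        (Divisor.mem_degZero.mp D.2) ((Model.mem_F₀_iff Ud hη).mpr hfix') hf hdiv s s₀)
    · rw [Model.ord_unitBarC_of_not_node M q hqM hres hgen hx' hn, mul_zero, sub_zero]
      exact mul_dvd_mul_left _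
        (hoff false Q ((MonodromyExact.forall_br_ne_iff hqM hres hgen false).mpr hn))
  -- the slope is zero
  have hsn := MonodromyExact.br_false_mem hqM hres hgen s₀
  have hu := Model.ord_unitBarC_node M q hqM hres hgen hell hsn
  have hC0 : (p : ℤ) ∣ C := MonodromyExact.dvd_slope_of_mem_thetaPts hres hqM hp2 hΔ hirr Tm
    hNS θ hθ hx
    (m := 12 * p) (fun lam h => h.dvd_of_eq_zero_of_ord (MonodromyExact.ord_jC_of_mem hsn.1) hu)
    ⟨D, f, hD, hf, hdiv, hC⟩
  have hfalse : ∀ t, (p : ℤ) ∣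
      redOrd R f ((modelTwoRed M q hqM hres hgen).br t false) := fun t =>
    (dvd_sub_left hC0).mp ((Model.modelRatData Ud hη).slopes_congr rfl hp'.pos hspans
      (Divisor.mem_degZero.mp D.2) ((Model.mem_F₀_iff Ud hη).mpr hfix') hf hdiv t s₀)
  refine ⟨D, f, hD, hf, hdiv, fun t i => ?_⟩
  cases i
  · exact hfalse t
  · exact (dvd_add_right (hfalse t)).mp (hnode t)

end fixed

end Fermat.Agent.LevelLowering.Semistable
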