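import Fermat.Agent.LevelLowering.MonodromyExact.LocalToric
import Fermat.Agent.LevelLowering.Semistable.Fixed

/-!
# Exactness of the monodromy at `r` at a level without elliptic points

For every odd `p` and every `r ≠ p`: with no elliptic points the reduced unit has order `12` at
every node, so slopes are read modulo `12 p` and no auxiliary covering is needed.
-/

noncomputable section

open ModularCurve AlgebraicCurve Fermat.Agent.Red Fermat.Agent.TwoComponent Fermat.Agent.LoweringAtP

namespace Fermat.Agent.LevelLowering.Semistable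

open Attach MazurPrinciple MonodromyExact

local notation "Qb" => AlgebraicClosure ℚ
local notation "GQ" => (AlgebraicClosure ℚ ≃ₐ[ℚ] AlgebraicClosure ℚ)

variable {p : ℕ} [hp : Fact p.Prime] {M r : ℕ} [hr : Fact r.Prime] [NeZero M] [NeZero (M * r)]

/-- **The local toric structure at `r`** of the `θ`-part of `J₀(M r)` when `X₀(M)` has no elliptic
point, for any odd `p` and any `r ≠ p`. -/
theorem localToric_of_noEll (hp2 : p ≠ 2) (hrM : ¬ r ∣ M) (hrp : r ≠ p) (hell : Model.NoEll M)
    (Ins : JacobianInputs (M * r) p) {W : WeierstrassCurve ℤ} (hΔ : W.Δ ≠ 0)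
    (hirr : W.ModRepIsIrreducible p) (hnot : ¬ W.IsResiduallyModularOfLevel p M)
    {S : Finset ℕ} (hNS : ∀ q, q.Prime → q ∣ M * r → q ∈ (↑S : Set ℕ))
    {kk : Type} [Field kk]
    (θ : CuspForm.heckeAlgebra (M * r) 2 (↑S : Set ℕ) →+* kk)
    (hθ : ∀ (ℓ : ℕ) (hℓ : ℓ.Prime) (hℓN : ¬ ℓ ∣ M * r) (hℓS : ℓ ∉ (↑S : Set ℕ)),
      θ (CuspForm.heckeAlgebra.T hℓ hℓN hℓS) = (W.apOfModel ℓ : kk))
    {A : ValuationSubring Qb} (hA : A.LiesOverPrime r) {φ σ : GQ} (hφ : A.IsFrobeniusAt φ r)
    (hσ : IsTameGenerator p A σ) : Nonempty (LocalToric Ins.model hNS θ r φ σ) := by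
  classical
  have hp' : p.Prime := hp.out
  have hr' : r.Prime := hr.out
  have := Red.isAlgClosed_residueField A
  have := Red.charP_residueField A hA
  have hres := TwoComponent.residueAt r hA
  have hgen := Red.genus_le A hrM hA
  have := Model.nonempty_node M r hrM hres hgen hell
  obtain ⟨InsM⟩ := nonempty_jacobianInputs M p
  refine localToric_of_inputs hrM hrp Ins hNS θ W.apOfModel hθ hA
    (fun n hfin => natCard_torsion_le_level hres hrM hgen hell (m := p ^ n) (pow_pos hp'.pos n))
    (fun x hx hxp hfx => inT0_of_fixed hres hrM hgen hell hp2 hΔ hirr Ins.model hNS θ hθ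
      hx hxp hfx)
    (fun C hC heig => eq_zero_of_not_modular InsM hrM hA hΔ hnot C hC heig) hφ hσ

end Fermat.Agent.LevelLowering.Semistable
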