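import Fermat.Prelude.Def_FLTPrelim_ModularRep
import Fermat.Agent.Attach.EigenChar
import Fermat.Agent.Eis.Eigen
import Fermat.Agent.Eis.Eigenform
import Fermat.Agent.Mazur.EisensteinComponent.Bound

/-!
# Residual modularity passes to higher levels

A normalised eigenform of level `M` is a form of level `M * t` and a common eigenvector there of
the Hecke operators away from `M * t`; an eigenvector of the whole Hecke algebra inside that
eigenspace gives a normalised eigenform of level `M * t` with the same good eigenvalues.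
-/

noncomputable section

open CongruenceSubgroup ModularFormClass

namespace Fermat.Agent.LevelLowering.Semistable

variable {M t : ℕ} [NeZero M] [NeZero t]

/-- The form `f` at level `M * t`. -/
def raiseForm (f : CuspForm (Gamma0 M) 2) : CuspForm (Gamma0 (M * t)) 2 :=
  Mazur.stabForm (ℓ := t) f 0

theorem coe_raiseForm (f : CuspForm (Gamma0 M) 2) :
    (⇑(raiseForm (t := t) f) : UpperHalfPlane → ℂ) = ⇑f := by
  rw [raiseForm, Mazur.coe_stabForm]
  funext τ
  rw [Mazur.stabFun_apply, zero_mul, sub_zero]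

theorem qCoeff_raiseForm (f : CuspForm (Gamma0 M) 2) (n : ℕ) :
    qCoeff (raiseForm (t := t) f) n = qCoeff f n := by
  rw [coe_raiseForm]

/-- A normalised eigenform of level `M` gives one of level `M * t` with the same eigenvalues at the
primes not dividing `M * t`. -/
theorem exists_eigenform_raise {f : CuspForm (Gamma0 M) 2} (hf : f.IsNormalizedEigenform) :
    ∃ g : CuspForm (Gamma0 (M * t)) 2, g.IsNormalizedEigenform ∧
      ∀ ℓ : ℕ, ℓ.Prime → ¬ ℓ ∣ M * t → qCoeff g ℓ = qCoeff f ℓ := by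
  have : NeZero (M * t) := ⟨mul_ne_zero (NeZero.ne M) (NeZero.ne t)⟩
  let V := CuspForm (Gamma0 (M * t)) 2
  have := Eis.finiteDimensional_cuspForm (M * t) 2
  let ρ : CuspForm.heckeAlgebra (M * t) 2 ∅ →+* Module.End ℂ V :=
    (CuspForm.heckeAlgebra (M * t) 2 ∅).val.toRingHom
  let T : {q : Nat.Primes // ¬ (q : ℕ) ∣ M * t} → Module.End ℂ V := fun q =>
    CuspForm.heckeTLin 2 q.1.2 q.2
  let W : Submodule ℂ V := ⨅ q, LinearMap.ker (T q - qCoeff f (q.1 : ℕ) • 1)
  have hmem : ∀ v : V, v ∈ W ↔ ∀ q, T q v = qCoeff f (q.1 : ℕ) • v := fun v => by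
    simp [W, Submodule.mem_iInf, sub_eq_zero]
  have hgen : ∀ q : {q : Nat.Primes // ¬ (q : ℕ) ∣ M * t},
      T q = ρ (CuspForm.heckeFormsGen (M * t) 2 q.1) := fun q => by
    show T q = ((CuspForm.heckeFormsGen (M * t) 2 q.1 : CuspForm.heckeAlgebra (M * t) 2 ∅) :
      Module.End ℂ V)
    rw [CuspForm.heckeFormsGen_of_not_dvd (ℓ := q.1) q.2]
    rfl
  have hW : Eis.IsStableSub ρ W := by
    intro s v hv
    rw [hmem] at hv ⊢
    intro q
    have hc : ρ (CuspForm.heckeFormsGen (M * t) 2 q.1) (ρ s v) =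
        ρ s (ρ (CuspForm.heckeFormsGen (M * t) 2 q.1) v) :=
      congrArg (fun x : CuspForm.heckeAlgebra (M * t) 2 ∅ => (x : Module.End ℂ V) v)
        (mul_comm (CuspForm.heckeFormsGen (M * t) 2 q.1) s)
    rw [hgen q, hc, ← hgen q, hv q, map_smul]
  have hfW : raiseForm (t := t) f ∈ W := by
    rw [hmem]
    intro q
    have hqM : ¬ (q.1 : ℕ) ∣ M := fun h => q.2 (h.mul_right t)
    rw [← sub_eq_zero]
    refine Eis.eq_zero_of_qCoeff _ fun n => ?_
    rw [Eis.qCoeff_sub, Eis.qCoeff_heckeTLin q.1.2 q.2, Eis.qCoeff_smul, qCoeff_raiseForm,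
      qCoeff_raiseForm, qCoeff_raiseForm]
    have h := congrArg (fun x : CuspForm (Gamma0 M) 2 => qCoeff x n)
      (Attach.heckeTLin_apply_eigenform hf q.1.2 hqM)
    simp only [Eis.qCoeff_smul, Eis.qCoeff_heckeTLin q.1.2 hqM] at h
    rw [h, sub_self]
  have hne : W ≠ ⊥ := fun hbot => by
    have h0 := (Submodule.mem_bot ℂ).mp (hbot ▸ hfW)
    have h1 := qCoeff_raiseForm (t := t) f 1
    rw [h0, Eis.qCoeff_zero_form, hf.qCoeff_one] at h1
    exact zero_ne_one h1
  obtain ⟨w, hwW, hw0, hw⟩ := Eis.exists_common_eigenvector ρ W hW hne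
  obtain ⟨χ, hχ⟩ := Eis.exists_character_of_eigenvector ρ hw0 hw
  obtain ⟨g, hg, hgℓ⟩ := Eis.exists_normalizedEigenform_of_eigen hw0 hχ
  refine ⟨g, hg, fun ℓ hℓ hℓN => ?_⟩
  rw [hgℓ ℓ hℓ]
  refine smul_left_injective ℂ hw0 ?_
  show χ _ • w = qCoeff f ℓ • w
  rw [← hχ, ← (hmem w).mp hwW ⟨⟨ℓ, hℓ⟩, hℓN⟩, hgen]

omit [NeZero t] in
/-- **Raising the level trivially.** -/
theorem raise_mul {p : ℕ} {W : WeierstrassCurve ℤ} (t : ℕ) [NeZero t]
    (hmod : W.IsResiduallyModularOfLevel p M) : W.IsResiduallyModularOfLevel p (M * t) := by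
  obtain ⟨f, 𝔪, hf, h𝔪, hp𝔪, hcong⟩ := hmod
  obtain ⟨g, hg, hgf⟩ := exists_eigenform_raise (t := t) hf
  refine ⟨g, 𝔪, hg, h𝔪, hp𝔪, fun ℓ hℓ hgood hℓN hℓp => ?_⟩
  obtain ⟨a, ha, ham⟩ := hcong ℓ hℓ hgood (fun h => hℓN (h.mul_right t)) hℓp
  exact ⟨a, ha.trans (hgf ℓ hℓ hℓN).symm, ham⟩

/-- Residual modularity passes to multiples of the level. -/
theorem raise_of_dvd {p : ℕ} {W : WeierstrassCurve ℤ} {M N : ℕ} (hd : M ∣ N) (hN : 0 < N)
    (hmod : W.IsResiduallyModularOfLevel p M) : W.IsResiduallyModularOfLevel p N := by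
  obtain ⟨t, rfl⟩ := hd
  have : NeZero M := ⟨fun h => by simp [h] at hN⟩
  have : NeZero t := ⟨fun h => by simp [h] at hN⟩
  exact raise_mul t hmod

end Fermat.Agent.LevelLowering.Semistable
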