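import Fermat.Agent.Attach.Inputs
import Fermat.Agent.EC.FrobTrace
import Fermat.Agent.LevelLowering.MonodromyExact.Frob
import Fermat.Agent.LevelLowering.MonodromyExact.NormCompat
import Fermat.Agent.LevelLowering.MonodromyExact.ThetaRed
import Fermat.Agent.LoweringAtP.HeckeCompat.EigenModL

/-!
# Removing an auxiliary prime from the level

Let `t ≠ p` be a good prime of `W` with `a_t ^ 2 ≢ (t + 1) ^ 2 (mod p)`, exactly dividing a level
of `E[p]`.  If the system is not at the lower level then the classes `(φ ^ 2 - 1) x` of the image of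
`E[p]` in `J₀(M t)` are toric at `t`, so `φ ^ 2 = t ^ 2` on them, hence on all of `E[p]`; but a
Frobenius element at `t` with that property has trace `0, ±2` and determinant `-1` or `1`.
-/

noncomputable section

open ModularCurve AlgebraicCurve WeierstrassCurve WeierstrassCurve.Affine.Point Fermat.Agent.Red
  Fermat.Agent.TwoComponent Fermat.Agent.LoweringAtP
open scoped WeierstrassCurve.Affine

namespace Fermat.Agent.LevelLowering.Semistable

open Attach MonodromyExact

local notation "Qbar" => AlgebraicClosure ℚ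

/-- A map of a plane with `f ^ 2 = t ^ 2` on the image of `f ^ 2 - 1`, of trace `a` and
determinant `t ≠ 0`, has `a ^ 2 = (t + 1) ^ 2`. -/
theorem sq_trace_eq_of_sq_toric {F V : Type*} [Field F] [AddCommGroup V] [Module F V]
    (hV : Module.finrank F V = 2) (f : Module.End F V) {a t : F}
    (ha : LinearMap.trace F V f = a) (ht : LinearMap.det f = t) (ht0 : t ≠ 0)
    (h : ∀ x, f (f (f (f x) - x)) = t ^ 2 • (f (f x) - x)) : a ^ 2 = (t + 1) ^ 2 := by
  have : Module.Finite F V := Module.finite_of_finrank_pos (hV ▸ two_pos)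
  have hch : ∀ x, f (f x) = a • f x - t • x := fun x => by
    have := LinearMap.congr_fun (Gal.cayleyHamilton_two hV f) x
    simpa [Module.End.mul_apply, ha, ht] using this
  by_contra hne
  set g : Module.End F V := f * f - 1 with hg
  have hgi : Function.Injective g := by
    refine (injective_iff_map_eq_zero g).mpr fun x hx => ?_
    rw [hg, LinearMap.sub_apply, Module.End.mul_apply, Module.End.one_apply, sub_eq_zero] at hx
    have h1 : a • f x = (t + 1) • x := by
      rw [add_smul, one_smul]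
      exact (eq_add_of_sub_eq ((hch x).symm.trans hx)).trans (add_comm x _)
    have h2 : a ^ 2 • x = (t + 1) ^ 2 • x := by
      have h3 := congrArg f h1
      rw [map_smul, map_smul, hx] at h3
      rw [pow_two, mul_smul, h3, smul_comm, h1, ← mul_smul, ← pow_two]
    rw [← sub_eq_zero, ← sub_smul, smul_eq_zero] at h2
    exact h2.resolve_left (sub_ne_zero.mpr hne)
  have hff : ∀ x, f (f x) = t ^ 2 • x := fun y => by
    obtain ⟨x, rfl⟩ := (LinearMap.injective_iff_surjective.mp hgi) y
    simpa [hg, Module.End.mul_apply] using h x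
  obtain ⟨v, hv⟩ : ∃ v : V, v ≠ 0 := by
    have : Nontrivial V := Module.nontrivial_of_finrank_eq_succ hV
    exact exists_ne 0
  have hlin : ∀ x, a • f x = (t ^ 2 + t) • x := fun x => by
    rw [add_smul, ← hff x, hch x, sub_add_cancel]
  by_cases ha0 : a = 0
  · have h0 := hlin v
    rw [ha0, zero_smul, eq_comm, smul_eq_zero] at h0
    have ht1 : t + 1 = 0 := (mul_eq_zero.mp
      (show t * (t + 1) = 0 by linear_combination h0.resolve_right hv)).resolve_left ht0
    exact hne (by rw [ha0, ht1])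
  set c := (t ^ 2 + t) / a with hc
  have hfc : f = c • 1 := LinearMap.ext fun x => by
    rw [LinearMap.smul_apply, Module.End.one_apply, hc, div_eq_inv_mul, mul_smul, ← hlin,
      inv_smul_smul₀ ha0]
  have hca : a * c = t ^ 2 + t := by rw [hc, mul_div_cancel₀ _ ha0]
  have htr : a = 2 * c := by
    rw [← ha, hfc, map_smul, LinearMap.trace_one, hV, smul_eq_mul, Nat.cast_ofNat, mul_comm]
  have hdet : t = c ^ 2 := by rw [← ht, hfc, LinearMap.det_smul, hV, map_one, mul_one]
  have ht1 : t = 1 := mul_left_cancel₀ ht0 (by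
    rw [htr] at hca
    linear_combination -hca - 2 * hdet)
  exact hne (by rw [htr, ht1]; linear_combination -4 * hdet + 4 * ht1)

variable {p : ℕ} [hp : Fact p.Prime] {W : WeierstrassCurve ℤ}

/-- **Removing an auxiliary prime.**  `t ≠ p` good, `a_t ^ 2 ≢ (t + 1) ^ 2 (mod p)`, `t ∤ M`:
level `M t` implies level `M`. -/
theorem removeAux_mul (hp2 : p ≠ 2) (hΔ : W.Δ ≠ 0) (hirr : W.ModRepIsIrreducible p)
    {M t : ℕ} [NeZero M] (ht : t.Prime) (htp : t ≠ p) (htM : ¬ t ∣ M)
    (hgood : W.IsGoodPrimeFor t)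
    (ha : (W.apOfModel t : ZMod p) ^ 2 ≠ ((t : ZMod p) + 1) ^ 2)
    (hmod : W.IsResiduallyModularOfLevel p (M * t)) : W.IsResiduallyModularOfLevel p M := by
  classical
  have hp' : p.Prime := hp.out
  have : Fact t.Prime := ⟨ht⟩
  have : NeZero (M * t) := ⟨mul_ne_zero (NeZero.ne M) ht.ne_zero⟩
  have : NeZero p := ⟨hp'.ne_zero⟩
  have := Frey.isElliptic_mapRat hΔ
  by_contra hnot
  obtain ⟨Ins⟩ := nonempty_jacobianInputs (M * t) p
  obtain ⟨InsM⟩ := nonempty_jacobianInputs M p
  obtain ⟨ι, hι, hequiv, htor, heig⟩ :=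
    HeckeCompat.exists_galois_map_of_residuallyModular hp2 hΔ Ins hirr hmod
  obtain ⟨A, φ, hA, hφ⟩ := Gal.exists_liesOverPrime_isFrobeniusAt ht
  have := Red.isAlgClosed_residueField A
  have := Red.charP_residueField A hA
  have hres := TwoComponent.residueAt t hA
  have hgen := Red.genus_le A htM hA
  set k := IsLocalRing.ResidueField A
  set T := modelTwoRed M t htM hres hgen
  have hpk : (p : k) ≠ 0 := fun h => htp
    ((Nat.prime_dvd_prime_iff_eq ht hp').mp ((CharP.cast_eq_zero_iff k t p).mp h))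
  have hfK : EichlerShimura.InducesOn A (IsLocalRing.residue A) φ (frobK t k) := by
    have e : EichlerShimura.residueAut A ⟨φ, hφ.mem_decompositionSubgroup⟩ = frobK t k :=
      RingEquiv.ext fun z => (EichlerShimura.residueAut_frobenius hφ z).trans (frobK_apply t z).symm
    exact e ▸ EichlerShimura.inducesOn_residueAut hφ.mem_decompositionSubgroup
  set S := HeckeCompat.badSet (M * t) p W
  -- no eigen class on the components
  have hno : ∀ C : JZeroC k M, p • C = 0 →
      (∀ (ℓ : ℕ) [NeZero ℓ] [Fact ℓ.Prime], ¬ ℓ ∣ M * t → ℓ ∉ S →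
        HeckeCompat.heckeC k M ℓ C = W.apOfModel ℓ • C) → C = 0 := fun C hC hE => by
    by_contra hC0
    refine hnot (HeckeCompat.residuallyModular_of_eigen_modL InsM hΔ hres.surj
      (natCast_ne_zero_of_not_dvd M t htM) (Red.reductionInputsModL A htM hA) (q := t) (S := S)
      hC0 hC fun ℓ _ _ hℓM hℓt hℓS => ?_)
    exact hE ℓ (fun h => ((Fact.out : ℓ.Prime).dvd_mul.mp h).elim hℓM fun h' =>
      hℓt ((Nat.prime_dvd_prime_iff_eq Fact.out ht).mp h')) hℓS
  -- slope zero classes in the image are toric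
  have h00 : ∀ z, T.InT0 p (ι z) → T.InT00 p (ι z) := fun z hz => by
    refine TwoRed.inT00_of_redClass_eq_zero hp'.pos ⟨ι z, hz⟩ fun i => hno _ ?_ ?_
    · rw [← map_nsmul, show p • (⟨ι z, hz⟩ : T.T0 p) = 0 from Subtype.ext (htor z), _root_.map_zero]
    intro ℓ _ _ hℓN hℓS
    obtain ⟨h, he⟩ := hecke_mem_T0_redClass (T := T) (ℓ := ℓ)
      (fun i => normCompat_redC M t htM hres hℓN i) hp'.pos ⟨ι z, hz⟩
    have e : heckeOperatorAlong Qbar (M * t) ℓ (ι z) = W.apOfModel ℓ • ι z := by
      refine Eq.trans (Eq.symm ?_) (heig ⟨ℓ, Fact.out⟩ hℓS z)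
      exact heckeOperatorBar_apply ..
    rw [← he i, show (⟨_, h⟩ : T.T0 p) = W.apOfModel ℓ • ⟨ι z, hz⟩ from Subtype.ext e, map_zsmul]
  -- `φ ^ 2 = t ^ 2` on the image of `φ ^ 2 - 1`
  have hkey : ∀ x, φ • φ • (φ • φ • x - x) = t ^ 2 • (φ • φ • x - x) := fun x => hι (by
    rw [hequiv, hequiv, map_nsmul]
    refine frobSq_of_inT00 M t htM hres hgen hfK hp'.pos hpk (h00 _ ?_)
    rw [map_sub, hequiv, hequiv]
    exact frobSq_sub_mem M t htM hres hgen hfK (htor x))
  refine ha ?_
  have htp0 : (t : ZMod p) ≠ 0 := by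
    rw [Ne, ZMod.natCast_eq_zero_iff]
    exact fun h => htp ((Nat.prime_dvd_prime_iff_eq hp' ht).mp h).symm
  refine sq_trace_eq_of_sq_toric (EC.finrank_torsionBy (K := Qbar) (W.map (Int.castRingHom ℚ)) p
    (Nat.cast_ne_zero.2 hp'.ne_zero)) (galoisRepModuleEnd (K := Qbar) ℚ
      (W.map (Int.castRingHom ℚ)).toAffine p φ) ?_
    (EC.det_frobenius p t (W.map (Int.castRingHom ℚ)) ht htp hA hφ) htp0 fun x => ?_
  · exact EC.galoisTrace_frobenius W p t ht htp hgood hA hφ
  · rw [← Nat.cast_pow, Nat.cast_smul_eq_nsmul]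
    exact hkey x

end Fermat.Agent.LevelLowering.Semistable
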