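import Fermat.Agent.LevelLowering.MazurPrinciple.Mazur
import Fermat.Agent.LevelLowering.Semistable.AuxPrimeSemistable
import Fermat.Agent.LevelLowering.Semistable.Mon
import Fermat.Agent.LevelLowering.Semistable.Raise
import Fermat.Agent.LevelLowering.Semistable.RemoveAux
import Fermat.Agent.LoweringAtP.HeckeCompat.Modular
import Fermat.Agent.LoweringAtP.Three.Main

/-!
# Minimal levels of the `p`-torsion of a semistable curve

At a level of `E[p]` which is minimal for divisibility, with an auxiliary prime added, every prime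
`r ≠ p` where `E[p]` is unramified has a toric local structure, hence is a scalar prime
(`r ≡ 1 (mod p)` and Frobenius `± 1`), and at `p` the representation is très ramifié.
-/

noncomputable section

open ModularCurve WeierstrassCurve WeierstrassCurve.Affine.Point
open scoped WeierstrassCurve.Affine

namespace Fermat.Agent.LevelLowering.Semistable

open Attach Fermat.Agent.LoweringAtP

local notation "Qbar" => AlgebraicClosure ℚ
local notation "GQ" => (AlgebraicClosure ℚ ≃ₐ[ℚ] AlgebraicClosure ℚ)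

/-- Inertia at `r` fixes the `p`-torsion. -/
def TorsionUnramifiedAt (W : WeierstrassCurve ℤ) (p r : ℕ) : Prop :=
  ∀ A : ValuationSubring Qbar, A.LiesOverPrime r → ∀ τ ∈ A.inertiaSubgroupIn ℚ,
    ∀ x : Submodule.torsionBy ℤ ((W.map (Int.castRingHom ℚ))⁄Qbar).Point (p : ℤ), τ • x = x

/-- A squarefree level of `E[p]`, minimal for divisibility. -/
structure MinLevel (p : ℕ) (W : WeierstrassCurve ℤ) (M : ℕ) : Prop where
  sqf : Squarefree M
  modular : W.IsResiduallyModularOfLevel p M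
  minimal : ∀ r : ℕ, r.Prime → r ∣ M → ¬ W.IsResiduallyModularOfLevel p (M / r)

/-- An auxiliary prime for the level `M`. -/
structure AuxPrimeFor (p : ℕ) (W : WeierstrassCurve ℤ) (M t : ℕ) : Prop where
  prime : t.Prime
  not_dvd : ¬ t ∣ M
  ne_p : t ≠ p
  good : W.IsGoodPrimeFor t
  mod_twelve : t % 12 = 11
  trace : (W.apOfModel t : ZMod p) ^ 2 ≠ ((t : ZMod p) + 1) ^ 2

variable {p : ℕ} [hp : Fact p.Prime] {W : WeierstrassCurve ℤ}

omit hp in
theorem MinLevel.ne_zero {M : ℕ} (h : MinLevel p W M) : M ≠ 0 := h.sqf.ne_zero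

omit hp in
/-- A minimal level below a squarefree one. -/
theorem exists_minLevel {M : ℕ} (hM : Squarefree M) (hmod : W.IsResiduallyModularOfLevel p M) :
    ∃ M₀, M₀ ∣ M ∧ MinLevel p W M₀ := by
  classical
  have hex : ∃ d, d ∣ M ∧ W.IsResiduallyModularOfLevel p d := ⟨M, dvd_rfl, hmod⟩
  refine ⟨Nat.find hex, (Nat.find_spec hex).1,
    hM.squarefree_of_dvd (Nat.find_spec hex).1, (Nat.find_spec hex).2, fun r hr hrd h => ?_⟩
  exact Nat.find_min hex (Nat.div_lt_self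
      (Nat.pos_of_ne_zero (ne_zero_of_dvd_ne_zero hM.ne_zero (Nat.find_spec hex).1)) hr.one_lt)
    ⟨(Nat.div_dvd_of_dvd hrd).trans (Nat.find_spec hex).1, h⟩

/-- Auxiliary primes exist outside any finite set. -/
theorem exists_auxPrimeFor (hp2 : p ≠ 2) (hΔ : W.Δ ≠ 0) (hss : W.IsSemistableModel)
    (hirr : W.ModRepIsIrreducible p) {M : ℕ} (hM : M ≠ 0) (T : Finset ℕ) :
    ∃ t, t ∉ T ∧ AuxPrimeFor p W M t := by
  classical
  obtain ⟨t, ht, htS, htp, hgood, h12, ha⟩ :=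
    exists_aux_prime_semistable hp2 hΔ hss hirr (T ∪ M.primeFactors)
  rw [Finset.mem_union, not_or] at htS
  exact ⟨t, htS.1, ht, fun h => htS.2 (Nat.mem_primeFactors.2 ⟨ht, h, hM⟩), htp, hgood, h12, ha⟩

/-- **At `p`**: a minimal level divisible by `p` belongs to a très ramifié representation. -/
theorem MinLevel.not_peuRamifiee {M : ℕ} (h : MinLevel p W M) (hp2 : p ≠ 2) (hΔ : W.Δ ≠ 0)
    (hss : W.IsSemistableModel) (hirr : W.ModRepIsIrreducible p) (hpM : p ∣ M) :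
    ¬ (W.map (Int.castRingHom ℚ)).IsPeuRamifieeAt p p := fun hfin =>
  h.minimal p hp.out hpM (LoweringAtP.Three.lowering_at_odd hp2 hΔ (hss p hp.out) hfin hirr
    (Nat.pos_of_ne_zero h.ne_zero) hpM
    (fun hd => hp.out.ne_one (Nat.isUnit_iff.1 (h.sqf p (by rwa [← sq])))) h.modular)

/-- A prime of a squarefree minimal level cannot be dropped after adding the auxiliary prime. -/
theorem MinLevel.not_modular_mul_auxPrime {M t : ℕ} (h : MinLevel p W M) (ha : AuxPrimeFor p W M t)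
    (hp2 : p ≠ 2) (hΔ : W.Δ ≠ 0) (hirr : W.ModRepIsIrreducible p) {r : ℕ} (hr : r.Prime)
    (hrM : r ∣ M) : ¬ W.IsResiduallyModularOfLevel p (M / r * t) := fun hmod => by
  have : NeZero (M / r) := ⟨(Nat.div_pos (Nat.le_of_dvd (Nat.pos_of_ne_zero h.ne_zero) hrM)
    hr.pos).ne'⟩
  exact h.minimal r hr hrM (removeAux_mul hp2 hΔ hirr ha.prime ha.ne_p
    (fun hd => ha.not_dvd (hd.trans (Nat.div_dvd_of_dvd hrM))) ha.good ha.trace hmod)

/-- The local toric structure at `r` of a level equal to `M' r` without elliptic points. -/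
theorem localToric_of_noEll_eq {N M' r : ℕ} (hN : N = M' * r) [NeZero N] (hr : r.Prime)
    (hp2 : p ≠ 2) (hrM : ¬ r ∣ M') (hrp : r ≠ p) (hell : Model.NoEll M')
    (Ins : JacobianInputs N p) (hΔ : W.Δ ≠ 0)
    (hirr : W.ModRepIsIrreducible p) (hnot : ¬ W.IsResiduallyModularOfLevel p M')
    {S : Finset ℕ} (hNS : ∀ q, q.Prime → q ∣ N → q ∈ (↑S : Set ℕ))
    (θ : CuspForm.heckeAlgebra N 2 (↑S : Set ℕ) →+* ZMod p)
    (hθ : ∀ (ℓ : ℕ) (hℓ : ℓ.Prime) (hℓN : ¬ ℓ ∣ N) (hℓS : ℓ ∉ (↑S : Set ℕ)),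
      θ (CuspForm.heckeAlgebra.T hℓ hℓN hℓS) = (W.apOfModel ℓ : ZMod p))
    {A : ValuationSubring Qbar} (hA : A.LiesOverPrime r) {φ σ : GQ} (hφ : A.IsFrobeniusAt φ r)
    (hσ : MazurPrinciple.IsTameGenerator p A σ) :
    Nonempty (MazurPrinciple.LocalToric Ins.model hNS θ r φ σ) := by
  subst hN
  have : NeZero M' := ⟨left_ne_zero_of_mul (NeZero.ne (M' * r))⟩
  have : Fact r.Prime := ⟨hr⟩
  exact localToric_of_noEll hp2 hrM hrp hell Ins hΔ hirr hnot hNS θ hθ hA hφ hσ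

/-- **The toric structure at every prime `r ≠ p` of a minimal level.** -/
theorem MinLevel.localToric {M t : ℕ} (h : MinLevel p W M) (ha : AuxPrimeFor p W M t)
    [NeZero (M * t)] (hp2 : p ≠ 2) (hΔ : W.Δ ≠ 0) (hirr : W.ModRepIsIrreducible p)
    (Ins : JacobianInputs (M * t) p) {r : ℕ} (hr : r.Prime) (hrM : r ∣ M) (hrp : r ≠ p)
    {S : Finset ℕ} (hNS : ∀ q, q.Prime → q ∣ M * t → q ∈ (↑S : Set ℕ))
    (θ : CuspForm.heckeAlgebra (M * t) 2 (↑S : Set ℕ) →+* ZMod p)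
    (hθ : ∀ (ℓ : ℕ) (hℓ : ℓ.Prime) (hℓN : ¬ ℓ ∣ M * t) (hℓS : ℓ ∉ (↑S : Set ℕ)),
      θ (CuspForm.heckeAlgebra.T hℓ hℓN hℓS) = (W.apOfModel ℓ : ZMod p))
    {A : ValuationSubring Qbar} (hA : A.LiesOverPrime r) {φ σ : GQ} (hφ : A.IsFrobeniusAt φ r)
    (hσ : MazurPrinciple.IsTameGenerator p A σ) :
    Nonempty (MazurPrinciple.LocalToric Ins.model hNS θ r φ σ) := by
  obtain ⟨L, rfl⟩ := hrM
  have hnot := h.not_modular_mul_auxPrime ha hp2 hΔ hirr hr (dvd_mul_right r L)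
  rw [Nat.mul_div_cancel_left L hr.pos] at hnot
  have : NeZero t := ⟨ha.prime.ne_zero⟩
  refine localToric_of_noEll_eq (by rw [mul_assoc, mul_comm r]) hr hp2 (fun hd => ?_) hrp
    ((Model.noEll_of_prime ha.prime ha.mod_twelve).of_dvd (dvd_mul_left t L)) Ins hΔ hirr hnot hNS
    θ hθ hA hφ hσ
  rcases hr.dvd_mul.mp hd with h' | h'
  · exact hr.ne_one (Nat.isUnit_iff.1 (h.sqf r (Nat.mul_dvd_mul_left r h')))
  · exact ha.not_dvd ((Nat.prime_dvd_prime_iff_eq hr ha.prime).mp h' ▸ dvd_mul_right r L)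

/-- **Mazur's principle**: an unramified prime `r ≠ p` of a minimal level is a scalar prime. -/
theorem MinLevel.scalar {M t : ℕ} (h : MinLevel p W M) (ha : AuxPrimeFor p W M t)
    (hp2 : p ≠ 2) (hΔ : W.Δ ≠ 0) (hirr : W.ModRepIsIrreducible p)
    {r : ℕ} (hr : r.Prime) (hrM : r ∣ M) (hrp : r ≠ p) (hunr : TorsionUnramifiedAt W p r) :
    (r : ZMod p) = 1 ∧ ∀ A : ValuationSubring Qbar, A.LiesOverPrime r → ∀ φ : GQ,
      A.IsFrobeniusAt φ r → ∃ c : ZMod p, (c = 1 ∨ c = -1) ∧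
        ∀ x, galoisRepModuleEnd (K := Qbar) ℚ (W.map (Int.castRingHom ℚ)) p φ x = c • x := by
  have := Frey.isElliptic_mapRat hΔ
  have : NeZero M := ⟨h.ne_zero⟩
  have : NeZero t := ⟨ha.prime.ne_zero⟩
  have hmod : W.IsResiduallyModularOfLevel p (M * t) := raise_mul t h.modular
  obtain ⟨Ins⟩ := nonempty_jacobianInputs (M * t) p
  obtain ⟨ι, hι, hequiv, htor, heig⟩ :=
    HeckeCompat.exists_galois_map_of_residuallyModular hp2 hΔ Ins hirr hmod
  set S := HeckeCompat.badSet (M * t) p W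
  have hNS : ∀ q, q.Prime → q ∣ M * t → q ∈ (↑S : Set ℕ) := fun q hq hd =>
    HeckeCompat.mem_badSet_of_dvd hq hd
  obtain ⟨f, 𝔪, hf, h𝔪, hp𝔪, hcong⟩ := hmod
  obtain ⟨θ, hθ⟩ := HeckeCompat.exists_theta_of_congr hf hNS Ins.model h𝔪 hp𝔪 W.apOfModel
    fun ℓ hℓ _ hℓS => by
      obtain ⟨h1, h2, h3⟩ := HeckeCompat.good_of_not_mem_badSet hΔ hℓ fun h =>
        hℓS (Finset.mem_coe.2 h)
      exact hcong ℓ hℓ h1 h2 h3
  have hall : ∀ A : ValuationSubring Qbar, A.LiesOverPrime r → ∀ φ : GQ,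
      A.IsFrobeniusAt φ r → (r : ZMod p) = 1 ∧ ∃ c : ZMod p, (c = 1 ∨ c = -1) ∧
        ∀ x, galoisRepModuleEnd (K := Qbar) ℚ (W.map (Int.castRingHom ℚ)) p φ x = c • x := by
    intro A hA φ hφ
    obtain ⟨σ, hσ⟩ := MazurPrinciple.exists_isTameGenerator hr hp.out hrp.symm hA
    obtain ⟨I⟩ := h.localToric ha hp2 hΔ hirr Ins hr hrM hrp hNS θ hθ hA hφ hσ
    exact MazurPrinciple.scalar_of_localToric_curve hp2 (W.map (Int.castRingHom ℚ)) Ins.model hNS θ
      W.apOfModel hθ hirr hι hequiv htor heig hr hrp hA hφ (fun x => hunr A hA σ hσ.1 x) I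
  refine ⟨?_, fun A hA φ hφ => (hall A hA φ hφ).2⟩
  obtain ⟨A, hA⟩ := Gal.exists_liesOverPrime hr
  obtain ⟨φ, hφ⟩ := Gal.exists_isFrobeniusAt hr hA
  exact (hall A hA φ hφ).1

/-- What is left of lowering: a minimal level has no scalar prime. -/
def NoScalarMinimal (p : ℕ) (W : WeierstrassCurve ℤ) : Prop :=
  ∀ M t q : ℕ, MinLevel p W M → AuxPrimeFor p W M t → q.Prime → q ∣ M → q ≠ p →
    TorsionUnramifiedAt W p q → False

/-- **Lowering at an unramified prime `q ≠ p`**, from the absence of scalar primes. -/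
theorem lowering_of_noScalarMinimal (hp2 : p ≠ 2) (hΔ : W.Δ ≠ 0) (hss : W.IsSemistableModel)
    (hirr : W.ModRepIsIrreducible p) (hNo : NoScalarMinimal p W) {M q : ℕ} (hq : q.Prime)
    (hqp : q ≠ p) (hqM : q ∣ M) (hM : Squarefree M) (hunr : TorsionUnramifiedAt W p q)
    (hres : W.IsResiduallyModularOfLevel p M) : W.IsResiduallyModularOfLevel p (M / q) := by
  obtain ⟨M₀, hd, h₀⟩ := exists_minLevel hM hres
  by_cases hq₀ : q ∣ M₀
  · obtain ⟨t, -, ha⟩ := exists_auxPrimeFor hp2 hΔ hss hirr h₀.ne_zero ∅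
    exact (hNo M₀ t q h₀ ha hq hq₀ hqp hunr).elim
  refine raise_of_dvd ?_ (Nat.div_pos (Nat.le_of_dvd (Nat.pos_of_ne_zero hM.ne_zero) hqM) hq.pos)
    h₀.modular
  obtain ⟨L, rfl⟩ := hqM
  rw [Nat.mul_div_cancel_left L hq.pos]
  exact ((Nat.Prime.coprime_iff_not_dvd hq).2 hq₀).symm.dvd_of_dvd_mul_left hd

end Fermat.Agent.LevelLowering.Semistable
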