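import Fermat.Agent.EC.DetCyclotomic
import Fermat.Agent.LevelLowering.Scalar.PointsGlue
import Fermat.Agent.LevelLowering.Scalar.TWPrimes
import Fermat.Agent.LevelLowering.Semistable.Minimal
import Fermat.Agent.LevelLowering.Semistable.Patch
import Fermat.Agent.Raising.Coeff.Curve
import Fermat.Agent.Raising.StrictPoints
import Fermat.Agent.TW.Euler.Main
import Fermat.Agent.TW.Flat.LocalBound
import Fermat.Agent.TW.Flat.Main

/-!
# The residual setting of lowering at a scalar prime

For a semistable model over a coefficient ring in whose residue field the characteristic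
polynomials split: the scalar primes of a minimal level, the residual data and a local condition
at `p` (flat away from the level, strictly ordinary otherwise) of dimension at most `h⁰ + 1`.
-/

noncomputable section

namespace Fermat.Agent.LevelLowering.Semistable

open Module IsLocalRing Matrix WeierstrassCurve WeierstrassCurve.Affine.Point
open Fermat.Agent.Gal Fermat.Agent.PT Fermat.Agent.PT.Lv Fermat.Agent.TW
  Fermat.Agent.LevelLowering.Scalar
open Fermat.Agent.Raising
open scoped WeierstrassCurve.Affine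

local notation "Qbarˣ" => (AlgebraicClosure ℚ)ˣ
local notation "Qbar" => AlgebraicClosure ℚ
local notation "GQ" => (AlgebraicClosure ℚ ≃ₐ[ℚ] AlgebraicClosure ℚ)

variable {p : ℕ} [hp : Fact p.Prime] (C : Coeff.CoeffRing p)

/-- Base change of a scalar endomorphism. -/
theorem baseChange_smul_one {R : Type} (A : Type) [CommRing R] [CommRing A] [Algebra R A]
    (V : Type) [AddCommGroup V] [Module R V] (c : R) :
    (c • (1 : Module.End R V)).baseChange A = algebraMap R A c • 1 := by
  rw [LinearMap.baseChange_smul, LinearMap.baseChange_one, algebraMap_smul]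

section Curve

variable (E : WeierstrassCurve ℚ) [E.IsElliptic]

/-- A basis of the torsion over the residue field. -/
def coeffBasis : Basis (Fin 2) (ResidueField C.O) (Coeff.curveRbar C E).V :=
  basisTwo (Coeff.curveRbar C E).finrank_eq

theorem rbar_coeffBasis_eq_smul {g : GQ} {c : ZMod p}
    (h : ∀ x : Submodule.torsionBy ℤ (E⁄Qbar).Point (p : ℤ),
      galoisRepModuleEnd (K := Qbar) ℚ E p g x = c • x) :
    rbar (coeffBasis C E) g = algebraMap (ZMod p) (ResidueField C.O) c • 1 := by
  have h1 : (EC.residualRep E p).ρ g = c • 1 := LinearMap.ext fun x => h x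
  have h2 : (Coeff.curveRbar C E).ρ g = algebraMap (ZMod p) (ResidueField C.O) c • 1 :=
    (congrArg (LinearMap.baseChange (ResidueField C.O)) h1).trans
      (baseChange_smul_one (ResidueField C.O) (EC.residualRep E p).V c)
  show LinearMap.toMatrixAlgEquiv (coeffBasis C E) ((Coeff.curveRbar C E).ρ g) = _
  rw [h2, map_smul, map_one]

/-- Inertia fixing the torsion acts trivially over the residue field, and conversely. -/
theorem curveRbar_ρ_eq_one_iff (g : GQ) :
    (Coeff.curveRbar C E).ρ g = 1 ↔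
      ∀ x : Submodule.torsionBy ℤ (E⁄Qbar).Point (p : ℤ), g • x = x := by
  have h0 : ∀ x, galoisRepModuleEnd (K := Qbar) ℚ E p g x = g • x := fun x =>
    galoisRepModuleEnd_apply _ _ _ x
  constructor
  · intro h x
    let b := basisTwo (EC.residualRep E p).finrank_eq
    let bc : Basis (Fin 2) (ResidueField C.O) (Coeff.curveRbar C E).V :=
      Algebra.TensorProduct.basis (ResidueField C.O) b
    have h2 := LinearMap.toMatrix_baseChange (A := ResidueField C.O) ((EC.residualRep E p).ρ g) b b
    rw [show ((EC.residualRep E p).ρ g).baseChange (ResidueField C.O) = 1 from h,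
      LinearMap.toMatrix_one, ← Matrix.map_one (algebraMap (ZMod p) (ResidueField C.O))
        (map_zero _) (map_one _)] at h2
    have h3 : (EC.residualRep E p).ρ g = 1 := (LinearMap.toMatrix b b).injective (by
      rw [LinearMap.toMatrix_one]
      exact (Matrix.map_injective (algebraMap (ZMod p) (ResidueField C.O)).injective h2).symm)
    exact (h0 x).symm.trans (LinearMap.congr_fun h3 x)
  · intro h
    have h1 : (EC.residualRep E p).ρ g = 1 := LinearMap.ext fun x => (h0 x).trans (h x)
    show ((EC.residualRep E p).ρ g).baseChange (ResidueField C.O) = 1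
    rw [h1, LinearMap.baseChange_one]

end Curve

variable {W : WeierstrassCurve ℤ} [(W.map (Int.castRingHom ℚ)).IsElliptic]

local notation "Eℚ" => W.map (Int.castRingHom ℚ)

/-- The residual representation over the coefficient ring is unramified exactly where the torsion
of the curve is. -/
theorem curveRbar_unramified_iff (r : ℕ) :
    (Coeff.curveRbar C Eℚ).IsUnramifiedAt r ↔ TorsionUnramifiedAt W p r :=
  ⟨fun h A hA τ hτ => (curveRbar_ρ_eq_one_iff C Eℚ τ).mp (h A hA τ hτ),
    fun h A hA τ hτ => (curveRbar_ρ_eq_one_iff C Eℚ τ).mpr (h A hA τ hτ)⟩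

/-- The determinant is cyclotomic. -/
theorem detCyc_coeffBasis : DetCyc p (rbar (coeffBasis C Eℚ)) := by
  classical
  have : NeZero p := ⟨hp.out.ne_zero⟩
  intro g a ha
  have hn : Nat.card (rootsOfUnity p Qbar) = p :=
    HasEnoughRootsOfUnity.natCard_rootsOfUnity Qbar p
  have h1 : LinearMap.det ((EC.residualRep Eℚ p).ρ g) = (a : ZMod p) := by
    have h := congrArg Units.val (EC.galoisRepDetEqCyclotomic Eℚ p hn g)
    rw [Affine.Point.galoisRepDet_apply, LinearEquiv.coe_det] at h
    refine h.trans (modularCyclotomicCharacter.unique Qbar hn _ fun u hu => ?_).symm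
    have hu' : ((u : Qbarˣ) : Qbar) ^ p = 1 := by
      rw [← Units.val_pow_eq_pow_val, (mem_rootsOfUnity p u).1 hu, Units.val_one]
    show g ((u : Qbarˣ) : Qbar) = _
    rw [ha _ hu', ZMod.val_natCast]
    exact pow_eq_pow_mod a hu'
  rw [TW.det_matrixRep]
  refine (LinearMap.det_baseChange ((EC.residualRep Eℚ p).ρ g)).trans ?_
  rw [h1, map_natCast]

/-- **The scalar primes of a minimal level.** -/
theorem MinLevel.exists_scalarPrimes {M t : ℕ} (h : MinLevel p W M) (ha : AuxPrimeFor p W M t)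
    (hp2 : p ≠ 2) (hΔ : W.Δ ≠ 0) (hirr : W.ModRepIsIrreducible p) :
    ∃ (m : ℕ) (P : ScalarPrimes p (Coeff.curveRbar C Eℚ) (coeffBasis C Eℚ) m),
      Function.Injective P.r ∧
      ∀ r : ℕ, (∃ i, P.r i = r) ↔ r.Prime ∧ r ∣ M ∧ r ≠ p ∧ TorsionUnramifiedAt W p r := by
  classical
  let R : Finset ℕ := M.primeFactors.filter fun r => r ≠ p ∧ TorsionUnramifiedAt W p r
  let e := R.equivFin.symm
  let r : Fin R.card → ℕ := fun i => (e i : ℕ)
  have hr : ∀ i, (r i).Prime ∧ r i ∣ M ∧ r i ≠ p ∧ TorsionUnramifiedAt W p (r i) := fun i => by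
    obtain ⟨h1, h2⟩ := Finset.mem_filter.mp (e i).2
    exact ⟨Nat.prime_of_mem_primeFactors h1, Nat.dvd_of_mem_primeFactors h1, h2⟩
  choose h1 h2 using fun i => h.scalar ha hp2 hΔ hirr (hr i).1 (hr i).2.1 (hr i).2.2.1 (hr i).2.2.2
  choose A hA using fun i => Gal.exists_liesOverPrime (hr i).1
  choose φ hφ using fun i => Gal.exists_isFrobeniusAt (hr i).1 (hA i)
  choose σ hσ using fun i =>
    MazurPrinciple.exists_isTameGenerator (hr i).1 hp.out (hr i).2.2.1.symm (hA i)
  choose c hc hscal using fun i => h2 i (A i) (hA i) (φ i) (hφ i)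
  let ε : Fin R.card → C.O := fun i => if c i = 1 then 1 else -1
  refine ⟨R.card, {
    r := r
    A := A
    φ := φ
    σ := σ
    ε := ε
    prime := fun i => (hr i).1
    two := fun i he => ?_
    ne_p := fun i => (hr i).2.2.1
    one_mod := fun i => ?_
    lies := hA
    frob := hφ
    tame := hσ
    inertia := fun i τ hτ => ?_
    sign := fun i => by simp only [ε]; split_ifs <;> simp
    scalar := fun i => ?_ }, fun i j he => e.injective (Subtype.ext he), fun q => ?_⟩
  · have h0 := h1 i
    rw [he] at h0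
    have h' : (((1 : ℕ)) : ZMod p) = 0 := by linear_combination h0
    rw [ZMod.natCast_eq_zero_iff, Nat.dvd_one] at h'
    exact hp.out.ne_one h'
  · rw [← residue_eq_zero_iff, map_sub, map_one, map_natCast,
      ← map_natCast (algebraMap (ZMod p) (ResidueField C.O)), h1, map_one, sub_self]
  · rw [rbar_coeffBasis_eq_smul C Eℚ (c := 1) fun x => by
      rw [one_smul, galoisRepModuleEnd_apply]
      exact (hr i).2.2.2 (A i) (hA i) τ hτ x, map_one, one_smul]
  · rw [rbar_coeffBasis_eq_smul C Eℚ (hscal i)]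
    congr 1
    simp only [ε]
    rcases hc i with h' | h'
    · simp [h']
    · have hne : c i ≠ 1 := by
        rw [h']
        intro hm
        have h3 : (((2 : ℕ)) : ZMod p) = 0 := by push_cast; linear_combination -hm
        rw [ZMod.natCast_eq_zero_iff] at h3
        exact hp2 ((Nat.prime_dvd_prime_iff_eq hp.out Nat.prime_two).1 h3)
      rw [if_neg hne, h']; simp
  · constructor
    · rintro ⟨i, rfl⟩; exact hr i
    · rintro ⟨hq, hqM, hqp, hqu⟩
      exact ⟨e.symm ⟨q, Finset.mem_filter.mpr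
        ⟨Nat.mem_primeFactors.2 ⟨hq, hqM, h.ne_zero⟩, hqp, hqu⟩⟩,
        by simp only [r, Equiv.apply_symm_apply]⟩

/-- `2` is invertible in the coefficient ring. -/
theorem isUnit_two (hp2 : p ≠ 2) : IsUnit (2 : C.O) := by
  rw [← residue_ne_zero_iff_isUnit, map_ofNat, show (2 : ResidueField C.O) = ((2 : ℕ) : _) by
    norm_num, Ne, CharP.cast_eq_zero_iff (ResidueField C.O) p]
  exact fun hd => hp2 ((Nat.prime_dvd_prime_iff_eq hp.out Nat.prime_two).1 hd)

theorem natCast_mem : (p : C.O) ∈ maximalIdeal C.O := by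
  rw [C.maximalIdeal_eq]; exact Ideal.mem_span_singleton_self _

/-- The torsion is odd. -/
theorem exists_odd :
    ∃ g : GQ, g * g = 1 ∧ LinearMap.det ((Coeff.curveRbar C Eℚ).ρ g) = -1 := by
  refine ⟨complexConjugation, complexConjugation_mul_self, ?_⟩
  rw [← TW.det_matrixRep (coeffBasis C Eℚ), (detCyc_coeffBasis C) complexConjugation (p - 1)
    fun μ hμ => ?_]
  · rw [Nat.cast_sub hp.out.one_lt.le, CharP.cast_eq_zero, Nat.cast_one, zero_sub]
  · rw [complexConjugation_rootOfUnity hp.out.ne_zero hμ]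
    refine inv_eq_of_mul_eq_one_right ?_
    rw [← pow_succ', Nat.sub_add_cancel hp.out.one_lt.le, hμ]

/-- **The residual data.** -/
theorem lowerBase (hp2 : p ≠ 2) (hΔ : W.Δ ≠ 0) (hss : W.IsSemistableModel)
    (hirr : W.ModRepIsIrreducible p) (c₀ : ℕ → C.O) (S₀ : Finset ℕ) (hpS : p ∈ S₀)
    (hS : ∀ ℓ : ℕ, ℓ.Prime → (ℓ : ℤ) ∣ W.Δ → ℓ ∈ S₀)
    (hc : ∀ ℓ : ℕ, ℓ.Prime → ℓ ∉ S₀ → residue C.O (c₀ ℓ) = (W.apOfModel ℓ : ResidueField C.O)) :
    LowerBase p (Coeff.curveRbar C Eℚ) c₀ S₀ where
  two := isUnit_two C hp2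
  p_mem := natCast_mem C
  absIrr := (Coeff.curveRbar_facts C hΔ hp2 hss hirr).1
  odd := exists_odd C
  p_bad := hpS
  frob := fun ℓ hℓ hℓS A hA σ hσ => by
    rw [Coeff.charpoly_curveRbar_frobenius C hℓ (fun he => hℓS (he ▸ hpS))
      (fun hd => hℓS (hS ℓ hℓ hd)) hA hσ, hc ℓ hℓ hℓS, map_intCast]

/-- The condition on a representation at `p`: flat away from the level, strictly ordinary
otherwise. -/
def AtPCond (p M : ℕ) {T : Type} [CommRing T] [IsLocalRing T] (ρ : GaloisRepAdic T) : Prop :=
  (¬ p ∣ M ∧ ρ.IsFlatAt p) ∨ (p ∣ M ∧ ρ.IsStrictOrdinaryAt p)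

/-- **The local condition at `p`.** -/
theorem exists_localCondition (hp2 : p ≠ 2) (M : ℕ) :
    ∃ L : Submodule (ResidueField C.O) ((decQ ((pP p : Nat.Primes) : ℕ) → sl2 (ResidueField C.O)) ⧸
        B1 (resRep (adRep (rbar (coeffBasis C Eℚ))) (decQ ((pP p : Nat.Primes) : ℕ)))),
      FiniteDimensional (ResidueField C.O) L ∧
      finrank (ResidueField C.O) L ≤ finrank (ResidueField C.O) (Representation.invariants
        (resRep (adRep (rbar (coeffBasis C Eℚ))) (decQ ((pP p : Nat.Primes) : ℕ)))) + 1 ∧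
      ∀ {T : Type} [CommRing T] [IsLocalRing T] [IsNoetherianRing T] [Algebra C.O T]
        [IsLocalHom (algebraMap C.O T)]
        {hres : Function.Surjective (residue T ∘ algebraMap C.O T)} {ρ : GaloisRepAdic T}
        {b : Basis (Fin 2) T ρ.V} (hb : Adapted (coeffBasis C Eℚ) hres ρ b)
        (hdet : ρ.DetIsCyclotomic p), AtPCond p M ρ → ∀ δ : tangent hres,
          tanCocycle hb hdet δ ∈ condAt (adRep (rbar (coeffBasis C Eℚ))) L := by
  by_cases hpM : p ∣ M
  · obtain ⟨L, h1, h2, h3⟩ := TW.exists_ordLocal (p := p) (O := C.O)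
      (bbar := coeffBasis C Eℚ) hp2
    refine ⟨L, h1, h2, fun hb hdet hT δ => ?_⟩
    exact h3 hb hdet (hT.resolve_left fun h => h.1 hpM).2 δ
  · obtain ⟨L₀, hL₀, hL₀1⟩ := TW.finiteLevel_matrixRep (coeffBasis C Eℚ)
    obtain ⟨L, h1, h2, h3⟩ := Flat.flatLocalBound_of_local (O := C.O)
      (Flat.exists_flatLocal padicPlace_liesOverPrime hp2 ((detCyc_coeffBasis C))
        ⟨L₀.fixingSubgroup, fixingSubgroup_mem_krull L₀,
          fun s hs => hL₀1 s ((IntermediateField.mem_fixingSubgroup_iff _ _).1 hs)⟩)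
    refine ⟨L, h1, h2, fun hb hdet hT δ => ?_⟩
    exact tanCocycle_mem_condAt_of_flat hb hdet (hT.resolve_right fun h => hpM h.1).2 L h3 δ

/-- **Auxiliary primes** for the strict conditions. -/
theorem exists_twPrimes_gen (hp2 : p ≠ 2) (hΔ : W.Δ ≠ 0) (hss : W.IsSemistableModel)
    (hirr : W.ModRepIsIrreducible p) {m : ℕ}
    (P : ScalarPrimes p (Coeff.curveRbar C Eℚ) (coeffBasis C Eℚ) m)
    (hinj : Function.Injective P.r)
    (L : Submodule (ResidueField C.O) ((decQ ((pP p : Nat.Primes) : ℕ) → sl2 (ResidueField C.O)) ⧸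
      B1 (resRep (adRep (rbar (coeffBasis C Eℚ))) (decQ ((pP p : Nat.Primes) : ℕ)))))
    (hLfin : FiniteDimensional (ResidueField C.O) L)
    (hL : finrank (ResidueField C.O) L ≤ finrank (ResidueField C.O) (Representation.invariants
      (resRep (adRep (rbar (coeffBasis C Eℚ))) (decQ ((pP p : Nat.Primes) : ℕ)))) + 1)
    (S : Finset ℕ) :
    ∃ g D : ℕ, m * 3 + g ≤ D ∧ ∀ n : ℕ, ∃ qv : Fin D → ℕ, Function.Injective qv ∧
      (∀ i, (qv i).Prime ∧ qv i ∉ S ∧ p ^ (n + 1) ∣ qv i - 1) ∧
      (∀ i, ∀ A : ValuationSubring Qbar, A.LiesOverPrime (qv i) →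
        ∀ φ : GQ, A.IsFrobeniusAt φ (qv i) →
          ∃ α β : ResidueField C.O, α ≠ β ∧
            LinearMap.charpoly ((Coeff.curveRbar C Eℚ).ρ φ) =
              (Polynomial.X - Polynomial.C α) * (Polynomial.X - Polynomial.C β)) ∧
      FiniteDimensional (ResidueField C.O) (classes (adRep (rbar (coeffBasis C Eℚ)))
        (P.strictSpace (condAt (adRep (rbar (coeffBasis C Eℚ))) L) qv)) ∧
      finrank (ResidueField C.O) (classes (adRep (rbar (coeffBasis C Eℚ)))
        (P.strictSpace (condAt (adRep (rbar (coeffBasis C Eℚ))) L) qv)) ≤ g :=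
  exists_twPrimes_strict (TW.Euler.eulerFormula hp2) hp2
    (Coeff.curveRbar_facts C hΔ hp2 hss hirr).1 ((detCyc_coeffBasis C))
    (fun σ => Coeff.curveRbar_split C σ) (Coeff.curveRbar_facts C hΔ hp2 hss hirr).2 P hinj L
    hLfin hL S

end Fermat.Agent.LevelLowering.Semistable
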