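import Fermat.Agent.EC.GoodReduction
import Fermat.Agent.LevelLowering.Scalar.FreyLevel
import Fermat.Agent.LevelLowering.Semistable.Patch
import Fermat.Agent.LevelLowering.Semistable.Setting
import Fermat.Agent.Raising.AuxLevel

/-!
# No scalar prime at a minimal level, from the levels above it

`LevelSupply` is what the levels above a minimal level with an auxiliary prime provide: the level
itself in coordinates and one level for each choice of auxiliary primes, with their eigensystems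
and local behaviour.  With exactness of the monodromy at the level itself it excludes scalar
primes.
-/

noncomputable section

namespace Fermat.Agent.LevelLowering.Semistable

open Module IsLocalRing Matrix Polynomial WeierstrassCurve
open Fermat.Agent.Gal Fermat.Agent.PT Fermat.Agent.PT.Lv Fermat.Agent.TW
  Fermat.Agent.LevelLowering.Scalar
open Fermat.Agent.Raising Fermat.Agent.Raising.OrdPoints Fermat.Agent.Ihara
open scoped WeierstrassCurve.Affine

local notation "Qbar" => AlgebraicClosure ℚ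
local notation "GQ" => (AlgebraicClosure ℚ ≃ₐ[ℚ] AlgebraicClosure ℚ)

variable {p : ℕ} [hp : Fact p.Prime] (C : Coeff.CoeffRing p) (W : WeierstrassCurve ℤ)

/-- The eigenvalues of the curve in the coefficient ring. -/
def curveSys (ℓ : ℕ) : C.O := (W.apOfModel ℓ : C.O)

/-- The residual system of the curve. -/
def curveResSys (ℓ : Nat.Primes) : ResidueField C.O := residue C.O (curveSys C W ℓ)

/-- The bad set of the level `N`. -/
abbrev levelBad (p N : ℕ) (W : WeierstrassCurve ℤ) : Finset ℕ :=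
  LoweringAtP.HeckeCompat.badSet N p W

/-- The level `N` in coordinates with its eigensystems. -/
structure SupplyBase (N : ℕ) [NeZero N] : Type 1 where
  /-- The rank of the part at the residual system. -/
  d : ℕ
  d_pos : 0 < d
  /-- The matrix of each good operator. -/
  Tm : ℕ → Matrix (Fin d) (Fin d) C.O
  /-- The level as operators with their eigensystems. -/
  L₀ : OpLevel C.O (levelBad p N W) (curveSys C W) C.O d
  base_x : ∀ ℓ : ℕ, ℓ.Prime → ℓ ∉ levelBad p N W → L₀.Φ (L₀.x ℓ) = Tm ℓ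
  /-- A basis of the part at the residual system. -/
  v : Fin d → clH C.O N
  fix : ∀ i, (baseIdem C.O N (goodPrimes (levelBad p N W)) (curveResSys C W)).1 (v i) = v i
  basis : ∀ x, (baseIdem C.O N (goodPrimes (levelBad p N W)) (curveResSys C W)).1 x = x →
    ∃! b : Fin d → C.O, ∑ i, b i • v i = x
  Tm_spec : ∀ (ℓ : goodPrimes (levelBad p N W)) j,
    baseGen C.O N (goodPrimes (levelBad p N W)) ℓ (v j) = ∑ i, Tm (ℓ.1 : ℕ) i j • v i

variable (K : Type) [Field K] [IsAlgClosed K] [CharZero K] [Algebra C.O K]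

/-- A level above `M t` at one choice of auxiliary primes. -/
structure SupplyLevel (M t : ℕ) [NeZero (M * t)] (B : SupplyBase C W (M * t)) {D : ℕ}
    (qv lv : Fin D → ℕ) : Type 1 where
  /-- The finite set of primes left out at this level. -/
  S : Finset ℕ
  subset : levelBad p (M * t) W ⊆ S
  /-- The level as operators over the diamond coordinates, with their eigensystems. -/
  L : OpLevel C.O S (curveSys C W) (DiaCoords C.O p lv) B.d
  aug_x : ∀ ℓ : ℕ, ℓ.Prime → ℓ ∉ S →
    (L.Φ (L.x ℓ)).map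
      (Ideal.Quotient.lift _ MvPowerSeries.constantCoeff (diamondIdeal_aug p lv)) = B.Tm ℓ
  unramified : ∀ a, ∀ l : ℕ, l.Prime → l ≠ p → ¬ l ∣ M * t → (∀ i, qv i ≠ l) →
    (L.ρ a).IsUnramifiedAt l
  unipotent : ∀ a, ∀ l : ℕ, l.Prime → l ≠ p → l ∣ M * t → (L.ρ a).IsUnipotentOnInertiaAt l
  at_p : ∀ a, AtPCond p M (L.ρ a)
  /-- An eigencharacter at a character of the diamonds has the kernel of an eigensystem, unipotent
  at the auxiliary primes where the character is trivial, not at the one supporting it. -/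
  tw_point : ∀ (φ : DiaCoords C.O p lv →ₐ[C.O] K) (e : L.A →+* K),
    (∃ w : Fin B.d → K, w ≠ 0 ∧ ∀ z, ((L.Φ z).map φ).mulVec w = e z • w) →
    ∃ a : L.κ, (∀ z, e z = 0 ↔ L.ev a z = 0) ∧
      (∀ i, φ (diaX C.O p lv i) = 0 → (L.ρ a).IsUnipotentOnInertiaAt (qv i)) ∧
      ∀ i, (∀ i', i' ≠ i → φ (diaX C.O p lv i') = 0) →
        IsPrimitiveRoot (1 + φ (diaX C.O p lv i)) p → ¬ (L.ρ a).IsUnipotentOnInertiaAt (qv i)

/-- **What the levels provide** above a minimal level with an auxiliary prime. -/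
def LevelSupply [(W.map (Int.castRingHom ℚ)).IsElliptic] : Prop :=
  ∀ (M t : ℕ) [NeZero (M * t)], MinLevel p W M → AuxPrimeFor p W M t →
    ∃ B : SupplyBase C W (M * t), ∀ (D n : ℕ) (qv : Fin D → ℕ), Function.Injective qv →
      (∀ i, (qv i).Prime ∧ qv i ∉ levelBad p (M * t) W ∧ p ^ (n + 1) ∣ qv i - 1) →
      (∀ i, ∀ A : ValuationSubring Qbar, A.LiesOverPrime (qv i) →
        ∀ φ : GQ, A.IsFrobeniusAt φ (qv i) → ∃ α β : ResidueField C.O, α ≠ β ∧
          LinearMap.charpoly ((Coeff.curveRbar C (W.map (Int.castRingHom ℚ))).ρ φ) =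
            (Polynomial.X - Polynomial.C α) * (Polynomial.X - Polynomial.C β)) →
      ∃ lv : Fin D → ℕ, (∀ i, n < lv i ∧ p ^ lv i ∣ qv i - 1 ∧ ¬ p ^ (lv i + 1) ∣ qv i - 1) ∧
        Nonempty (SupplyLevel C W K M t B qv lv)

/-- Exactness of the monodromy at a tame generator in the coordinates of the level. -/
def BaseExact {N : ℕ} [NeZero N] (B : SupplyBase C W N) (σ : GQ) : Prop :=
  ∀ (T₀ : Type) [CommRing T₀] [IsLocalRing T₀] [IsNoetherianRing T₀] [Algebra C.O T₀]
    (A₀ : T₀ →ₐ[C.O] Matrix (Fin B.d) (Fin B.d) C.O) (M₀ : GQ →* Matrix (Fin 2) (Fin 2) T₀),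
    AdicCont M₀ →
    (∀ x, A₀ x ∈ Algebra.adjoin C.O (B.Tm '' {ℓ | ℓ.Prime ∧ ℓ ∉ levelBad p N W})) →
    (∃ g : Fin 4 → GQ, IsUnit (Matrix.of fun i j => Matrix.trace (M₀ (g i) * M₀ (g j))).det) →
    (∀ ℓ : ℕ, ℓ.Prime → ℓ ∉ levelBad p N W → ∀ A : ValuationSubring Qbar, A.LiesOverPrime ℓ →
      ∀ τ : GQ, A.IsFrobeniusAt τ ℓ → A₀ (M₀ τ).trace = B.Tm ℓ ∧ (M₀ τ).det = (ℓ : T₀)) →
    ∀ w, resBlock (A₀ : T₀ →+* Matrix (Fin B.d) (Fin B.d) C.O) (M₀ σ - 1) w = 0 →
      ∃ y, resBlock (A₀ : T₀ →+* Matrix (Fin B.d) (Fin B.d) C.O) (M₀ σ - 1) y = w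

/-- Exactness at every scalar prime of every minimal level. -/
def ScalarExact : Prop :=
  ∀ (M t : ℕ) [NeZero (M * t)], MinLevel p W M → AuxPrimeFor p W M t →
    ∀ (B : SupplyBase C W (M * t)) (r : ℕ), r.Prime → r ∣ M → r ≠ p → TorsionUnramifiedAt W p r →
      ∀ (A : ValuationSubring Qbar) (φ σ : GQ), A.LiesOverPrime r → A.IsFrobeniusAt φ r →
        MazurPrinciple.IsTameGenerator p A σ → BaseExact C W B σ

variable [(W.map (Int.castRingHom ℚ)).IsElliptic]

local notation "Eℚ" => W.map (Int.castRingHom ℚ)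

variable {C W K}

/-- A prime is neither `0` nor `1` in characteristic zero. -/
theorem natCast_prime_ne_zero_ne_one {F : Type} [CommRing F] [CharZero F] {t : ℕ} (ht : t.Prime) :
    (t : F) ≠ 0 ∧ (t : F) ≠ 1 :=
  ⟨by exact_mod_cast ht.ne_zero, by exact_mod_cast ht.ne_one⟩

/-- A point of a level is unramified at the auxiliary prime. -/
theorem isUnramifiedAt_auxPrime {M t : ℕ} (ha : AuxPrimeFor p W M t)
    {T : Type} [CommRing T] [IsLocalRing T] [Algebra C.O T]
    [IsLocalHom (algebraMap C.O T)] {hres : Function.Surjective (residue T ∘ algebraMap C.O T)}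
    {ρ : GaloisRepAdic T} {b : Basis (Fin 2) T ρ.V} (hb : Adapted (coeffBasis C Eℚ) hres ρ b)
    (hdet : ρ.DetIsCyclotomic p)
    {F : Type} [CommRing F] [IsDomain F] [IsLocalRing F] [IsNoetherianRing F] [CharZero F]
    (ψ : T →+* F) (hψ : IsLocalHom ψ) (ρa : GaloisRepAdic F)
    (he : (ρ.baseChangeAlong ψ hψ).IsEquiv ρa) (hu : ρa.IsUnipotentOnInertiaAt t) :
    ρa.IsUnramifiedAt t := by
  refine isUnramifiedAt_of_unipotent_of_trace ρa hp.out ha.prime ha.ne_p
    (detIsCyclotomic_congr (he.map fun e => e.symm) (detIsCyclotomic_baseChange hψ hdet))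
    (natCast_prime_ne_zero_ne_one ha.prime).1 (natCast_prime_ne_zero_ne_one ha.prime).2 hu
    fun A hA φ hφ heq => ha.trace ?_
  have htr : LinearMap.trace F ρa.V (ρa.ρ φ) = ψ (LinearMap.trace T ρ.V (ρ.ρ φ)) := by
    obtain ⟨e⟩ := he
    let : Algebra T F := ψ.toAlgebra
    have h1 : LinearMap.trace F ρa.V (ρa.ρ φ) =
        LinearMap.trace F (ρ.baseChangeAlong ψ hψ).V ((ρ.baseChangeAlong ψ hψ).ρ φ) := by
      rw [← LinearMap.trace_conj' ((ρ.baseChangeAlong ψ hψ).ρ φ) e.toLinearEquiv]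
      congr 1
      refine LinearMap.ext fun v => ?_
      obtain ⟨u, rfl⟩ := e.toLinearEquiv.surjective v
      rw [LinearEquiv.conj_apply_apply, LinearEquiv.symm_apply_apply, e.map_apply]
    rw [h1]
    exact LinearMap.trace_baseChange (ρ.ρ φ) F
  rw [htr] at heq
  set s := LinearMap.trace T ρ.V (ρ.ρ φ)
  have h0 : ψ (s ^ 2 - ((t : T) + 1) ^ 2) = 0 := by
    rw [map_sub, map_pow, map_pow, map_add, map_one, map_natCast, heq, sub_self]
  have hm : s ^ 2 - ((t : T) + 1) ^ 2 ∈ maximalIdeal T := by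
    by_contra hn
    exact not_isUnit_zero (h0 ▸ (IsLocalRing.notMem_maximalIdeal.mp hn).map ψ)
  have h1 : toRes hres s = (W.apOfModel t : ResidueField C.O) := by
    have hs : s = Matrix.trace (matrixRep b ρ.ρ φ) := (trace_matrixRep b ρ.ρ φ).symm
    rw [hs, AddMonoidHom.map_trace, hb φ]
    refine (trace_matrixRep (coeffBasis C Eℚ) (Coeff.curveRbar C Eℚ).ρ φ).trans ?_
    refine (LinearMap.trace_baseChange ((EC.residualRep Eℚ p).ρ φ) (ResidueField C.O)).trans ?_
    rw [← map_intCast (algebraMap (ZMod p) (ResidueField C.O))]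
    congr 1
    exact EC.galoisTrace_frobenius W p t ha.prime ha.ne_p ha.good hA hφ
  have h2 := (toRes_eq_zero_iff hres _).2 hm
  rw [map_sub, map_pow, map_pow, map_add, map_one, map_natCast, h1, sub_eq_zero,
    ← map_intCast (algebraMap (ZMod p) (ResidueField C.O)),
    ← map_natCast (algebraMap (ZMod p) (ResidueField C.O)) t,
    ← map_one (algebraMap (ZMod p) (ResidueField C.O)), ← map_add, ← map_pow, ← map_pow] at h2
  exact (algebraMap (ZMod p) (ResidueField C.O)).injective h2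

/-- **No scalar prime at a minimal level.** -/
theorem noScalarMinimal_of_supply (hp2 : p ≠ 2) (hΔ : W.Δ ≠ 0) (hss : W.IsSemistableModel)
    (hirr : W.ModRepIsIrreducible p) (hinjK : Function.Injective (algebraMap C.O K))
    (hsup : LevelSupply C W K) (hex : ScalarExact C W) : NoScalarMinimal p W := by
  classical
  intro M t q hmin ha hq hqM hqp hqu
  have : NeZero M := ⟨hmin.ne_zero⟩
  have : NeZero t := ⟨ha.prime.ne_zero⟩
  have : NeZero (M * t) := ⟨mul_ne_zero hmin.ne_zero ha.prime.ne_zero⟩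
  obtain ⟨m, P, hPinj, hPmem⟩ := hmin.exists_scalarPrimes C ha hp2 hΔ hirr
  obtain ⟨i₀, -⟩ := (hPmem q).mpr ⟨hq, hqM, hqp, hqu⟩
  obtain ⟨B, hlev⟩ := hsup M t hmin ha
  set S₀ := levelBad p (M * t) W
  have hbase : LowerBase p (Coeff.curveRbar C Eℚ) (curveSys C W) S₀ :=
    lowerBase C hp2 hΔ hss hirr _ S₀ (LoweringAtP.HeckeCompat.mem_badSet_self _ _ _)
      (fun ℓ hℓ hd => LoweringAtP.HeckeCompat.mem_badSet_of_bad hΔ hℓ hd)
      fun ℓ _ _ => map_intCast (residue C.O) _
  obtain ⟨L, hLfin, hLle, hLloc⟩ := exists_localCondition C (W := W) hp2 M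
  obtain ⟨g, D, hD, hqv⟩ :=
    exists_twPrimes_gen C hp2 hΔ hss hirr P hPinj L hLfin hLle S₀
  choose qv hinj hqq hroots hfin hle using hqv
  choose lv hlv Ls using fun n => hlev D n (qv n) (hinj n) (hqq n) (hroots n)
  have hgoodq : ∀ n i, W.IsGoodPrimeFor (qv n i) ∧ ¬ qv n i ∣ M * t ∧ qv n i ≠ p := fun n i =>
    LoweringAtP.HeckeCompat.good_of_not_mem_badSet hΔ (hqq n i).1 (hqq n i).2.1
  have hprimes : ∀ i, P.r i ∣ M := fun i => ((hPmem _).mp ⟨i, rfl⟩).2.1
  have hmkL : ∀ n, Nonempty (LowerLevel K P g D B.d (curveSys C W) B.Tm S₀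
      (condAt (adRep (rbar (coeffBasis C Eℚ))) L) (qv n) (lv n)) := by
    intro n
    obtain ⟨Lw⟩ := Ls n
    refine ⟨{
      S := Lw.S
      subset := Lw.subset
      L := Lw.L
      aug_x := Lw.aug_x
      qv_prime := fun i => (hqq n i).1
      qv_ne := fun i => (hgoodq n i).2.2
      lv_pos := fun i => Nat.one_le_of_lt (hlv n i).1
      lv_dvd := fun i => (hlv n i).2.1
      lv_max := fun i => (hlv n i).2.2
      qv_unramified := fun i => (curveRbar_unramified_iff C _).mpr
        (EC.galoisRepUnramifiedAt_of_good W p (qv n i) (hqq n i).1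
          (fun hd => (hgoodq n i).2.2 ((Nat.prime_dvd_prime_iff_eq (hqq n i).1 hp.out).mp hd))
          (hgoodq n i).1)
      qv_roots := hroots n
      scalar_unipotent := fun a i =>
        Lw.unipotent a (P.r i) (P.prime i) (P.ne_p i) ((hprimes i).mul_right t)
      outside := fun ℓ hℓ hℓn => ?_
      at_p := fun R b hb δ => ?_
      classes_fin := hfin n
      classes_le := hle n
      tw_point := Lw.tw_point }⟩
    · simp only [Finset.mem_insert, Finset.mem_union, Finset.mem_image, Finset.mem_univ, true_and,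
        not_or, not_exists] at hℓn
      obtain ⟨hℓp, hℓP, hℓq⟩ := hℓn
      by_cases hℓN : ℓ ∣ M * t
      · rcases hℓ.dvd_mul.mp hℓN with hℓM | hℓt
        · refine Or.inr ⟨fun a => Lw.unipotent a ℓ hℓ hℓp hℓN, fun hu => hℓP ?_⟩
          obtain ⟨i, hi⟩ :=
            (hPmem ℓ).mpr ⟨hℓ, hℓM, hℓp, (curveRbar_unramified_iff C ℓ).mp hu⟩
          exact Finset.mem_map.mpr ⟨(⟨P.r i, P.prime i⟩ : Nat.Primes),
            Finset.mem_image.mpr ⟨i, Finset.mem_univ _, rfl⟩, hi⟩
        · obtain rfl := (Nat.prime_dvd_prime_iff_eq hℓ ha.prime).mp hℓt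
          refine Or.inl fun a => ?_
          obtain ⟨R⟩ := nonempty_levelRing hbase Lw.subset B.d_pos Lw.L
          obtain ⟨b, hadb⟩ := exists_adapted (coeffBasis C Eℚ) R.residue_surjective R.ρ R.residual
          exact isUnramifiedAt_auxPrime ha hadb R.det (R.pt a).toRingHom (R.pt_local a) _
            (R.pt_equiv a)
            (Lw.unipotent a ℓ hℓ hℓp hℓN)
      · exact Or.inl fun a => Lw.unramified a ℓ hℓ hℓp hℓN hℓq
    · refine hLloc hb R.det ?_ δ
      have : Finite (ResidueField R.T) := Finite.of_surjective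
        (ResidueField.map (algebraMap C.O R.T)) fun y => by
          obtain ⟨c, rfl⟩ := R.residue_surjective y
          exact ⟨residue C.O c, rfl⟩
      by_cases hpM : p ∣ M
      · exact Or.inr ⟨hpM, isStrictOrdinaryAt_of_finite_points
          (ψ := fun a => (R.pt a).toRingHom) R.pt_injective R.pt_equiv hp2 R.det
          fun a => ((Lw.at_p a).resolve_left fun h => h.1 hpM).2⟩
      · exact Or.inl ⟨hpM, isFlatAt_of_points (hψ := R.pt_local) R.pt_injective
          fun a => isFlatAt_congr (R.pt_equiv a) ((Lw.at_p a).resolve_right fun h => hpM h.1).2⟩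
  refine false_of_opLevels (K := K) hbase hp2 hinjK P hD B.d_pos B.L₀ B.Tm B.base_x qv lv
    (fun k => ?_) (fun n => (hmkL n).some) i₀ ?_
  · filter_upwards [diamondIdeal_trunc (𝒪 := C.O) hp.out hbase.p_mem D k] with n hn
    exact hn (lv n) fun i => (hlv n i).1.le
  · intro T₀ _ _ _ _ A₀ M₀ h1 h2 h3 h4 w hw
    exact hex M t hmin ha B (P.r i₀) (P.prime i₀) (hprimes i₀) (P.ne_p i₀)
      ((hPmem _).mp ⟨i₀, rfl⟩).2.2.2 (P.A i₀) (P.φ i₀) (P.σ i₀) (P.lies i₀) (P.frob i₀)
      (P.tame i₀) T₀ A₀ M₀ h1 h2 h3 h4 w hw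

/-- **Lowering at an unramified prime `q ≠ p`**, from the levels and exactness. -/
theorem lowering_of_supply (hp2 : p ≠ 2) (hΔ : W.Δ ≠ 0) (hss : W.IsSemistableModel)
    (hirr : W.ModRepIsIrreducible p) (hinjK : Function.Injective (algebraMap C.O K))
    (hsup : LevelSupply C W K) (hex : ScalarExact C W) {M q : ℕ} (hq : q.Prime) (hqp : q ≠ p)
    (hqM : q ∣ M) (hM : Squarefree M) (hunr : TorsionUnramifiedAt W p q)
    (hres : W.IsResiduallyModularOfLevel p M) : W.IsResiduallyModularOfLevel p (M / q) :=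
  lowering_of_noScalarMinimal hp2 hΔ hss hirr
    (noScalarMinimal_of_supply hp2 hΔ hss hirr hinjK hsup hex) hq hqp hqM hM hunr hres

end Fermat.Agent.LevelLowering.Semistable
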