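import Fermat.Agent.LevelLowering.Scalar.TWChoice
import Fermat.Agent.LevelLowering.Semistable.Main
import Fermat.Agent.LevelLowering.TWPointsExist
import Fermat.Agent.LoweringAtP.HeckeCompat.Eisenstein

/-!
# Taylor–Wiles data above a level with an auxiliary prime

For a level `N₀` divisible by a prime `t ≡ 2 (mod 3)` and auxiliary primes where the torsion over
the coefficient field has split Frobenius with distinct roots: the level `N = N₀ ∏ q`, its
character onto `∏ ℤ/p^(lv i)` with exact exponents, the roots, and the hypotheses of freeness and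
of the existence of points, for every odd `p`.
-/

noncomputable section

namespace Fermat.Agent.LevelLowering.Semistable

open Module IsLocalRing Matrix WeierstrassCurve
open CongruenceSubgroup Fermat.Agent.Gal Fermat.Agent.Ihara Fermat.Agent.Grp Fermat.Agent.Raising
open Fermat.Agent.LevelLowering.Scalar
open scoped WeierstrassCurve.Affine MatrixGroups

local notation "Qbar" => AlgebraicClosure ℚ
local notation "GQ" => (AlgebraicClosure ℚ ≃ₐ[ℚ] AlgebraicClosure ℚ)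

variable {p : ℕ} [hp : Fact p.Prime] (C : Coeff.CoeffRing p) (W : WeierstrassCurve ℤ)
  [(W.map (Int.castRingHom ℚ)).IsElliptic]

/-- The auxiliary data above the level `N₀` at one choice of primes. -/
structure SemistableTWDatum (N₀ : ℕ) {D : ℕ} (qv : Fin D → ℕ) (n : ℕ) where
  inj : Function.Injective qv
  prime : ∀ i, (qv i).Prime
  not_bad : ∀ i, qv i ∉ levelBad p N₀ W
  /-- The exact exponents of `p` in `qv i - 1`. -/
  lv : Fin D → ℕ
  lt_lv : ∀ i, n < lv i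
  dvd_sub : ∀ i, p ^ lv i ∣ qv i - 1
  not_dvd_sub : ∀ i, ¬ p ^ (lv i + 1) ∣ qv i - 1
  /-- The auxiliary primes as a set of primes. -/
  Q : Finset Nat.Primes
  mem_Q : ∀ l : Nat.Primes, l ∈ Q ↔ ∃ i, qv i = l
  /-- The level `N₀` times the auxiliary primes. -/
  N : ℕ
  [neN : NeZero N]
  hN : N = N₀ * ∏ l ∈ Q, (l : ℕ)
  dvd_N : ∀ i, qv i ∣ N
  prime_dvd_N : ∀ l : ℕ, l.Prime → l ∣ N → l ∣ N₀ ∨ ∃ i, qv i = l
  ne_p : ∀ i, qv i ≠ p
  /-- The characters of `(ℤ/q)ˣ` to the cyclic groups of order `p ^ lv`. -/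
  π : ∀ i, (ZMod (qv i))ˣ →* Multiplicative (ZMod (p ^ lv i))
  /-- The character of the level onto the group of diamonds. -/
  Ψ : (ZMod N)ˣ →* DiaGroup p lv
  hΨ : Function.Surjective Ψ
  hneg : (-1 : SL(2, ℤ)) ∈ GammaPsi Ψ
  hker : ∀ x : Gamma0 N, |tr (x : SL(2, ℤ))| ≤ 2 → dChar Ψ x = 1
  isTW : IsTWLevel dvd_N π Ψ
  /-- A residual root of Frobenius at each auxiliary prime. -/
  α : Nat.Primes → ResidueField C.O
  /-- The other residual root, inverse and different from `α`. -/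
  β : Nat.Primes → ResidueField C.O
  subset_good : ↑Q ⊆ goodPrimes (levelBad p N₀ W)
  not_dvd : ∀ l ∈ Q, ¬ (l : ℕ) ∣ N₀
  q_one : ∀ l ∈ Q, ((l : ℕ) : ResidueField C.O) = 1
  mul_eq : ∀ l ∈ Q, α l * β l = 1
  ne : ∀ l ∈ Q, α l ≠ β l
  sys_bot : sysBot C.O Q α β (curveResSys C W) = curveResSys C W
  charpoly_qv : ∀ i, ∀ A : ValuationSubring Qbar, A.LiesOverPrime (qv i) →
    ∀ φ : GQ, A.IsFrobeniusAt φ (qv i) →
      LinearMap.charpoly ((Coeff.curveRbar C (W.map (Int.castRingHom ℚ))).ρ φ) =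
        (Polynomial.X - Polynomial.C (α ⟨qv i, prime i⟩)) *
          (Polynomial.X - Polynomial.C (β ⟨qv i, prime i⟩))
  /-- The bad primes of the level. -/
  S : Finset ℕ
  mem_S : ∀ l : ℕ, l ∈ S ↔ l ∈ levelBad p N₀ W ∨ ∃ i, qv i = l
  hNS : ∀ l : ℕ, l.Prime → l ∣ N → l ∈ S
  hbar : ∀ (ℓ : ℕ) (hℓ : ℓ.Prime), ℓ ∉ S → ∀ A : ValuationSubring Qbar, A.LiesOverPrime ℓ →
    ∀ σ : GQ, A.IsFrobeniusAt σ ℓ →
      LinearMap.charpoly ((Coeff.curveRbar C (W.map (Int.castRingHom ℚ))).ρ σ) =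
        Polynomial.X ^ 2 - Polynomial.C (sysTop C.O Q α (curveResSys C W) ⟨ℓ, hℓ⟩) *
          Polynomial.X + Polynomial.C (ℓ : ResidueField C.O)
  /-- A prime at which the residual system is not Eisenstein. -/
  ℓ₀ : Nat.Primes
  ℓ₀_mem : ℓ₀ ∈ goodPrimes (levelBad p N₀ W)
  ℓ₀_not_mem : (ℓ₀ : ℕ) ∉ S
  ℓ₀_N : ¬ (ℓ₀ : ℕ) ∣ N
  ℓ₀_sys : curveResSys C W ℓ₀ ≠ (ℓ₀ : ℕ) + 1

attribute [instance] SemistableTWDatum.neN

variable {C W}

namespace SemistableTWDatum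

variable {N₀ D n : ℕ} {qv : Fin D → ℕ} (T : SemistableTWDatum C W N₀ qv n)

/-- The residual system of the auxiliary level. -/
abbrev sys : Nat.Primes → ResidueField C.O := sysTop C.O T.Q T.α (curveResSys C W)

theorem p_mem : p ∈ T.S := (T.mem_S p).mpr (Or.inl (LoweringAtP.HeckeCompat.mem_badSet_self N₀ p W))

theorem lv_pos (i : Fin D) : 1 ≤ T.lv i := Nat.one_le_of_lt (T.lt_lv i)

theorem dvd_level : N₀ ∣ T.N := by rw [T.hN]; exact dvd_mul_right _ _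

theorem subset_S : levelBad p N₀ W ⊆ T.S := fun l hl => (T.mem_S l).mpr (Or.inl hl)

/-- A prime of `N₀` dividing it once divides the auxiliary level once. -/
theorem not_sq_dvd {l : ℕ} (hl : l.Prime) (hlN : l ∣ N₀) (hsq : ¬ l ^ 2 ∣ N₀) : ¬ l ^ 2 ∣ T.N := by
  intro h
  have hcop : (l ^ 2).Coprime (∏ x ∈ T.Q, (x : ℕ)) := by
    refine (Nat.Coprime.prod_right fun x hx => ?_).pow_left 2
    exact (Nat.coprime_primes hl x.2).mpr fun e => T.not_dvd x hx (e ▸ hlN)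
  rw [T.hN] at h
  exact hsq (hcop.dvd_of_dvd_mul_right h)

include T in
theorem qv_ne_of_dvd {l : ℕ} (hlN : l ∣ N₀) (i : Fin D) : qv i ≠ l := fun h =>
  T.not_dvd ⟨qv i, T.prime i⟩ ((T.mem_Q _).mpr ⟨i, rfl⟩) (h ▸ hlN)

end SemistableTWDatum

/-- **The auxiliary data of primes with split Frobenius.** -/
theorem exists_semistableTWDatum (hp2 : p ≠ 2) (hΔ : W.Δ ≠ 0) (hirr : W.ModRepIsIrreducible p)
    {N₀ : ℕ} [NeZero N₀] {t : ℕ} (ht : t.Prime) (htN : t ∣ N₀) (ht3 : t % 3 = 2)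
    (n : ℕ) {D : ℕ} (qv : Fin D → ℕ) (hinj : Function.Injective qv)
    (hq : ∀ i, (qv i).Prime ∧ qv i ∉ levelBad p N₀ W ∧ p ^ (n + 1) ∣ qv i - 1)
    (hsplit : ∀ i, ∀ A : ValuationSubring Qbar, A.LiesOverPrime (qv i) →
      ∀ φ : GQ, A.IsFrobeniusAt φ (qv i) → ∃ α β : ResidueField C.O, α ≠ β ∧
        LinearMap.charpoly ((Coeff.curveRbar C (W.map (Int.castRingHom ℚ))).ρ φ) =
          (Polynomial.X - Polynomial.C α) * (Polynomial.X - Polynomial.C β)) :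
    Nonempty (SemistableTWDatum C W N₀ qv n) := by
  classical
  have hpp : p.Prime := hp.out
  set S₀ := levelBad p N₀ W with hS₀
  have hchar : ∀ {ℓ : ℕ}, ∀ hℓ : ℓ.Prime, ℓ ∉ S₀ → ∀ {A : ValuationSubring Qbar},
      A.LiesOverPrime ℓ → ∀ {σ : GQ}, A.IsFrobeniusAt σ ℓ →
      LinearMap.charpoly ((Coeff.curveRbar C (W.map (Int.castRingHom ℚ))).ρ σ) =
        Polynomial.X ^ 2 - Polynomial.C (curveResSys C W ⟨ℓ, hℓ⟩) * Polynomial.X +
          Polynomial.C (ℓ : ResidueField C.O) := by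
    intro ℓ hℓ hℓS A hA σ hσ
    obtain ⟨h1, -, h3⟩ := LoweringAtP.HeckeCompat.good_of_not_mem_badSet hΔ hℓ hℓS
    exact Coeff.charpoly_curveRbar_frobenius C hℓ h3 h1 hA hσ
  have hbad : ∀ i, qv i ∉ S₀ := fun i => (hq i).2.1
  have hgood : ∀ i, W.IsGoodPrimeFor (qv i) ∧ ¬ qv i ∣ N₀ ∧ qv i ≠ p := fun i =>
    LoweringAtP.HeckeCompat.good_of_not_mem_badSet hΔ (hq i).1 (hbad i)
  obtain ⟨Q, N, _, lv, hdvdN, π, Ψ, hN, hQ, hprimeN, hlv, hv, hv', hΨ, hTW⟩ :=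
    exists_twLevel hp2 N₀ n hinj (fun i => (hq i).1) (fun i => (hgood i).2.1) fun i => (hq i).2.2
  have hker : ∀ x : Gamma0 N, |tr (x : SL(2, ℤ))| ≤ 2 → dChar Ψ x = 1 :=
    twPsi_abs_tr_le_aux hp2 (fun i => (hq i).1) hdvdN π Ψ hTW.comp ht
      (htN.trans ⟨_, hN⟩) ht3
  have hneg : (-1 : SL(2, ℤ)) ∈ GammaPsi Ψ := by
    refine (mem_GammaPsi Ψ ⟨-1, neg_one_mem_Gamma0 N⟩).mpr (hker _ ?_)
    show |Matrix.trace ((-1 : SL(2, ℤ)) : Matrix (Fin 2) (Fin 2) ℤ)| ≤ 2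
    simp
  have hone : ∀ i, ((qv i : ℕ) : ResidueField C.O) = 1 := fun i =>
    natCast_eq_one_of_dvd_sub (hq i).1 (hq i).2.2
  -- the roots
  obtain ⟨α, β, hmul, hne, hbot, hcharq⟩ := exists_rootSystems (O := C.O) hinj
    (fun i => (hq i).1) hQ (curveResSys C W)
    (fun i a b => ∀ A : ValuationSubring Qbar, A.LiesOverPrime (qv i) →
      ∀ φ : GQ, A.IsFrobeniusAt φ (qv i) →
        LinearMap.charpoly ((Coeff.curveRbar C (W.map (Int.castRingHom ℚ))).ρ φ) =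
          (Polynomial.X - Polynomial.C a) * (Polynomial.X - Polynomial.C b)) fun i => by
    obtain ⟨A, hA⟩ := Gal.exists_liesOverPrime (hq i).1
    obtain ⟨φ, hφ⟩ := Gal.exists_isFrobeniusAt (hq i).1 hA
    obtain ⟨a, b, hab, he⟩ := hsplit i A hA φ hφ
    rw [hchar (hq i).1 (hbad i) hA hφ] at he
    obtain ⟨h0, h1⟩ := mul_eq_one_and_add_eq_of_split (hone i) he
    exact ⟨a, b, hab, h0, h1, fun A' hA' φ' hφ' => (hchar (hq i).1 (hbad i) hA' hφ').trans he⟩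
  let S : Finset ℕ := S₀ ∪ Finset.univ.image qv
  have hS : ∀ l : ℕ, l ∈ S ↔ l ∈ S₀ ∨ ∃ i, qv i = l := fun l => by simp [S]
  obtain ⟨ℓ, hℓ, hℓS, -, hℓa⟩ := LoweringAtP.HeckeCompat.exists_prime_not_eisenstein hp2 hΔ hirr S
  exact ⟨{
    inj := hinj
    prime := fun i => (hq i).1
    not_bad := hbad
    lv := lv
    lt_lv := hlv
    dvd_sub := hv
    not_dvd_sub := hv'
    Q := Q
    mem_Q := hQ
    N := N
    hN := hN
    dvd_N := hdvdN
    prime_dvd_N := hprimeN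
    ne_p := fun i => (hgood i).2.2
    π := π
    Ψ := Ψ
    hΨ := hΨ
    hneg := hneg
    hker := hker
    isTW := hTW
    α := α
    β := β
    subset_good := fun l hl => by
      obtain ⟨i, hi⟩ := (hQ l).mp (Finset.mem_coe.mp hl)
      exact fun h => hbad i (hi ▸ h)
    not_dvd := fun l hl => by
      obtain ⟨i, hi⟩ := (hQ l).mp hl
      exact hi ▸ (hgood i).2.1
    q_one := fun l hl => by
      obtain ⟨i, hi⟩ := (hQ l).mp hl
      exact hi ▸ hone i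
    mul_eq := hmul
    ne := hne
    sys_bot := hbot
    charpoly_qv := hcharq
    S := S
    mem_S := hS
    hNS := fun l hl hlN =>
      (hS l).mpr ((hprimeN l hl hlN).imp (LoweringAtP.HeckeCompat.mem_badSet_of_dvd hl) id)
    hbar := fun l hl hlS A hA σ hσ => by
      have hlQ : (⟨l, hl⟩ : Nat.Primes) ∉ Q := fun hm => hlS ((hS l).mpr (Or.inr ((hQ _).mp hm)))
      rw [show ∀ α : Nat.Primes → ResidueField C.O,
          sysTop C.O Q α (curveResSys C W) ⟨l, hl⟩ = curveResSys C W ⟨l, hl⟩ from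
            fun _ => if_neg hlQ]
      exact hchar hl (fun hb => hlS ((hS l).mpr (Or.inl hb))) hA hσ
    ℓ₀ := ⟨ℓ, hℓ⟩
    ℓ₀_mem := fun h => hℓS ((hS ℓ).mpr (Or.inl h))
    ℓ₀_not_mem := hℓS
    ℓ₀_N := fun h =>
      hℓS ((hS ℓ).mpr ((hprimeN ℓ hℓ h).imp (LoweringAtP.HeckeCompat.mem_badSet_of_dvd hℓ) id))
    ℓ₀_sys := fun h => hℓa (by
      rw [← ZMod.intCast_zmod_eq_zero_iff_dvd]
      refine (algebraMap (ZMod p) (ResidueField C.O)).injective ?_
      rw [_root_.map_zero, map_intCast]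
      have h' : ((W.apOfModel ℓ : ℤ) : ResidueField C.O) = (ℓ : ResidueField C.O) + 1 :=
        (map_intCast (residue C.O) _).symm.trans h
      push_cast
      rw [h', sub_self])
}⟩

end Fermat.Agent.LevelLowering.Semistable
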