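import Fermat.Agent.LevelLowering.GroupRing
import Fermat.Agent.LevelLowering.Semistable.Datum
import Fermat.Agent.LevelLowering.TWEigenPoint

/-!
# The level of Taylor–Wiles coordinates with its eigensystems

`SemistableTWAct` is the action in coordinates of the Hecke algebra of an auxiliary level, with the
points detecting it; it gives an `OpLevel` and its local behaviour.
-/

noncomputable section

namespace Fermat.Agent.LevelLowering.Semistable

open Module IsLocalRing Matrix Polynomial WeierstrassCurve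
open CongruenceSubgroup Fermat.Agent.Gal Fermat.Agent.Grp Fermat.Agent.Ihara Fermat.Agent.Raising
open Fermat.Agent.LevelLowering.Scalar
open scoped WeierstrassCurve.Affine MatrixGroups

local notation "Qbar" => AlgebraicClosure ℚ
local notation "GQ" => (AlgebraicClosure ℚ ≃ₐ[ℚ] AlgebraicClosure ℚ)

variable {p : ℕ} [hp : Fact p.Prime] {C : Coeff.CoeffRing p} {W : WeierstrassCurve ℤ}
  [(W.map (Int.castRingHom ℚ)).IsElliptic] {N₀ D n : ℕ} {qv : Fin D → ℕ}

/-- The coordinates of the Hecke algebra at an auxiliary level, with their eigensystems. -/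
structure SemistableTWAct (T : SemistableTWDatum C W N₀ qv n) (d : ℕ)
    (Tm : ℕ → Matrix (Fin d) (Fin d) C.O) :
    Type 1 where
  /-- The index type of the eigensystems, which is finite. -/
  κ : Type
  [instFintype : Fintype κ]
  /-- The eigensystems, as points of the Taylor–Wiles level. -/
  pt : κ → TWPoint qv T.Ψ T.hΨ T.hneg T.S T.hNS T.sys
  /-- The action of the Hecke algebra in coordinates over the diamond ring. -/
  act : levelAlg C.O T.Ψ T.hΨ T.hneg (goodSet T.S) →ₐ[C.O]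
    Matrix (Fin d) (Fin d) (DiaCoords C.O p T.lv)
  act_dia : ∀ δ, act (levelElt C.O T.Ψ T.hΨ T.hneg (goodSet T.S) (.inr δ)) =
    Matrix.scalar (Fin d) (diaClass (O := C.O) δ)
  act_ker : ∀ y, (∀ j, (pt j).ev y = 0) ↔ act y = 0
  act_Tm : ∀ (ℓ : ℕ) (hℓ : ℓ.Prime) (hℓS : ℓ ∉ T.S),
    (act (twGood T.Ψ T.hΨ T.hneg T.S T.hNS ⟨ℓ, hℓ⟩ hℓS)).map
        (Ideal.Quotient.lift _ MvPowerSeries.constantCoeff (diamondIdeal_aug p T.lv)) = Tm ℓ

attribute [instance] SemistableTWAct.instFintype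

/-- The operators as a function of a natural number. -/
def SemistableTWDatum.opGood (T : SemistableTWDatum C W N₀ qv n) (ℓ : ℕ) :
    levelAlg C.O T.Ψ T.hΨ T.hneg (goodSet T.S) :=
  if h : ℓ.Prime ∧ ℓ ∉ T.S then twGood T.Ψ T.hΨ T.hneg T.S T.hNS ⟨ℓ, h.1⟩ h.2 else 0

theorem SemistableTWDatum.opGood_eq (T : SemistableTWDatum C W N₀ qv n) {ℓ : ℕ} (hℓ : ℓ.Prime)
    (hℓS : ℓ ∉ T.S) :
    T.opGood ℓ = twGood T.Ψ T.hΨ T.hneg T.S T.hNS ⟨ℓ, hℓ⟩ hℓS :=
  dif_pos ⟨hℓ, hℓS⟩

theorem SemistableTWDatum.sys_of_not_mem (T : SemistableTWDatum C W N₀ qv n) {ℓ : ℕ} (hℓ : ℓ.Prime)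
    (hℓS : ℓ ∉ T.S) : T.sys ⟨ℓ, hℓ⟩ = curveResSys C W ⟨ℓ, hℓ⟩ :=
  if_neg fun hm => hℓS ((T.mem_S ℓ).mpr (Or.inr ((T.mem_Q _).mp hm)))

namespace SemistableTWAct

variable {T : SemistableTWDatum C W N₀ qv n} {d : ℕ} {Tm : ℕ → Matrix (Fin d) (Fin d) C.O}
  (A : SemistableTWAct T d Tm)

/-- A point of the coordinates has the residual system of the curve. -/
theorem residual_pt (j : A.κ) {ℓ : ℕ} (hℓ : ℓ.Prime) (hℓS : ℓ ∉ T.S) :
    (A.pt j).ev (T.opGood ℓ) - algebraMap C.O (A.pt j).R (curveSys C W ℓ) ∈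
      maximalIdeal (A.pt j).R := by
  rw [← residue_eq_zero_iff, map_sub, sub_eq_zero, T.opGood_eq hℓ hℓS,
    residue_ev_twGood T.Ψ T.hΨ T.hneg T.S T.hNS T.sys (A.pt j).ev (A.pt j).ev_idem ⟨ℓ, hℓ⟩ hℓS,
    T.sys_of_not_mem hℓ hℓS]
  rfl

/-- The level of the coordinates. -/
def opLevel : OpLevel C.O T.S (curveSys C W) (DiaCoords C.O p T.lv) d where
  A := levelAlg C.O T.Ψ T.hΨ T.hneg (goodSet T.S)
  Φ := A.act
  x := T.opGood
  κ := A.κ
  F := fun j => (A.pt j).R
  ev := fun j => (A.pt j).ev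
  ker_iff := fun z => (A.act_ker z).symm
  residual := fun j ℓ hℓ hℓS => A.residual_pt j hℓ hℓS
  ρ := fun j => (A.pt j).H.ρ
  frob := fun j ℓ hℓ hℓS P hP σ hσ => by
    rw [T.opGood_eq hℓ hℓS]
    exact (A.pt j).charpoly_frob ℓ hℓ hℓS P hP σ hσ

/-- The operator of a good prime augments to its matrix at the minimal level. -/
theorem opLevel_aug {ℓ : ℕ} (hℓ : ℓ.Prime) (hℓS : ℓ ∉ T.S) :
    (A.opLevel.Φ (A.opLevel.x ℓ)).map
      (Ideal.Quotient.lift _ MvPowerSeries.constantCoeff (diamondIdeal_aug p T.lv)) = Tm ℓ := by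
  show (A.act (T.opGood ℓ)).map _ = _
  rw [T.opGood_eq hℓ hℓS]
  exact A.act_Tm ℓ hℓ hℓS

/-- A point is unramified outside the level and `p`. -/
theorem unramified (j : A.κ) {l : ℕ} (hl : l.Prime) (hlp : l ≠ p) (hlN : ¬ l ∣ N₀)
    (hlq : ∀ i, qv i ≠ l) : (A.pt j).H.ρ.IsUnramifiedAt l :=
  (A.pt j).unramified l hl (fun h => (T.prime_dvd_N l hl h).elim hlN fun ⟨i, hi⟩ => hlq i hi) hlp

/-- A point is unipotent at a prime dividing the base level once. -/
theorem unipotent (j : A.κ) {l : ℕ} (hl : l.Prime) (hlp : l ≠ p) (hlN : l ∣ N₀)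
    (hsq : ¬ l ^ 2 ∣ N₀) : (A.pt j).H.ρ.IsUnipotentOnInertiaAt l :=
  (A.pt j).unipotent T.p_mem (natCast_mem C) hl hlp (hlN.trans T.dvd_level)
    (T.not_sq_dvd hl hlN hsq) fun i hi => absurd hi (T.qv_ne_of_dvd hlN i)

/-- A point is flat at `p` prime to the base level. -/
theorem flat (j : A.κ) (hpN : ¬ p ∣ N₀) : (A.pt j).H.ρ.IsFlatAt p :=
  (A.pt j).flat T.p_mem (natCast_mem C) fun h =>
    (T.prime_dvd_N p hp.out h).elim hpN fun ⟨i, hi⟩ => T.ne_p i hi

/-- A point trivial at an auxiliary prime is unipotent there. -/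
theorem unipotent_qv (j : A.κ) (i : Fin D)
    (htriv : TrivialAt T.Ψ T.hΨ T.hneg T.S (A.pt j).ev i) :
    (A.pt j).H.ρ.IsUnipotentOnInertiaAt (qv i) :=
  (A.pt j).unipotent T.p_mem (natCast_mem C) (T.prime i) (T.ne_p i) (T.dvd_N i)
    (fun h => T.isTW.once i (by rwa [← pow_two])) fun i' hi' => by
      obtain rfl := T.inj hi'
      exact htriv

variable {K : Type} [Field K] [IsAlgClosed K] [Algebra C.O K]
  (hinjK : Function.Injective (algebraMap C.O K))

include hinjK in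
/-- An eigencharacter at a character of the diamonds comes from a point. -/
theorem tw_point (φ : DiaCoords C.O p T.lv →ₐ[C.O] K)
    (e : levelAlg C.O T.Ψ T.hΨ T.hneg (goodSet T.S) →+* K)
    (hw : ∃ w : Fin d → K, w ≠ 0 ∧ ∀ z, ((A.act z).map φ).mulVec w = e z • w) :
    ∃ j : A.κ, (∀ z, e z = 0 ↔ (A.pt j).ev z = 0) ∧
      (∀ i, φ (diaX C.O p T.lv i) = 0 → (A.pt j).H.ρ.IsUnipotentOnInertiaAt (qv i)) ∧
      ∀ i, (∀ i', i' ≠ i → φ (diaX C.O p T.lv i') = 0) →
        IsPrimitiveRoot (1 + φ (diaX C.O p T.lv i)) p →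
          ¬ (A.pt j).H.ρ.IsUnipotentOnInertiaAt (qv i) := by
  obtain ⟨j, hj, htriv⟩ := exists_point_of_eigenchar A.pt A.act A.act_dia A.act_ker hinjK φ e hw
  refine ⟨j, hj, fun i hi => A.unipotent_qv j i ((htriv i).mp hi), fun i hi hprim => ?_⟩
  refine (A.pt j).not_unipotent i (fun i' hi' => (htriv i').mp (hi i' hi')) fun h => ?_
  rw [(htriv i).mpr h, add_zero] at hprim
  exact hp.out.ne_one (hprim.eq_orderOf.trans orderOf_one)

end SemistableTWAct

/-- The augmentation of the diamonds. -/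
def augAlg (p : ℕ) [Fact p.Prime] (O : Type) [CommRing O] [IsDomain O] [IsDiscreteValuationRing O]
    [IsAdicComplete (maximalIdeal O) O] [Finite (ResidueField O)] {D : ℕ} (lv : Fin D → ℕ) :
    DiaCoords O p lv →ₐ[O] O where
  toRingHom := Ideal.Quotient.lift _ MvPowerSeries.constantCoeff (diamondIdeal_aug p lv)
  commutes' c := by
    show MvPowerSeries.constantCoeff (algebraMap O (MvPowerSeries (Fin D) O) c) = c
    exact MvPowerSeries.constantCoeff_C c

/-- Without auxiliary primes the augmentation is injective. -/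
theorem augAlg_injective {O : Type} [CommRing O] [IsDomain O] [IsDiscreteValuationRing O]
    [IsAdicComplete (maximalIdeal O) O] [Finite (ResidueField O)] (lv : Fin 0 → ℕ) :
    Function.Injective (augAlg p O lv) := by
  intro a b h
  obtain ⟨a, rfl⟩ := Ideal.Quotient.mk_surjective a
  obtain ⟨b, rfl⟩ := Ideal.Quotient.mk_surjective b
  refine congrArg (Ideal.Quotient.mk _) (MvPowerSeries.ext fun m => ?_)
  obtain rfl : m = 0 := Finsupp.ext fun i => i.elim0
  rw [MvPowerSeries.coeff_zero_eq_constantCoeff_apply,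
    MvPowerSeries.coeff_zero_eq_constantCoeff_apply]
  change MvPowerSeries.constantCoeff a = MvPowerSeries.constantCoeff b at h
  exact h

/-- A level seen through an injective map of coordinates, on a set of primes. -/
def pushLevel {O : Type} [CommRing O] [IsDomain O] [IsDiscreteValuationRing O]
    [IsAdicComplete (maximalIdeal O) O] [Finite (ResidueField O)] {S S' : Finset ℕ}
    {c₀ : ℕ → O} {B B' : Type} [CommRing B] [Algebra O B] [CommRing B'] [Algebra O B'] {d : ℕ}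
    (L : OpLevel O S c₀ B d) (hS : S' = S) (f : B →ₐ[O] B') (hf : Function.Injective f) :
    OpLevel O S' c₀ B' d where
  A := L.A
  Φ := f.mapMatrix.comp L.Φ
  x := L.x
  κ := L.κ
  F := L.F
  ev := L.ev
  ker_iff z := by
    rw [← L.ker_iff, AlgHom.comp_apply]
    exact ⟨fun h => Matrix.map_injective hf (h.trans (Matrix.map_zero f (map_zero f)).symm),
      fun h => by rw [h, map_zero]⟩
  residual := hS ▸ L.residual
  ρ := L.ρ
  frob := hS ▸ L.frob

end Fermat.Agent.LevelLowering.Semistable
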