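import Fermat.Agent.LevelLowering.Semistable.Base
import Fermat.Agent.LevelLowering.Semistable.Level

/-!
# The supply of levels above a minimal level from coordinates of the auxiliary levels

The levels with their eigensystems come from `SemistableTWAct`; the behaviour at `p` dividing the
minimal level is strict ordinarity of every point.
-/

noncomputable section

namespace Fermat.Agent.LevelLowering.Semistable

open Module IsLocalRing Matrix WeierstrassCurve
open CongruenceSubgroup Fermat.Agent.Gal Fermat.Agent.Ihara Fermat.Agent.Grp Fermat.Agent.Raising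
open Fermat.Agent.LevelLowering.Scalar
open scoped WeierstrassCurve.Affine MatrixGroups

variable {p : ℕ} [hp : Fact p.Prime] (C : Coeff.CoeffRing p) (W : WeierstrassCurve ℤ)
  [(W.map (Int.castRingHom ℚ)).IsElliptic]

/-- Every auxiliary level above a minimal level acts in the coordinates of the level. -/
def ActSupply : Prop :=
  ∀ (M t : ℕ) [NeZero (M * t)], MinLevel p W M → AuxPrimeFor p W M t →
    ∀ (B : LevelCoords C W (M * t)) (D n : ℕ) (qv : Fin D → ℕ)
      (T : SemistableTWDatum C W (M * t) qv n), Nonempty (SemistableTWAct T B.d B.Tm)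

/-- Every point above a minimal level divisible by `p` is strictly ordinary at `p`. -/
def StrictSupply : Prop :=
  ∀ (M t : ℕ) [NeZero (M * t)], MinLevel p W M → AuxPrimeFor p W M t → p ∣ M →
    ∀ (D n : ℕ) (qv : Fin D → ℕ) (T : SemistableTWDatum C W (M * t) qv n)
      (P : TWPoint qv T.Ψ T.hΨ T.hneg T.S T.hNS T.sys), P.H.ρ.IsStrictOrdinaryAt p

variable {C W} {K : Type} [Field K] [IsAlgClosed K] [CharZero K] [Algebra C.O K]

omit hp [(W.map (Int.castRingHom ℚ)).IsElliptic] in
theorem MinLevel.squarefree_mul {M t : ℕ} (h : MinLevel p W M) (ha : AuxPrimeFor p W M t) :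
    Squarefree (M * t) :=
  Nat.squarefree_mul_iff.mpr
    ⟨((ha.prime.coprime_iff_not_dvd).mpr ha.not_dvd).symm, h.sqf, ha.prime.prime.squarefree⟩

omit [(W.map (Int.castRingHom ℚ)).IsElliptic] in
theorem MinLevel.not_dvd_mul {M t : ℕ} (ha : AuxPrimeFor p W M t) (hpM : ¬ p ∣ M) :
    ¬ p ∣ M * t := fun hd =>
  (hp.out.dvd_mul.mp hd).elim hpM fun ht =>
    ha.ne_p ((Nat.prime_dvd_prime_iff_eq hp.out ha.prime).mp ht).symm

omit [CharZero K] in
/-- A level of the supply. -/
theorem nonempty_supplyLevel (hinjK : Function.Injective (algebraMap C.O K))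
    (hstrict : StrictSupply C W) {M t : ℕ} [NeZero (M * t)] (hmin : MinLevel p W M)
    (ha : AuxPrimeFor p W M t) (B : SupplyBase C W (M * t)) {D n : ℕ} {qv : Fin D → ℕ}
    (T : SemistableTWDatum C W (M * t) qv n) (A : SemistableTWAct T B.d B.Tm) :
    Nonempty (SupplyLevel C W K M t B qv T.lv) :=
  ⟨{ S := T.S
     subset := T.subset_S
     L := A.opLevel
     aug_x := fun _ hℓ hℓS => A.opLevel_aug hℓ hℓS
     unramified := fun a _ hl hlp hlN hlq => A.unramified a hl hlp hlN hlq
     unipotent := fun a l hl hlp hlN => A.unipotent a hl hlp hlN fun hd =>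
       hl.ne_one (Nat.isUnit_iff.1 (hmin.squarefree_mul ha l (by rwa [← sq])))
     at_p := fun a => by
       by_cases hpM : p ∣ M
       · exact Or.inr ⟨hpM, hstrict M t hmin ha hpM D n qv T (A.pt a)⟩
       · exact Or.inl ⟨hpM, A.flat a (MinLevel.not_dvd_mul ha hpM)⟩
     tw_point := fun φ e hw => A.tw_point hinjK φ e hw }⟩

omit [CharZero K] in
/-- **The supply from coordinates of the auxiliary levels.** -/
theorem levelSupply_of_act (hp2 : p ≠ 2) (hΔ : W.Δ ≠ 0) (hirr : W.ModRepIsIrreducible p)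
    (hinjK : Function.Injective (algebraMap C.O K)) (hact : ActSupply C W)
    (hstrict : StrictSupply C W) : LevelSupply C W K := by
  intro M t _ hmin ha
  classical
  have : NeZero M := ⟨hmin.ne_zero⟩
  have : NeZero t := ⟨ha.prime.ne_zero⟩
  have ht3 : t % 3 = 2 := by have := ha.mod_twelve; omega
  have htN : t ∣ M * t := dvd_mul_left t M
  obtain ⟨B⟩ := exists_levelCoords C hp2 hΔ hirr (raise_mul t hmin.modular)
  -- the level itself
  obtain ⟨T₀⟩ := exists_semistableTWDatum (C := C) hp2 hΔ hirr ha.prime htN ht3 0 (D := 0)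
    (fun i => i.elim0) (fun i => i.elim0) (fun i => i.elim0) fun i => i.elim0
  obtain ⟨A₀⟩ := hact M t hmin ha B 0 0 _ T₀
  have hS : levelBad p (M * t) W = T₀.S := Finset.ext fun l =>
    ((T₀.mem_S l).trans (or_iff_left fun ⟨i, _⟩ => i.elim0)).symm
  let SB : SupplyBase C W (M * t) :=
    { d := B.d
      d_pos := B.d_pos
      Tm := B.Tm
      L₀ := pushLevel A₀.opLevel hS (augAlg p C.O T₀.lv) (augAlg_injective T₀.lv)
      base_x := fun ℓ hℓ hℓS => A₀.opLevel_aug hℓ (hS ▸ hℓS)
      v := B.v
      fix := B.fix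
      basis := B.basis
      Tm_spec := B.Tm_spec }
  refine ⟨SB, fun D n qv hinj hq hsplit => ?_⟩
  obtain ⟨T⟩ := exists_semistableTWDatum (C := C) hp2 hΔ hirr ha.prime htN ht3 n qv hinj hq hsplit
  obtain ⟨A⟩ := hact M t hmin ha B D n qv T
  exact ⟨T.lv, fun i => ⟨T.lt_lv i, T.dvd_sub i, T.not_dvd_sub i⟩,
    nonempty_supplyLevel hinjK hstrict hmin ha SB T A⟩

end Fermat.Agent.LevelLowering.Semistable
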