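import Fermat.Agent.Attach.Inputs
import Fermat.Agent.LevelLowering.Scalar.LevelO
import Fermat.Agent.LevelLowering.Semistable.Main

/-!
# Coordinates of a level of the residual representation over the coefficient ring

At a level of the torsion of the curve the part at the residual system is a free nonzero module:
a basis over `ℤ_p` gives one over the coefficient ring, with the matrices of the good operators.
-/

noncomputable section

namespace Fermat.Agent.LevelLowering.Semistable

open Module IsLocalRing Matrix Attach WeierstrassCurve WeierstrassCurve.Affine.Point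
open Fermat.Agent.Gal Fermat.Agent.Ihara Fermat.Agent.LevelLowering.Scalar Fermat.Agent.Raising
open scoped WeierstrassCurve.Affine

local notation "Qbar" => AlgebraicClosure ℚ

variable {p : ℕ} [hp : Fact p.Prime] (C : Coeff.CoeffRing p) (W : WeierstrassCurve ℤ)

/-- A level in coordinates. -/
structure LevelCoords (N : ℕ) [NeZero N] where
  /-- The rank of the part at the residual system. -/
  d : ℕ
  d_pos : 0 < d
  /-- A basis of that part over the coefficient ring. -/
  v : Fin d → clH C.O N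
  fix : ∀ i, (baseIdem C.O N (goodPrimes (levelBad p N W)) (curveResSys C W)).1 (v i) = v i
  basis : ∀ x, (baseIdem C.O N (goodPrimes (levelBad p N W)) (curveResSys C W)).1 x = x →
    ∃! b : Fin d → C.O, ∑ i, b i • v i = x
  /-- The matrix of each good operator in the basis. -/
  Tm : ℕ → Matrix (Fin d) (Fin d) C.O
  Tm_spec : ∀ (ℓ : goodPrimes (levelBad p N W)) j,
    baseGen C.O N (goodPrimes (levelBad p N W)) ℓ (v j) = ∑ i, Tm (ℓ.1 : ℕ) i j • v i

/-- The residual system of the curve comes from `ℤ_p`. -/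
theorem curveResSys_eq (ℓ : Nat.Primes) :
    curveResSys C W ℓ = ResidueField.map (algebraMap ℤ_[p] C.O) (intSys W.apOfModel ℓ) := by
  rw [curveResSys, curveSys, intSys, map_intCast, map_intCast, map_intCast]

variable {W}

/-- **Coordinates at a level of the torsion.** -/
theorem exists_levelCoords (hp2 : p ≠ 2) (hΔ : W.Δ ≠ 0) (hirr : W.ModRepIsIrreducible p)
    {N : ℕ} [NeZero N] (hmod : W.IsResiduallyModularOfLevel p N) :
    Nonempty (LevelCoords C W N) := by
  classical
  have := Frey.isElliptic_mapRat hΔ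
  obtain ⟨f, 𝔪, hf, h𝔪, hp𝔪, hcong⟩ := hmod
  set S := levelBad p N W
  have hNS : ∀ q, q.Prime → q ∣ N → q ∈ (↑S : Set ℕ) := fun q hq hd =>
    LoweringAtP.HeckeCompat.mem_badSet_of_dvd hq hd
  obtain ⟨Ins₀⟩ := nonempty_jacobianInputs N p
  let Ins : JacobianInputs N p := ⟨tModel N p, Ins₀.galois⟩
  obtain ⟨θ, hθ⟩ := LoweringAtP.HeckeCompat.exists_theta_of_congr hf hNS Ins.model h𝔪 hp𝔪
    W.apOfModel
    fun ℓ hℓ _ hℓS => by
      obtain ⟨h1, h2, h3⟩ := LoweringAtP.HeckeCompat.good_of_not_mem_badSet hΔ hℓ fun h =>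
        hℓS (Finset.mem_coe.2 h)
      exact hcong ℓ hℓ h1 h2 h3
  obtain ⟨ι, hι, -, htor, heig⟩ := LoweringAtP.HeckeCompat.exists_galois_map W hp2 hirr Ins.model
    Ins.galois
    (LoweringAtP.HeckeCompat.mem_badSet_self N p W) hNS
    (fun q hq h => LoweringAtP.HeckeCompat.mem_badSet_of_bad hΔ hq h) θ hθ
  -- coordinates over `ℤ_p`
  obtain ⟨d, v₁, hfix₁, hbasis₁⟩ :=
    exists_idem_basis ℤ_[p] N (goodPrimes S) (intSys W.apOfModel)
  have hav : SysMatch θ (intSys W.apOfModel) := fun ℓ hℓN hℓS =>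
    (resVal_liftSys_intSys W.apOfModel ℓ).trans (hθ ℓ ℓ.2 hℓN hℓS).symm
  have hnt : Nontrivial (eigenPart (tModel N p) hNS θ 1) := by
    obtain ⟨x, y, hxy⟩ := hirr.1
    obtain ⟨w, hw, hwx⟩ : ι (x - y) ∈ MonodromyExact.thetaPts (tModel N p) hNS θ 1 :=
      MazurPrinciple.mem_thetaPts_of_eigen (tModel N p) hNS θ W.apOfModel hθ (htor _)
        fun ℓ hℓ => heig ℓ hℓ _
    refine ⟨⟨w, hw⟩, 0, fun h => sub_ne_zero.mpr hxy (hι ?_)⟩
    rw [_root_.map_zero, ← hwx, show w = 0 from congrArg Subtype.val h, _root_.map_zero]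
  have hd : 0 < d := pos_of_nontrivial hNS hav v₁ hfix₁ hbasis₁ hnt
  -- over the coefficient ring
  obtain ⟨hfix, hbasis⟩ := extCl_basis C.O (goodPrimes S) (intSys W.apOfModel) (curveResSys C W)
    (curveResSys_eq C W) v₁ hfix₁ hbasis₁
  have hcomm : ∀ (ℓ : goodPrimes S) j,
      (baseIdem C.O N (goodPrimes S) (curveResSys C W)).1
        (baseGen C.O N (goodPrimes S) ℓ (extCl C.O (v₁ j))) =
        baseGen C.O N (goodPrimes S) ℓ (extCl C.O (v₁ j)) := fun ℓ j =>
    baseIdem_baseGen C.O N (goodPrimes S) (curveResSys C W) ℓ (hfix j)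
  choose B hB using fun ℓ j => (hbasis _ (hcomm ℓ j)).exists
  exact ⟨{
    d := d
    d_pos := hd
    v := fun i => extCl C.O (v₁ i)
    fix := hfix
    basis := hbasis
    Tm := fun ℓ => if h : ℓ.Prime ∧ ℓ ∉ S then Matrix.of fun i j => B ⟨⟨ℓ, h.1⟩, h.2⟩ j i else 0
    Tm_spec := fun ℓ j => by
      refine (hB ℓ j).symm.trans (Finset.sum_congr rfl fun i _ => ?_)
      rw [dif_pos (show (ℓ.1 : ℕ).Prime ∧ (ℓ.1 : ℕ) ∉ S from ⟨ℓ.1.2, ℓ.2⟩), Matrix.of_apply]
      rfl }⟩

end Fermat.Agent.LevelLowering.Semistable
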