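import Mathlib.Algebra.MvPolynomial.Cardinal
import Mathlib.Analysis.Complex.Cardinality
import Mathlib.RingTheory.Ideal.Quotient.Index
import Fermat.Agent.Ihara.RaiseForms
import Fermat.Agent.LevelLowering.Semistable.Setting
import Fermat.Agent.LevelLowering.TWPoint
import Fermat.Agent.Raising.AtResidualPrime.CurveAtP
import Fermat.Agent.Raising.AtResidualPrime.StrictLevel
import Fermat.Agent.Raising.Tate.Exists
import Fermat.Agent.Raising.Tate.PeuFlat
import Fermat.Agent.SquareLevel.GlueEigen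

/-!
# The condition at `p` when `p` divides a minimal level

For a semistable curve which is not peu ramifié at the odd prime `p`, a representation attached to
an eigensystem of a level exactly divisible by `p`, congruent to the curve, is strictly ordinary at
`p`: the eigensystem has a class which is new at `p` as the reduction is not flat.
-/

noncomputable section

namespace Fermat.Agent.LevelLowering.Semistable

open IsLocalRing Module Polynomial WeierstrassCurve Cardinal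
open Fermat.Agent.Raising Fermat.Agent.Ihara Fermat.Agent.Grp
open scoped WeierstrassCurve.Affine MatrixGroups TensorProduct

local notation "Qbar" => AlgebraicClosure ℚ
local notation "GQ" => (AlgebraicClosure ℚ ≃ₐ[ℚ] AlgebraicClosure ℚ)

/-- A complete ring of characteristic zero with finite residue field embeds into `ℂ`. -/
theorem exists_complex_embedding (R : Type) [CommRing R] [IsDomain R] [IsLocalRing R]
    [IsNoetherianRing R] [CharZero R] [Finite (ResidueField R)] :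
    ∃ j : R →+* ℂ, Function.Injective j := by
  have hfin : ∀ n : ℕ, Finite (R ⧸ maximalIdeal R ^ n) := fun n => by
    have : Finite (R ⧸ maximalIdeal R) := inferInstanceAs (Finite (ResidueField R))
    exact Ideal.finite_quotient_pow (IsNoetherian.noetherian _) n
  have henc : ∀ n : ℕ, ∃ f : R ⧸ maximalIdeal R ^ n → ℕ, Function.Injective f := fun n => by
    obtain ⟨m, ⟨e⟩⟩ := Finite.exists_equiv_fin (R ⧸ maximalIdeal R ^ n)
    exact ⟨fun x => (e x : ℕ), Fin.val_injective.comp e.injective⟩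
  choose enc henc using henc
  have hR : #R ≤ 𝔠 := by
    have hinj : Function.Injective fun (x : R) (n : ℕ) => enc n (Ideal.Quotient.mk _ x) :=
      fun x y hxy => sub_eq_zero.mp (LevelLowering.eq_zero_of_forall_mem_pow _ fun n =>
        Ideal.Quotient.eq.mp (henc n (congrFun hxy n)))
    refine (Cardinal.mk_le_of_injective hinj).trans ?_
    rw [← Cardinal.power_def, Cardinal.mk_nat, Cardinal.aleph0_power_aleph0]
  let P := MvPolynomial ℂ R
  let F := FractionRing P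
  let Ω := AlgebraicClosure F
  have : CharZero F := charZero_of_injective_algebraMap (IsFractionRing.injective P F)
  have : CharZero Ω := charZero_of_injective_algebraMap (algebraMap F Ω).injective
  have hP : #P ≤ 𝔠 := MvPolynomial.cardinalMk_le_max.trans
    (max_le (max_le hR Cardinal.mk_complex.le) Cardinal.aleph0_le_continuum)
  have hΩ : #Ω = 𝔠 := by
    refine le_antisymm ((Algebra.IsAlgebraic.cardinalMk_le_max F Ω).trans
      (max_le (by rw [FractionRing.cardinalMk]; exact hP) Cardinal.aleph0_le_continuum)) ?_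
    rw [← Cardinal.mk_complex]
    exact Cardinal.mk_le_of_injective
      (((algebraMap F Ω).injective.comp (IsFractionRing.injective P F)).comp
        (MvPolynomial.X_injective (R := R) (σ := ℂ)))
  obtain ⟨e⟩ := IsAlgClosed.ringEquiv_of_equiv_of_charZero (K := Ω) (L := ℂ)
    (by rw [hΩ]; exact Cardinal.aleph0_lt_continuum)
    (Cardinal.eq.mp (by rw [hΩ, Cardinal.mk_complex]))
  exact ⟨((e.toRingHom.comp (algebraMap F Ω)).comp (algebraMap P F)).comp MvPolynomial.C,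
    ((e.injective.comp (algebraMap F Ω).injective).comp (IsFractionRing.injective P F)).comp
      (MvPolynomial.C_injective ℂ R)⟩

/-- A character of a Hecke algebra has a class on `Γ₀`. -/
theorem exists_class_of_heckeHom {L : ℕ} [NeZero L] {S : Set ℕ}
    (χ : CuspForm.heckeAlgebra L 2 S →+* ℂ) :
    ∃ y : clH ℂ L, y ≠ 0 ∧ ∀ (ℓ : ℕ) [NeZero ℓ] (hℓ : ℓ.Prime) (hℓL : ¬ ℓ ∣ L) (hℓS : ℓ ∉ S),
      clT ℂ L ℓ y = χ (CuspForm.heckeAlgebra.T hℓ hℓL hℓS) • y := by
  obtain ⟨g, hg, hgc⟩ := SquareLevel.exists_eigenform_of_character χ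
  obtain ⟨y, hy0, hy⟩ := exists_clH_eigenvector hg
  exact ⟨y, hy0, fun ℓ _ hℓ hℓL hℓS => by rw [hy ℓ hℓ hℓL, hgc ℓ hℓ hℓL hℓS]⟩

variable {p : ℕ} [Fact p.Prime] (C : Coeff.CoeffRing p) {W : WeierstrassCurve ℤ}
  [(W.map (Int.castRingHom ℚ)).IsElliptic]

local notation "Eℚ" => W.map (Int.castRingHom ℚ)

omit [Fact (Nat.Prime p)] [(W.map (Int.castRingHom ℚ)).IsElliptic] in
/-- Multiplicative reduction is necessary for not being peu ramifié. -/
theorem dvd_discr_of_not_peu (hnpeu : ¬ (Eℚ).IsPeuRamifieeAt p p) : (p : ℤ) ∣ W.Δ := by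
  by_contra h
  refine hnpeu ?_
  rw [IsPeuRamifieeAt, map_Δ, eq_intCast, padicValRat.of_int, padicValInt.eq_zero_of_not_dvd h]
  simp

/-- **The residual representation at `p`** is ordinary over every extension of the coefficients. -/
theorem isOrdinaryAt_curveRbar_ext (hp2 : p ≠ 2) (hΔ : W.Δ ≠ 0) (hss : W.IsSemistableModel)
    (hirr : W.ModRepIsIrreducible p) (hnpeu : ¬ (Eℚ).IsPeuRamifieeAt p p)
    {k : Type} [Field k] (f : ResidueField C.O →+* k) :
    (GaloisRepAdic.ofResidualGaloisRep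
      ((Coeff.curveRbar C Eℚ).baseChangeAlong f)).IsOrdinaryAt p := by
  obtain ⟨F⟩ := Tate.nonempty_tateFrame (E := Eℚ) (p := p)
  have h := AtResidualPrime.isOrdinaryAt_curveRbar C F hp2 hΔ (dvd_discr_of_not_peu hnpeu) hss
    (F.detIsCyclotomic hΔ (Tate.exists_smul_notMem_zmultiples hirr))
  exact Coeff.isOrdinaryAt_baseChange (φ := f) inferInstance h

/-- **The residual representation at `p`** is not flat over any extension of the coefficients. -/
theorem not_isFlatAt_of_equiv (hp2 : p ≠ 2) (hss : W.IsSemistableModel)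
    (hnpeu : ¬ (Eℚ).IsPeuRamifieeAt p p) {k : Type} [Field k] (f : ResidueField C.O →+* k)
    {r : ResidualGaloisRep k} (he : r.IsEquiv ((Coeff.curveRbar C Eℚ).baseChangeAlong f)) :
    ¬ (GaloisRepAdic.ofResidualGaloisRep r).IsFlatAt p := fun hflat => by
  let : Algebra (ResidueField C.O) k := f.toAlgebra
  obtain ⟨e⟩ := he
  let i₁ : Submodule.torsionBy ℤ ((Eℚ)⁄Qbar).Point (p : ℤ) →+ (Coeff.curveRbar C Eℚ).V :=
    ((TensorProduct.mk (ZMod p) (ResidueField C.O) (EC.residualRep Eℚ p).V) 1).toAddMonoidHom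
  let i₂ : (Coeff.curveRbar C Eℚ).V →+ k ⊗[ResidueField C.O] (Coeff.curveRbar C Eℚ).V :=
    ((TensorProduct.mk (ResidueField C.O) k (Coeff.curveRbar C Eℚ).V) 1).toAddMonoidHom
  refine hnpeu (Tate.isPeuRamifieeAt_of_isFlatAt_embedding hp2 (hss p Fact.out) hflat
    ((e.toLinearEquiv.symm.toLinearMap.toAddMonoidHom.comp i₂).comp i₁) ?_ fun σ u => ?_)
  · exact e.toLinearEquiv.symm.injective.comp
      ((Module.FaithfullyFlat.tensorProduct_mk_injective _).comp
        (Module.FaithfullyFlat.tensorProduct_mk_injective _))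
  · refine e.toLinearEquiv.injective ?_
    rw [e.map_apply]
    show e.toLinearEquiv (e.toLinearEquiv.symm (i₂ (i₁ (σ • u)))) =
      ((Coeff.curveRbar C Eℚ).baseChangeAlong f).ρ σ
        (e.toLinearEquiv (e.toLinearEquiv.symm (i₂ (i₁ u))))
    refine (e.toLinearEquiv.apply_symm_apply _).trans
      (Eq.trans ?_ (congrArg _ (e.toLinearEquiv.apply_symm_apply _).symm))
    have h1 : i₁ (σ • u) = (Coeff.curveRbar C Eℚ).ρ σ (i₁ u) :=
      (congrArg (fun z : (EC.residualRep Eℚ p).V => (1 : ResidueField C.O) ⊗ₜ[ZMod p] z)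
        (Affine.Point.galoisRepModuleEnd_apply _ _ σ u).symm).trans
        (LinearMap.baseChange_tmul _ _ _).symm
    rw [h1]
    exact (LinearMap.baseChange_tmul ((Coeff.curveRbar C Eℚ).ρ σ) (1 : k) (i₁ u)).symm

section Point

variable {R : Type} [CommRing R] [IsDomain R] [IsDiscreteValuationRing R]
  [IsAdicComplete (maximalIdeal R) R] [CharZero R] [Finite (ResidueField R)] [Algebra C.O R]
  [IsLocalHom (algebraMap C.O R)]

omit [IsAdicComplete (maximalIdeal R) R] [CharZero R] [Finite (ResidueField R)] in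
/-- A representation congruent to the curve at almost all primes has its residual representation. -/
theorem residual_isEquiv_curve (hΔ : W.Δ ≠ 0) (ρ : GaloisRepAdic R)
    (habs : ρ.residual.IsAbsolutelyIrreducible) (c : ℕ → R) (S : Finset ℕ)
    (hfrob : ∀ ℓ : ℕ, ℓ.Prime → ℓ ∉ S → ∀ A : ValuationSubring Qbar, A.LiesOverPrime ℓ →
      ∀ σ : GQ, A.IsFrobeniusAt σ ℓ →
        LinearMap.charpoly (ρ.ρ σ) = X ^ 2 - Polynomial.C (c ℓ) * X + Polynomial.C (ℓ : R))
    (hcong : ∀ ℓ : ℕ, ℓ.Prime → ℓ ∉ S → c ℓ - (W.apOfModel ℓ : R) ∈ maximalIdeal R) :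
    ρ.residual.IsEquiv
      ((Coeff.curveRbar C Eℚ).baseChangeAlong (ResidueField.map (algebraMap C.O R))) := by
  set f := ResidueField.map (algebraMap C.O R)
  set r := (Coeff.curveRbar C Eℚ).baseChangeAlong f
  have hchar : ∀ g, LinearMap.charpoly (ρ.residual.ρ g) = LinearMap.charpoly (r.ρ g) := by
    refine Gal.residual_charpoly_eq_of_frobenius ρ.residual r
      (S ∪ W.Δ.natAbs.primeFactors ∪ {p}) fun ℓ hℓ hℓS A hA σ hσ => ?_
    simp only [Finset.mem_union, Finset.mem_singleton, not_or, Nat.mem_primeFactors] at hℓS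
    obtain ⟨⟨hℓS, hℓΔ⟩, hℓp⟩ := hℓS
    have hgood : W.IsGoodPrimeFor ℓ := fun hd =>
      hℓΔ ⟨hℓ, Int.natCast_dvd.mp hd, by simpa using hΔ⟩
    let : Algebra (ResidueField C.O) (ResidueField R) := f.toAlgebra
    refine (LinearMap.charpoly_baseChange (ρ.ρ σ) (ResidueField R)).trans (Eq.trans ?_
      (LinearMap.charpoly_baseChange ((Coeff.curveRbar C Eℚ).ρ σ) (ResidueField R)).symm)
    rw [hfrob ℓ hℓ hℓS A hA σ hσ, Coeff.charpoly_curveRbar_frobenius C hℓ hℓp hgood hA hσ]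
    have e : residue R (c ℓ) = (W.apOfModel ℓ : ResidueField R) := by
      rw [← map_intCast (residue R), ← sub_eq_zero, ← map_sub, residue_eq_zero_iff]
      exact hcong ℓ hℓ hℓS
    simp [Polynomial.map_sub, Polynomial.map_add, RingHom.algebraMap_toAlgebra, e]
  obtain ⟨e, he⟩ := Gal.exists_conj_of_trace_eq ρ.residual.finrank_eq r.finrank_eq ρ.residual.ρ r.ρ
    (Gal.hasTraceBasis_of_isAbsolutelyIrreducible _ habs) fun g =>
      ((Gal.charpoly_eq_iff ρ.residual.finrank_eq r.finrank_eq _ _).mp (hchar g)).1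
  exact ⟨⟨e, he⟩⟩

include C in
/-- **Strictly ordinary at `p`**: eigensystems of levels exactly divisible by `p` congruent to a
curve which is not peu ramifié at `p`. -/
theorem isStrictOrdinaryAt_of_heckeRep (hp2 : p ≠ 2) (hΔ : W.Δ ≠ 0) (hss : W.IsSemistableModel)
    (hirr : W.ModRepIsIrreducible p) (hnpeu : ¬ (Eℚ).IsPeuRamifieeAt p p)
    {O : Type} [CommRing O] [Algebra O R] {L : ℕ} [NeZero L]
    (hpL : p ∣ L) (hp2L : ¬ p ^ 2 ∣ L) {S : Finset ℕ}
    (hLS : ∀ l : ℕ, l.Prime → l ∣ L → l ∈ S) (H : Attach.HeckeRep L (↑S : Set ℕ) O R)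
    (hcong : ∀ (ℓ : ℕ) (hℓ : ℓ.Prime) (hℓS : ℓ ∉ S),
      H.π (CuspForm.heckeAlgebra.T hℓ (fun h => hℓS (hLS ℓ hℓ h)) hℓS) - (W.apOfModel ℓ : R) ∈
        maximalIdeal R) :
    H.ρ.IsStrictOrdinaryAt p := by
  classical
  have hpp : p.Prime := Fact.out
  have : NeZero p := ⟨hpp.ne_zero⟩
  obtain ⟨M₀, rfl⟩ : ∃ M₀, L = M₀ * p := by
    obtain ⟨M₀, rfl⟩ := hpL; exact ⟨M₀, mul_comm p M₀⟩
  have : NeZero M₀ := ⟨left_ne_zero_of_mul (NeZero.ne (M₀ * p))⟩
  have hpM : ¬ p ∣ M₀ := fun h => hp2L (by rw [sq]; exact Nat.mul_dvd_mul h dvd_rfl)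
  have hpR : (p : R) ∈ maximalIdeal R := by
    rw [← map_natCast (algebraMap C.O R)]
    exact map_nonunit _ _ (C.maximalIdeal_eq ▸ Ideal.mem_span_singleton_self _)
  let c : ℕ → R := fun ℓ => if h : ℓ.Prime ∧ ℓ ∉ S then
    H.π (CuspForm.heckeAlgebra.T h.1 (fun hd => h.2 (hLS ℓ h.1 hd)) h.2) else 0
  have hc : ∀ (ℓ : ℕ) (hℓ : ℓ.Prime) (hℓS : ℓ ∉ S), c ℓ =
      H.π (CuspForm.heckeAlgebra.T hℓ (fun hd => hℓS (hLS ℓ hℓ hd)) hℓS) := fun ℓ hℓ hℓS =>
    dif_pos ⟨hℓ, hℓS⟩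
  have he := residual_isEquiv_curve C hΔ H.ρ H.residual_absIrr c S
    (fun ℓ hℓ hℓS A hA σ hσ => by
      rw [hc ℓ hℓ hℓS]
      exact H.charpoly_frob ℓ hℓ (fun h => hℓS (hLS ℓ hℓ h)) hℓS A hA σ hσ)
    (fun ℓ hℓ hℓS => by rw [hc ℓ hℓ hℓS]; exact hcong ℓ hℓ hℓS)
  obtain ⟨j, hj⟩ := exists_complex_embedding R
  obtain ⟨y, hy0, hy⟩ := exists_class_of_heckeHom (j.comp H.π)
  exact (AtResidualPrime.isStrictOrdinaryAt_of_eigenclass hp2 hpR hpM
    (hLS p hpp (dvd_mul_left p M₀)) hLS j hj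
    H.π y hy0 hy H.ρ H.charpoly_frob H.residual_absIrr
    (AtResidualPrime.isOrdinaryAt_residual_congr (he.map fun e => e.symm)
      (isOrdinaryAt_curveRbar_ext C hp2 hΔ hss hirr hnpeu _))
    (not_isFlatAt_of_equiv C hp2 hss hnpeu _ he)).2.2

end Point

variable {r : ℕ} {lv : Fin r → ℕ} {qs : Fin r → ℕ} {N : ℕ} [NeZero N]
  {Ψ : (ZMod N)ˣ →* DiaGroup p lv} {hΨ : Function.Surjective Ψ}
  {hneg : (-1 : SL(2, ℤ)) ∈ GammaPsi Ψ} {S : Finset ℕ}
  {hNS : ∀ l : ℕ, l.Prime → l ∣ N → l ∈ S} {a : Nat.Primes → ResidueField C.O}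

/-- **The condition at `p` of a point of a Taylor–Wiles level exactly divisible by `p`.** -/
theorem atPCond_of_point (hp2 : p ≠ 2) (hΔ : W.Δ ≠ 0) (hss : W.IsSemistableModel)
    (hirr : W.ModRepIsIrreducible p) {M : ℕ} (hpM : p ∣ M)
    (hnpeu : ¬ (Eℚ).IsPeuRamifieeAt p p) (hqs : ∀ i, qs i ≠ p) (hpN : p ∣ N)
    (hp2N : ¬ p ^ 2 ∣ N) (P : TWPoint qs Ψ hΨ hneg S hNS a)
    (hcong : ∀ (ℓ : ℕ) (hℓ : ℓ.Prime) (hℓS : ℓ ∉ S),
      P.ev (twGood Ψ hΨ hneg S hNS ⟨ℓ, hℓ⟩ hℓS) - (W.apOfModel ℓ : P.R) ∈ maximalIdeal P.R) :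
    AtPCond p M P.H.ρ := by
  refine Or.inr ⟨hpM, isStrictOrdinaryAt_of_heckeRep C hp2 hΔ hss hirr hnpeu
    ((P.dvd_iff p Fact.out).mpr hpN)
    (fun h => hp2N ((P.sq_dvd p Fact.out fun i hi => absurd hi (hqs i)).mp h))
    P.level_mem P.H fun ℓ hℓ hℓS => ?_⟩
  rw [P.π_T ℓ hℓ hℓS]
  exact hcong ℓ hℓ hℓS

/-- Above a minimal level divisible by `p` every point has the condition at `p`. -/
theorem atPCond_of_point_minLevel (hp2 : p ≠ 2) (hΔ : W.Δ ≠ 0) (hss : W.IsSemistableModel)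
    (hirr : W.ModRepIsIrreducible p) {M : ℕ} (hmin : MinLevel p W M) (hpM : p ∣ M)
    (hqs : ∀ i, qs i ≠ p) (hpN : p ∣ N) (hp2N : ¬ p ^ 2 ∣ N)
    (P : TWPoint qs Ψ hΨ hneg S hNS a)
    (hcong : ∀ (ℓ : ℕ) (hℓ : ℓ.Prime) (hℓS : ℓ ∉ S),
      P.ev (twGood Ψ hΨ hneg S hNS ⟨ℓ, hℓ⟩ hℓS) - (W.apOfModel ℓ : P.R) ∈ maximalIdeal P.R) :
    AtPCond p M P.H.ρ :=
  atPCond_of_point C hp2 hΔ hss hirr hpM (hmin.not_peuRamifiee hp2 hΔ hss hirr hpM) hqs hpN hp2N P
    hcong

end Fermat.Agent.LevelLowering.Semistable
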