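import Fermat.Agent.LevelLowering.Semistable.Supply
import Fermat.Agent.LevelLowering.TWLevelAct

/-!
# The auxiliary levels above a minimal level act in the coordinates of the level

The instance of the coordinates of a Taylor–Wiles level at the torsion of a semistable curve.
-/

noncomputable section

namespace Fermat.Agent.LevelLowering.Semistable

open Module IsLocalRing Matrix WeierstrassCurve
open CongruenceSubgroup Fermat.Agent.Gal Fermat.Agent.Ihara Fermat.Agent.Grp Fermat.Agent.Raising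
open Fermat.Agent.LevelLowering.Scalar
open scoped WeierstrassCurve.Affine MatrixGroups

variable {p : ℕ} [hp : Fact p.Prime] {C : Coeff.CoeffRing p} {W : WeierstrassCurve ℤ}
  [(W.map (Int.castRingHom ℚ)).IsElliptic]

/-- The product over the set of auxiliary primes. -/
theorem SemistableTWDatum.prod_Q {N₀ D n : ℕ} {qv : Fin D → ℕ} (T : SemistableTWDatum C W N₀ qv n) :
    ∏ l ∈ T.Q, (l : ℕ) = ∏ i, qv i :=
  (Finset.prod_bij (fun i _ => (⟨qv i, T.prime i⟩ : Nat.Primes))
    (fun i _ => (T.mem_Q _).mpr ⟨i, rfl⟩)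
    (fun _ _ _ _ h => T.inj (congrArg Subtype.val h))
    (fun l hl => by
      obtain ⟨i, hi⟩ := (T.mem_Q l).mp hl
      exact ⟨i, Finset.mem_univ _, Subtype.ext hi⟩)
    fun _ _ => rfl).symm

/-- **Every auxiliary level acts in the coordinates of the level.** -/
theorem actSupply (hp2 : p ≠ 2) (hΔ : W.Δ ≠ 0) (hss : W.IsSemistableModel)
    (hirr : W.ModRepIsIrreducible p) : ActSupply C W := by
  classical
  intro M t _ _ _ B D n qv T
  have := T.neN
  have hQ : ∀ i, (⟨qv i, T.prime i⟩ : Nat.Primes) ∈ T.Q := fun i => (T.mem_Q _).mpr ⟨i, rfl⟩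
  obtain ⟨κ, hκ, P, act, -, hdia, hker, hTm⟩ := exists_twLevelAct_of_agree (O := C.O) (M := M * t)
    T.Ψ T.isTW T.hΨ T.hneg (T.hN.trans (congrArg (M * t * ·) T.prod_Q))
    (fun i => T.not_dvd _ (hQ i)) T.lv_pos T.dvd_sub T.hker (levelBad p (M * t) W) T.S T.mem_S
    (LoweringAtP.HeckeCompat.mem_badSet_self (M * t) p W) T.not_bad T.hNS (curveResSys C W) T.sys
    (fun ℓ hℓ => T.sys_of_not_mem ℓ.2 hℓ) (natCast_mem C)
    (Coeff.curveRbar_facts C hΔ hp2 hss hirr).1 T.hbar
    (fun i => T.α ⟨qv i, T.prime i⟩) (fun i => T.β ⟨qv i, T.prime i⟩)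
    (fun i => T.mul_eq _ (hQ i)) (fun i => T.ne _ (hQ i))
    (fun i => (congrFun T.sys_bot ⟨qv i, T.prime i⟩).symm.trans (if_pos (hQ i)))
    ⟨T.ℓ₀, T.ℓ₀_mem, T.ℓ₀_N, T.ℓ₀_sys⟩ B.v B.fix B.basis B.Tm B.Tm_spec
  exact ⟨{ κ := κ, pt := P, act := act, act_dia := hdia, act_ker := hker, act_Tm := hTm }⟩

end Fermat.Agent.LevelLowering.Semistable
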