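import Fermat.Agent.EC.FrobTrace
import Fermat.Agent.Gal.Density
import Fermat.Agent.Ihara.IrrCurve
import Fermat.Agent.LevelLowering.Transvections

/-!
# An auxiliary prime `t ≡ 11 (mod 12)` with `a_t ^ 2 ≢ (t + 1) ^ 2`

If the image of `E[p]` (`p` odd) contains two opposite transvections then some `g = c * x`, with
`c` the complex conjugation and `x` a product of squares, has determinant `-1` and nonzero trace.
A Frobenius element generating the same cyclic group inverts the twelfth roots of unity, has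
determinant `-1` and nonzero trace.
-/

noncomputable section

open WeierstrassCurve WeierstrassCurve.Affine.Point
open scoped WeierstrassCurve.Affine

namespace Fermat.Agent.LevelLowering.Semistable

local notation "Qbar" => AlgebraicClosure ℚ
local notation "GQ" => AlgebraicClosure ℚ ≃ₐ[ℚ] AlgebraicClosure ℚ

/-- An involution inverting all roots of unity. -/
theorem complexConjugation_rootOfUnity {n : ℕ} (hn : n ≠ 0) {ζ : Qbar} (h : ζ ^ n = 1) :
    complexConjugation ζ = ζ⁻¹ := by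
  have hζ : ζ ≠ 0 := by rintro rfl; simp [zero_pow hn] at h
  apply mul_left_cancel₀ hζ
  rw [mul_inv_cancel₀ hζ]
  apply complexEmbedding.injective
  show complexEmbedding (ζ * complexConjugation ζ) = complexEmbedding 1
  rw [map_mul, map_one, complexEmbedding_complexConjugation, Complex.mul_conj,
    Complex.normSq_eq_norm_sq,
    Complex.norm_eq_one_of_pow_eq_one (n := n) (by rw [← map_pow, h, map_one]) hn]
  norm_num

section Pure

variable {k : Type*} [Field k] {G : Type*} [Group G]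

/-- Over a product of squares the trace against a matrix of determinant `-1` does not vanish. -/
theorem exists_squares_trace_ne (φ : G →* Matrix (Fin 2) (Fin 2) k) {g g' : G} {x y : k}
    (h2 : (2 : k) ≠ 0) (hx : x ≠ 0) (hy : y ≠ 0) (hg : φ g = upperU x) (hg' : φ g' = lowerU y)
    (C : Matrix (Fin 2) (Fin 2) k) (hC : C.det = -1) :
    ∃ u v : G, (C * φ (u * u * (v * v))).trace ≠ 0 ∧ (φ (u * u * (v * v))).det = 1 := by
  have hU : φ (g * g) = upperU (x + x) := by rw [map_mul, hg, ← upperU_add]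
  have hL : φ (g' * g') = lowerU (y + y) := by rw [map_mul, hg', ← lowerU_add]
  by_cases h0 : C.trace = 0
  swap
  · exact ⟨1, 1, by simpa using h0, by simp⟩
  rw [Matrix.trace_fin_two] at h0
  by_cases hc : C 1 0 = 0
  swap
  · refine ⟨g, 1, ?_, by simp [hU, upperU]⟩
    rw [mul_one, mul_one, hU]
    simp only [upperU, Matrix.trace_fin_two, Matrix.mul_apply, Fin.sum_univ_two, Matrix.of_apply,
      Matrix.cons_val', Matrix.cons_val_zero, Matrix.cons_val_one, Matrix.cons_val_fin_one]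
    rw [show C 0 0 * 1 + C 0 1 * 0 + (C 1 0 * (x + x) + C 1 1 * 1) = C 1 0 * (2 * x) by
      linear_combination h0]
    exact mul_ne_zero hc (mul_ne_zero h2 hx)
  by_cases hb : C 0 1 = 0
  swap
  · refine ⟨1, g', ?_, by simp [hL, lowerU]⟩
    rw [one_mul, one_mul, hL]
    simp only [lowerU, Matrix.trace_fin_two, Matrix.mul_apply, Fin.sum_univ_two, Matrix.of_apply,
      Matrix.cons_val', Matrix.cons_val_zero, Matrix.cons_val_one, Matrix.cons_val_fin_one]
    rw [show C 0 0 * 1 + C 0 1 * (y + y) + (C 1 0 * 0 + C 1 1 * 1) = C 0 1 * (2 * y) by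
      linear_combination h0]
    exact mul_ne_zero hb (mul_ne_zero h2 hy)
  refine ⟨g, g', ?_, by rw [map_mul, hU, hL]; simp [upperU, lowerU]⟩
  rw [map_mul, hU, hL]
  simp only [upperU, lowerU, Matrix.trace_fin_two, Matrix.mul_apply, Fin.sum_univ_two,
    Matrix.of_apply, Matrix.cons_val', Matrix.cons_val_zero, Matrix.cons_val_one,
    Matrix.cons_val_fin_one, hb, hc]
  have ha : C 0 0 ≠ 0 := fun ha => by
    rw [Matrix.det_fin_two, ha, hc] at hC
    simp at hC
  rw [show C 0 0 * (1 * 1 + (x + x) * (y + y)) + 0 * (0 * 1 + 1 * (y + y)) +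
    (0 * (1 * 0 + (x + x) * 1) + C 1 1 * (0 * 0 + 1 * 1)) = C 0 0 * ((2 * x) * (2 * y)) by
      linear_combination h0]
  exact mul_ne_zero ha (mul_ne_zero (mul_ne_zero h2 hx) (mul_ne_zero h2 hy))

/-- A matrix of determinant `-1` and trace zero is an involution. -/
theorem mul_self_of_trace_zero {M : Matrix (Fin 2) (Fin 2) k} (ht : M.trace = 0)
    (hd : M.det = -1) : M * M = 1 := by
  rw [Matrix.trace_fin_two] at ht
  rw [Matrix.det_fin_two] at hd
  ext i j
  fin_cases i <;> fin_cases j <;> simp [Matrix.mul_apply, Fin.sum_univ_two]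
  · linear_combination (M 0 0) * ht - hd
  · linear_combination (M 0 1) * ht
  · linear_combination (M 1 0) * ht
  · linear_combination (M 1 1) * ht - hd

/-- An involution of determinant `-1` has trace zero (in characteristic not two). -/
theorem trace_eq_zero_of_mul_self {M : Matrix (Fin 2) (Fin 2) k} (h : M * M = 1)
    (hd : M.det = -1) : M.trace = 0 := by
  by_contra ht
  rw [Matrix.trace_fin_two] at ht
  rw [Matrix.det_fin_two] at hd
  have e00 := congrFun (congrFun h 0) 0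
  have e01 := congrFun (congrFun h 0) 1
  have e10 := congrFun (congrFun h 1) 0
  simp only [Matrix.mul_apply, Fin.sum_univ_two, Matrix.one_apply_eq, ne_eq, Fin.zero_eq_one_iff,
    OfNat.ofNat_ne_one, not_false_eq_true, Matrix.one_apply_ne, one_ne_zero] at e00 e01 e10
  have hb : M 0 1 = 0 := by
    refine (mul_eq_zero.mp ?_).resolve_left ht
    linear_combination e01
  have hc : M 1 0 = 0 := by
    refine (mul_eq_zero.mp ?_).resolve_left ht
    linear_combination e10
  rw [hb, hc, mul_zero, sub_zero] at hd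
  rw [hb, zero_mul, add_zero] at e00
  exact ht (mul_left_cancel₀ (left_ne_zero_of_mul (ne_of_eq_of_ne e00 one_ne_zero)) (by
    linear_combination e00 + hd))

end Pure

/-- An auxiliary prime from one element of determinant `-1` and nonzero trace inverting a twelfth
root of unity. -/
theorem exists_aux_prime_of_element {p : ℕ} [Fact p.Prime] {W : WeierstrassCurve ℤ}
    (hΔ : W.Δ ≠ 0)
    (b : Module.Basis (Fin 2) (ZMod p) (Submodule.torsionBy ℤ
      ((W.map (Int.castRingHom ℚ))⁄Qbar).Point (p : ℤ))) {g : GQ} {ζ : Qbar}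
    (hζ : IsPrimitiveRoot ζ 12) (hgζ : g ζ = ζ⁻¹)
    (hgdet : LinearMap.det (galoisRepModuleEnd (K := Qbar) ℚ (W.map (Int.castRingHom ℚ)) p g) = -1)
    (hgtr : LinearMap.trace (ZMod p) _
      (galoisRepModuleEnd (K := Qbar) ℚ (W.map (Int.castRingHom ℚ)) p g) ≠ 0)
    (S : Finset ℕ) :
    ∃ t : ℕ, t.Prime ∧ t ∉ S ∧ t ≠ p ∧ W.IsGoodPrimeFor t ∧ t % 12 = 11 ∧
      (W.apOfModel t : ZMod p) ^ 2 ≠ ((t : ZMod p) + 1) ^ 2 := by
  classical
  have hp : p.Prime := Fact.out
  have : (W.map (Int.castRingHom ℚ)).IsElliptic := ⟨by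
    rw [WeierstrassCurve.map_Δ]; exact (Int.cast_ne_zero.mpr hΔ).isUnit⟩
  set E := W.map (Int.castRingHom ℚ) with hE
  let φ : GQ →* Matrix (Fin 2) (Fin 2) (ZMod p) :=
    (LinearMap.toMatrixAlgEquiv b).toRingEquiv.toMonoidHom.comp
      (galoisRepModuleEnd (K := Qbar) ℚ E p)
  have hφdet : ∀ σ, (φ σ).det = LinearMap.det (galoisRepModuleEnd (K := Qbar) ℚ E p σ) :=
    fun σ => LinearMap.det_toMatrix b _
  rw [← hφdet] at hgdet
  replace hgtr : (φ g).trace ≠ 0 := fun h => hgtr ((LinearMap.trace_eq_matrix_trace _ b _).trans h)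
  obtain ⟨L, hL, hLρ⟩ := EC.galoisFactorsThroughFiniteLevel E p hp.ne_zero
  have : FiniteDimensional ℚ L := hL
  let F : IntermediateField ℚ Qbar := IntermediateField.adjoin ℚ {ζ}
  have : FiniteDimensional ℚ F :=
    IntermediateField.adjoin.finiteDimensional (Algebra.IsIntegral.isIntegral ζ)
  obtain ⟨t, ht, htS, A, hA, σ, hσ, a, c, hga, hσc⟩ :=
    Gal.exists_frobenius_generates (L ⊔ F) g (S ∪ W.Δ.natAbs.primeFactors ∪ {2, 3, p})
  simp only [Finset.mem_union, Finset.mem_insert, Finset.mem_singleton, not_or] at htS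
  obtain ⟨⟨hS, htΔ⟩, ht2, ht3, htp⟩ := htS
  have hgood : W.IsGoodPrimeFor t := fun hd => htΔ (Nat.mem_primeFactors.2
    ⟨ht, Int.natCast_dvd.1 hd, Int.natAbs_ne_zero.2 hΔ⟩)
  have hnd : ¬ t ∣ 12 := fun hd => by
    rcases (Nat.Prime.dvd_mul ht).mp (show t ∣ 4 * 3 from hd) with h | h
    · exact ht2 ((Nat.prime_dvd_prime_iff_eq ht Nat.prime_two).mp
        (ht.dvd_of_dvd_pow (show t ∣ 2 ^ 2 from h)))
    · exact ht3 ((Nat.prime_dvd_prime_iff_eq ht Nat.prime_three).mp h)
  have hζF : ζ ∈ L ⊔ F :=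
    (le_sup_right : F ≤ L ⊔ F) (IntermediateField.mem_adjoin_simple_self ℚ ζ)
  have hgpow : ∀ n : ℕ, (g ^ n) ζ = if Odd n then ζ⁻¹ else ζ := fun n => by
    induction n with
    | zero => simp
    | succ n ih =>
      rw [pow_succ', AlgEquiv.mul_apply, ih]
      rcases Nat.even_or_odd n with h | h
      · rw [if_neg (Nat.not_odd_iff_even.mpr h), if_pos h.add_one, hgζ]
      · rw [if_pos h, if_neg (Nat.not_odd_iff_even.mpr h.add_one), map_inv₀, hgζ, inv_inv]
  have hne : ζ⁻¹ ≠ ζ := fun h => by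
    have h2ζ : ζ ^ 2 = 1 := by
      conv_lhs => rw [pow_two]; arg 1; rw [← h]
      exact inv_mul_cancel₀ (hζ.ne_zero (by norm_num))
    exact absurd ((hζ.pow_eq_one_iff_dvd 2).mp h2ζ) (by norm_num)
  have hodd : Odd c := by
    by_contra hc
    have h := hσc ζ hζF
    rw [hgpow, if_neg hc] at h
    have h' := hga ζ hζF
    rw [hgζ] at h'
    have : ∀ n : ℕ, (σ ^ n) ζ = ζ := fun n => by
      induction n with
      | zero => rfl
      | succ n ih => rw [pow_succ, AlgEquiv.mul_apply, h, ih]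
    exact hne (h'.trans (this a))
  have h11 : t % 12 = 11 := by
    have h := Gal.isFrobeniusAt_rootOfUnity ht hA hσ hnd hζ.pow_eq_one
    rw [hσc ζ hζF, hgpow, if_pos hodd] at h
    have h' : ζ ^ (t + 1) = 1 := by
      rw [pow_succ, ← h, inv_mul_cancel₀ (hζ.ne_zero (by norm_num))]
    have := (hζ.pow_eq_one_iff_dvd _).mp h'
    omega
  have heq : ∀ σ τ : GQ, (∀ x ∈ L ⊔ F, σ x = τ x) → φ σ = φ τ := fun σ τ h => by
    have h1 := hLρ (τ⁻¹ * σ) fun x hx => by
      show τ.symm (σ x) = x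
      rw [h x ((le_sup_left : L ≤ L ⊔ F) hx), AlgEquiv.symm_apply_apply]
    have h2' : φ (τ⁻¹ * σ) = 1 := by
      show LinearMap.toMatrixAlgEquiv b _ = 1
      rw [h1, map_one]
    rw [show σ = τ * (τ⁻¹ * σ) by rw [mul_inv_cancel_left], map_mul, h2', mul_one]
  have hσg : φ σ = φ g ^ c := by rw [heq σ (g ^ c) hσc, map_pow]
  have hgσ : φ g = φ σ ^ a := by rw [heq g (σ ^ a) hga, map_pow]
  have hσdet : (φ σ).det = -1 := by rw [hσg, Matrix.det_pow, hgdet, hodd.neg_one_pow]
  have hσtr : (φ σ).trace ≠ 0 := fun h0 => hgtr (by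
    refine trace_eq_zero_of_mul_self ?_ hgdet
    rw [hgσ, ← (Commute.refl (φ σ)).mul_pow, mul_self_of_trace_zero h0 hσdet, one_pow])
  have htdet : (t : ZMod p) = -1 := by
    rw [← EC.det_frobenius p t E ht htp hA hσ, ← hσdet, hφdet]
  have hatr : (φ σ).trace = (W.apOfModel t : ZMod p) := by
    rw [← EC.galoisTrace_frobenius W p t ht htp hgood hA hσ, Affine.Point.galoisTrace_def]
    exact (LinearMap.trace_eq_matrix_trace _ b _).symm
  refine ⟨t, ht, hS, htp, hgood, h11, ?_⟩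
  rw [htdet, neg_add_cancel, zero_pow two_ne_zero]
  exact pow_ne_zero 2 (hatr ▸ hσtr)

/-- **Auxiliary primes.**  Outside any finite set there is a good prime `t ≡ 11 (mod 12)`, `t ≠ p`,
with `a_t ^ 2 ≢ (t + 1) ^ 2 (mod p)`. -/
theorem exists_aux_prime {p : ℕ} [Fact p.Prime] (hp2 : p ≠ 2) {W : WeierstrassCurve ℤ}
    (hΔ : W.Δ ≠ 0)
    (hT : HasOppositeTransvections
      (galoisRepModuleEnd (K := Qbar) ℚ (W.map (Int.castRingHom ℚ)) p))
    (S : Finset ℕ) :
    ∃ t : ℕ, t.Prime ∧ t ∉ S ∧ t ≠ p ∧ W.IsGoodPrimeFor t ∧ t % 12 = 11 ∧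
      (W.apOfModel t : ZMod p) ^ 2 ≠ ((t : ZMod p) + 1) ^ 2 := by
  classical
  have hp : p.Prime := Fact.out
  have h2 : (2 : ZMod p) ≠ 0 := by
    rw [← Nat.cast_two, Ne, ZMod.natCast_eq_zero_iff]
    exact fun hd => hp2 ((Nat.prime_dvd_prime_iff_eq hp Nat.prime_two).mp hd)
  have : (W.map (Int.castRingHom ℚ)).IsElliptic := ⟨by
    rw [WeierstrassCurve.map_Δ]; exact (Int.cast_ne_zero.mpr hΔ).isUnit⟩
  set E := W.map (Int.castRingHom ℚ) with hE
  obtain ⟨b, g₁, g₂, x, y, hx, hy, hg₁, hg₂⟩ := hT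
  let φ : GQ →* Matrix (Fin 2) (Fin 2) (ZMod p) :=
    (LinearMap.toMatrixAlgEquiv b).toRingEquiv.toMonoidHom.comp
      (galoisRepModuleEnd (K := Qbar) ℚ E p)
  have hφdet : ∀ σ, (φ σ).det = LinearMap.det (galoisRepModuleEnd (K := Qbar) ℚ E p σ) :=
    fun σ => LinearMap.det_toMatrix b _
  have hn := Ihara.card_rootsOfUnity_Qbar p
  have hCdet : (φ complexConjugation).det = -1 := by
    rw [hφdet, Ihara.det_galoisRepModuleEnd E hn, Ihara.cyclotomicCharacter_complexConjugation hn]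
  obtain ⟨u, v, htr, hdet⟩ :=
    exists_squares_trace_ne φ h2 hx hy hg₁ hg₂ (φ complexConjugation) hCdet
  set g : GQ := complexConjugation * (u * u * (v * v)) with hgdef
  have hgdet : (φ g).det = -1 := by rw [hgdef, map_mul, Matrix.det_mul, hCdet, hdet, mul_one]
  have hgtr : (φ g).trace ≠ 0 := by rwa [hgdef, map_mul]
  have : NeZero (12 : ℕ) := ⟨by norm_num⟩
  have : NeZero ((12 : ℕ) : Qbar) := ⟨by norm_num⟩
  obtain ⟨ζ, hζ⟩ := HasEnoughRootsOfUnity.exists_primitiveRoot Qbar 12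
  have hpow : ∀ σ : GQ, ∃ i : ℕ, i < 12 ∧ Nat.Coprime i 12 ∧ σ ζ = ζ ^ i := fun σ => by
    have hσ : IsPrimitiveRoot (σ ζ) 12 := hζ.map_of_injective σ.injective
    obtain ⟨i, hi, hi'⟩ := hζ.eq_pow_of_pow_eq_one hσ.pow_eq_one
    exact ⟨i, hi, (hζ.pow_iff_coprime (by norm_num) i).mp (hi' ▸ hσ), hi'.symm⟩
  have hsq : ∀ σ : GQ, σ (σ ζ) = ζ := fun σ => by
    obtain ⟨i, hi, hcop, hσ⟩ := hpow σ
    rw [hσ, map_pow, hσ, ← pow_mul]
    have : (i * i) % 12 = 1 := by
      interval_cases i <;> simp_all (config := { decide := true })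
    conv_rhs => rw [← pow_one ζ, ← this]
    exact pow_eq_pow_mod _ hζ.pow_eq_one
  have hgζ : g ζ = ζ⁻¹ := by
    rw [hgdef]
    show complexConjugation (u (u (v (v ζ)))) = ζ⁻¹
    rw [hsq v, hsq u]
    exact complexConjugation_rootOfUnity (by norm_num) hζ.pow_eq_one
  refine exists_aux_prime_of_element hΔ b hζ hgζ (by rw [← hφdet]; exact hgdet) (fun h => hgtr ?_) S
  exact (LinearMap.trace_eq_matrix_trace _ b _).symm.trans h

end Fermat.Agent.LevelLowering.Semistable
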