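import Fermat.Agent.Attach.Inputs
import Fermat.Agent.LevelLowering.Scalar.LevelO
import Fermat.Agent.LevelLowering.Semistable.Main

/-!
# Exactness of the monodromy at the scalar primes of a minimal level

The toric structure at a prime `r ≠ p` of a minimal level with an auxiliary prime gives exactness
of the residual monodromy block in any coordinates over the coefficient ring.
-/

noncomputable section

namespace Fermat.Agent.LevelLowering.Semistable

open Module IsLocalRing Matrix Attach WeierstrassCurve WeierstrassCurve.Affine.Point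
open Fermat.Agent.Gal Fermat.Agent.TW Fermat.Agent.LevelLowering.Scalar Fermat.Agent.Raising
open Fermat.Agent.Ihara
open scoped WeierstrassCurve.Affine

local notation "Qbar" => AlgebraicClosure ℚ

variable {p : ℕ} [hp : Fact p.Prime] (C : Coeff.CoeffRing p) {W : WeierstrassCurve ℤ}

/-- **Exactness at every scalar prime.** -/
theorem scalarExact (hp2 : p ≠ 2) (hΔ : W.Δ ≠ 0) (hirr : W.ModRepIsIrreducible p) :
    ScalarExact C W := by
  intro M t _ hmin ha B r hr hrM hrp _ A φ σ hA hφ hσ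
  classical
  have : NeZero M := ⟨hmin.ne_zero⟩
  have : NeZero t := ⟨ha.prime.ne_zero⟩
  have := Frey.isElliptic_mapRat hΔ
  obtain ⟨f, 𝔪, hf, h𝔪, hp𝔪, hcong⟩ := raise_mul t hmin.modular
  obtain ⟨Ins₀⟩ := nonempty_jacobianInputs (M * t) p
  let Ins : JacobianInputs (M * t) p := ⟨tModel (M * t) p, Ins₀.galois⟩
  set S := levelBad p (M * t) W
  have hNS : ∀ q, q.Prime → q ∣ M * t → q ∈ (↑S : Set ℕ) := fun q hq hd =>
    LoweringAtP.HeckeCompat.mem_badSet_of_dvd hq hd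
  have hgood : ∀ ℓ, ℓ.Prime → ℓ ∉ (↑S : Set ℕ) →
      W.IsGoodPrimeFor ℓ ∧ ¬ ℓ ∣ M * t ∧ ℓ ≠ p := fun ℓ hℓ hℓS =>
    LoweringAtP.HeckeCompat.good_of_not_mem_badSet hΔ hℓ fun h => hℓS (Finset.mem_coe.2 h)
  obtain ⟨θ, hθ⟩ := LoweringAtP.HeckeCompat.exists_theta_of_congr hf hNS Ins.model h𝔪 hp𝔪
    W.apOfModel
    fun ℓ hℓ _ hℓS => hcong ℓ hℓ (hgood ℓ hℓ hℓS).1 (hgood ℓ hℓ hℓS).2.1 (hgood ℓ hℓ hℓS).2.2
  obtain ⟨I⟩ := hmin.localToric ha hp2 hΔ hirr Ins hr hrM hrp hNS θ hθ hA hφ hσ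
  have hav : SysMatch θ (intSys W.apOfModel) := fun ℓ hℓN hℓS =>
    (resVal_liftSys_intSys W.apOfModel ℓ).trans (hθ ℓ ℓ.2 hℓN hℓS).symm
  have havO : ∀ ℓ : Nat.Primes, curveResSys C W ℓ =
      ResidueField.map (algebraMap ℤ_[p] C.O) (intSys W.apOfModel ℓ) := fun ℓ => by
    rw [curveResSys, curveSys, intSys, map_intCast, map_intCast, map_intCast]
  intro T₀ _ _ _ _ A₀ M₀ hM₀ hgen hgram hfrob₀ w hw
  refine resBlock_exact_levelO hNS hp2 Ins.galois (LoweringAtP.HeckeCompat.mem_badSet_self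
    (M * t) p W) hav
    (curveResSys C W) havO B.v B.fix B.basis
    (EC.finrank_torsionBy (K := Qbar) (W.map (Int.castRingHom ℚ)) p
      (Nat.cast_ne_zero.mpr hp.out.ne_zero))
    (galoisRepModuleEnd (K := Qbar) ℚ (W.map (Int.castRingHom ℚ)) p)
    (EC.residualRep (W.map (Int.castRingHom ℚ)) p).factorsThroughFiniteLevel
    (fun V hV => hirr.2 V fun τ x hx => ?_) (fun ℓ hℓ hℓN hℓS B' hB' g hg => ?_)
    hr.two_le (fun n => cyc_frobenius p n hr hrp hA hφ)
    I.toToricInputs B.Tm B.Tm_spec A₀ M₀ hM₀ hgen hgram hfrob₀ w hw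
  · have h := hV τ x hx
    rwa [galoisRepModuleEnd_apply] at h
  · obtain ⟨h1, -, h3⟩ := hgood ℓ hℓ hℓS
    have htr := EC.galoisTrace_frobenius W p ℓ hℓ h3 h1 hB' hg
    rw [galoisTrace_def] at htr
    exact ⟨htr.trans (hθ ℓ hℓ hℓN hℓS).symm,
      EC.det_frobenius p ℓ (W.map (Int.castRingHom ℚ)) hℓ h3 hB' hg⟩

end Fermat.Agent.LevelLowering.Semistable
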