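import Fermat.Agent.LevelLowering.Semistable.Act
import Fermat.Agent.LevelLowering.Semistable.AtP
import Fermat.Agent.LevelLowering.Semistable.Exact

/-!
# Lowering at unramified primes for semistable curves

The supply of levels with exactness at the scalar primes: no scalar prime at a minimal level.
-/

noncomputable section

namespace Fermat.Agent.LevelLowering.Semistable

open Module IsLocalRing Matrix WeierstrassCurve
open CongruenceSubgroup Fermat.Agent.Gal Fermat.Agent.Ihara Fermat.Agent.Grp Fermat.Agent.Raising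
open Fermat.Agent.LevelLowering.Scalar
open scoped WeierstrassCurve.Affine MatrixGroups

variable {p : ℕ} [hp : Fact p.Prime] {C : Coeff.CoeffRing p} {W : WeierstrassCurve ℤ}
  [(W.map (Int.castRingHom ℚ)).IsElliptic]

/-- A point of an auxiliary level has the residual system of the curve. -/
theorem SemistableTWDatum.congr_point {N₀ D n : ℕ} {qv : Fin D → ℕ}
    (T : SemistableTWDatum C W N₀ qv n)
    (P : TWPoint qv T.Ψ T.hΨ T.hneg T.S T.hNS T.sys) (ℓ : ℕ) (hℓ : ℓ.Prime) (hℓS : ℓ ∉ T.S) :
    P.ev (twGood T.Ψ T.hΨ T.hneg T.S T.hNS ⟨ℓ, hℓ⟩ hℓS) - (W.apOfModel ℓ : P.R) ∈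
      maximalIdeal P.R := by
  rw [← residue_eq_zero_iff, map_sub, sub_eq_zero,
    residue_ev_twGood T.Ψ T.hΨ T.hneg T.S T.hNS T.sys P.ev P.ev_idem ⟨ℓ, hℓ⟩ hℓS,
    T.sys_of_not_mem hℓ hℓS, curveResSys, curveSys, map_intCast, map_intCast, map_intCast]

/-- **Every point above a minimal level divisible by `p` is strictly ordinary at `p`.** -/
theorem strictSupply (hp2 : p ≠ 2) (hΔ : W.Δ ≠ 0) (hss : W.IsSemistableModel)
    (hirr : W.ModRepIsIrreducible p) : StrictSupply C W := by
  intro M t _ hmin ha hpM D n qv T P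
  have := T.neN
  have hpN : p ∣ M * t := hpM.mul_right t
  exact ((atPCond_of_point_minLevel C hp2 hΔ hss hirr hmin hpM T.ne_p (hpN.trans T.dvd_level)
    (T.not_sq_dvd hp.out hpN fun hd =>
      hp.out.ne_one (Nat.isUnit_iff.1 (hmin.squarefree_mul ha p (by rwa [← sq]))))
    P (T.congr_point P)).resolve_left fun h => h.1 hpM).2

/-- **The supply of levels.** -/
theorem levelSupply (hp2 : p ≠ 2) (hΔ : W.Δ ≠ 0) (hss : W.IsSemistableModel)
    (hirr : W.ModRepIsIrreducible p) (K : Type) [Field K] [IsAlgClosed K]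
    [Algebra C.O K] (hinjK : Function.Injective (algebraMap C.O K)) : LevelSupply C W K :=
  levelSupply_of_act hp2 hΔ hirr hinjK (actSupply hp2 hΔ hss hirr)
    (strictSupply hp2 hΔ hss hirr)

/-- **No scalar prime at a minimal level.** -/
theorem noScalarMinimal (hp2 : p ≠ 2) {W : WeierstrassCurve ℤ} (hΔ : W.Δ ≠ 0)
    (hss : W.IsSemistableModel) (hirr : W.ModRepIsIrreducible p) : NoScalarMinimal p W := by
  obtain ⟨C⟩ := Coeff.exists_coeffRing p
  have := Frey.isElliptic_mapRat hΔ
  let K := AlgebraicClosure (FractionRing C.O)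
  have hinj : Function.Injective (algebraMap C.O K) := injective_algebraMap_fracClosure C.O
  have : CharZero K := charZero_of_injective_algebraMap hinj
  exact noScalarMinimal_of_supply hp2 hΔ hss hirr hinj (levelSupply hp2 hΔ hss hirr K hinj)
    (scalarExact C hp2 hΔ hirr)

end Fermat.Agent.LevelLowering.Semistable
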