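import Mathlib.FieldTheory.IsAlgClosed.AlgebraicClosure
import Fermat.Prelude.Def_GaloisRep_Residual
import Fermat.Agent.LevelLowering.Semistable.Main

/-!
# Lowering at an unramified prime

The `p`-torsion of a semistable model, unramified at `q`, loses `q` from its level, given the
levels above minimal levels and exactness there.
-/
open WeierstrassCurve WeierstrassCurve.Affine WeierstrassCurve.Affine.Point
open Fermat.Agent.LevelLowering.Semistable Fermat.Agent.Raising

namespace Fermat.Agent.LevelLowering.Semistable

/-- **Lowering at an unramified prime** for the `p`-torsion of a semistable model, given the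
levels above minimal levels and exactness of the monodromy there. -/
theorem lowering_unramified_of_supply
    (p : ℕ) [Fact p.Prime] (hp2 : p ≠ 2) (W : WeierstrassCurve ℤ) (hΔ : W.Δ ≠ 0)
    (hW : W.IsSemistableModel)
    (hcard₁ : Nat.card (Submodule.torsionBy ℤ
      ((W.map (Int.castRingHom ℚ))⁄(AlgebraicClosure ℚ)).Point p) = p ^ 2)
    (hker : GaloisFactorsThroughFiniteLevel
      (WeierstrassCurve.Affine.Point.galoisRepModuleEnd (K := AlgebraicClosure ℚ) ℚ
        (W.map (Int.castRingHom ℚ)) p))
    (hirr : W.ModRepIsIrreducible p) (M q : ℕ) (hq : q.Prime) (hqp : q ≠ p)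
    (hqM : q ∣ M) (_hq2 : ¬ q ^ 2 ∣ M) (hM : Squarefree M)
    (hunr : ((W.map (Int.castRingHom ℚ)).residualGaloisRepOf p hcard₁ hker).IsUnramifiedAt q)
    (hres : W.IsResiduallyModularOfLevel p M)
    (hsup : ∀ (C : Coeff.CoeffRing p) (K : Type) [Field K] [IsAlgClosed K] [CharZero K]
      [Algebra C.O K] [(W.map (Int.castRingHom ℚ)).IsElliptic],
      Function.Injective (algebraMap C.O K) → LevelSupply C W K)
    (hex : ∀ (C : Coeff.CoeffRing p), ScalarExact C W) :
    W.IsResiduallyModularOfLevel p (M / q) := by
  obtain ⟨C⟩ := Coeff.exists_coeffRing p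
  have := Frey.isElliptic_mapRat hΔ
  let K := AlgebraicClosure (FractionRing C.O)
  have hinj : Function.Injective (algebraMap C.O K) := injective_algebraMap_fracClosure C.O
  have : CharZero K := charZero_of_injective_algebraMap hinj
  exact lowering_of_supply hp2 hΔ hW hirr hinj (hsup C K hinj) (hex C) hq hqp hqM hM
    (fun A hA τ hτ x => (galoisRepModuleEnd_apply _ _ _ x).symm.trans
      (LinearMap.congr_fun (hunr A hA τ hτ) x)) hres

end Fermat.Agent.LevelLowering.Semistable
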